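import Fermat.Agent.DS.Geom.Defs
import Fermat.Agent.Semistable.RatOrth
import Fermat.Agent.GoodRed.QbarPlace
import Fermat.Agent.Frobenius.Lifting
import Fermat.Agent.WeilPairing.FrobeniusTrace

/-!
# Reduction of classes of units modulo powers at level `Γ₁(M)`

`RedPow m x`: a scalar multiple of `x` reduces to the `m`-th power of a reduction.  The classes with
this property form the kernel of reduction.  Elements of the decomposition group preserve it and
inertia acts trivially modulo it.
-/

set_option autoImplicit false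
set_option linter.unusedSectionVars false
set_option linter.style.haveILetI false

noncomputable section

open ModularCurve IsLocalRing FLTAgent.GoodRed FLTAgent.Semistable FLTAgent.DS
open scoped Pointwise

namespace FLTAgent.RT.Compat

local notation "Qbar" => AlgebraicClosure ℚ
local notation "Γℚ" => AlgebraicClosure ℚ ≃ₐ[ℚ] AlgebraicClosure ℚ

variable {M : ℕ} [NeZero M]

theorem castSer_mem_boundedField (q : ℕ) [Fact q.Prime] (z : LaurentSeries ℤ) :
    castSer ℚ z ∈ Igusa.boundedField q := by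
  refine ⟨coeffMap (Int.castRingHom _) z, 1, one_ne_zero, ?_⟩
  rw [map_one, mul_one, Igusa.lift, coeffMap_coeffMap]
  exact coeffMap_congr (RingHom.ext_int _ _) z

theorem fieldOne_le_boundedField (q : ℕ) [Fact q.Prime] {x : LaurentSeries ℚ}
    (hx : x ∈ fieldOne M) : x ∈ Igusa.boundedField q := by
  unfold fieldOne at hx
  induction hx using IntermediateField.adjoin_induction with
  | mem z hz =>
    obtain ⟨w, -, rfl⟩ := hz
    exact castSer_mem_boundedField q w
  | algebraMap r => exact Igusa.algebraMap_rat_mem_boundedField q r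
  | add a b _ _ ha hb => exact add_mem ha hb
  | inv a _ ha => exact inv_mem ha
  | mul a b _ _ ha hb => exact mul_mem ha hb

variable {A : ValuationSubring (AlgebraicClosure ℚ)} {q : ℕ} [Fact q.Prime]

theorem hasOrth_K1 (hA : A.LiesOverPrime q) : HasOrth (residue A) (K1 M) := by
  haveI : CharP (ResidueField A) q := WeilPairing.charP_residueField Fact.out hA
  exact hasOrth_laurentBaseChange q hA fun _ hx => fieldOne_le_boundedField q hx

variable (M A) in
/-- The reductions of the functions of level `M`. -/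
def resField : IntermediateField (ResidueField A) (LaurentSeries (ResidueField A)) :=
  resImage (isResidueMap_residue A) (K1 M)

theorem mem_resField {z : LaurentSeries (ResidueField A)} :
    z ∈ resField M A ↔ ∃ y ∈ K1 M, SRed (residue A) y z := Iff.rfl

theorem exists_scale_K1 (hA : A.LiesOverPrime q) {x : K1 M} (hx : x ≠ 0) :
    ∃ (c : Qbar) (z : LaurentSeries (ResidueField A)), c ≠ 0 ∧ z ≠ 0 ∧ z ∈ resField M A ∧
      SRed (residue A) (c • (x : LaurentSeries Qbar)) z := by
  obtain ⟨c, z, hc, hz, h⟩ := (hasOrth_K1 (M := M) hA).exists_scale x.2 (by simpa using hx)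
  exact ⟨c, z, hc, hz, ⟨_, smul_mem_intermediateField _ c x.2, h⟩, h⟩

/-- A scalar multiple of `x` reduces to an `m`-th power of a reduction. -/
def RedPow (A : ValuationSubring (AlgebraicClosure ℚ)) (m : ℕ) (x : K1 M) : Prop :=
  ∃ (c : Qbar) (z : LaurentSeries (ResidueField A)), c ≠ 0 ∧ z ≠ 0 ∧ z ∈ resField M A ∧
    SRed (residue A) (c • (x : LaurentSeries Qbar)) (z ^ m)

theorem RedPow.one (m : ℕ) : RedPow A m (1 : K1 M) :=
  ⟨1, 1, one_ne_zero, one_ne_zero, one_mem _, by
    simpa using sRed_one (π := residue A)⟩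

theorem smul_mul_series {L : Type*} [Field L] (c d : L) (u v : LaurentSeries L) :
    (c * d) • (u * v) = c • u * d • v := by
  rw [smul_series, smul_series, smul_series, map_mul]
  ring

theorem smul_pow_series {L : Type*} [Field L] (c : L) (u : LaurentSeries L) (n : ℕ) :
    (c • u) ^ n = c ^ n • u ^ n := by
  rw [smul_series, smul_series, mul_pow, map_pow]

theorem RedPow.mul {m : ℕ} {x y : K1 M} (hx : RedPow A m x) (hy : RedPow A m y) :
    RedPow A m (x * y) := by
  obtain ⟨c, z, hc, hz, hzC, h⟩ := hx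
  obtain ⟨d, w, hd, hw, hwC, h'⟩ := hy
  refine ⟨c * d, z * w, mul_ne_zero hc hd, mul_ne_zero hz hw, mul_mem hzC hwC, ?_⟩
  have := h.mul h'
  rw [mul_pow]
  convert this using 1
  exact smul_mul_series c d _ _

theorem RedPow.inv {m : ℕ} {x : K1 M} (hx : RedPow A m x) : RedPow A m x⁻¹ := by
  obtain ⟨c, z, hc, hz, hzC, h⟩ := hx
  refine ⟨c⁻¹, z⁻¹, inv_ne_zero hc, inv_ne_zero hz, inv_mem hzC, ?_⟩
  have := h.inv (pow_ne_zero m hz)
  rw [inv_pow]
  convert this using 1
  rw [IntermediateField.coe_inv, smul_series, smul_series, map_inv₀, mul_inv]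

theorem redPow_pow (hA : A.LiesOverPrime q) (m : ℕ) {u : K1 M} (hu : u ≠ 0) :
    RedPow A m (u ^ m) := by
  obtain ⟨c, z, hc, hz, hzC, h⟩ := exists_scale_K1 hA hu
  refine ⟨c ^ m, z, pow_ne_zero m hc, hz, hzC, ?_⟩
  have := h.pow m
  convert this using 1
  exact (smul_pow_series c _ m).symm

/-- The units reducing to `m`-th powers up to scalars. -/
def redUnits (hA : A.LiesOverPrime q) (m : ℕ) : Subgroup (K1 M)ˣ where
  carrier := {x | RedPow A m (x : K1 M)}
  one_mem' := by simpa using RedPow.one m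
  mul_mem' := fun hx hy => by simpa using RedPow.mul hx hy
  inv_mem' := fun {x} hx => by simpa using RedPow.inv hx

theorem range_pow_le_redUnits (hA : A.LiesOverPrime q) (m : ℕ) :
    (powMonoidHom m : (K1 M)ˣ →* (K1 M)ˣ).range ≤ redUnits hA m := by
  rintro _ ⟨u, rfl⟩
  show RedPow A m ((u ^ m : (K1 M)ˣ) : K1 M)
  rw [Units.val_pow_eq_pow_val]
  exact redPow_pow hA m u.ne_zero

/-- The kernel of reduction on classes. -/
def redKer (hA : A.LiesOverPrime q) (m : ℕ) : AddSubgroup (UnitsModPow M m) :=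
  Subgroup.toAddSubgroup ((redUnits hA m).map
    (QuotientGroup.mk' (powMonoidHom m : (K1 M)ˣ →* (K1 M)ˣ).range))

theorem powClass_mem_redKer (hA : A.LiesOverPrime q) {m : ℕ} {x : (K1 M)ˣ} :
    powClass m x ∈ redKer hA m ↔ RedPow A m (x : K1 M) := by
  show QuotientGroup.mk x ∈ (redUnits hA m).map (QuotientGroup.mk' _) ↔ x ∈ redUnits hA m
  rw [← SetLike.mem_coe, Subgroup.coe_map]
  constructor
  · rintro ⟨y, hy, he⟩
    have h1 : y⁻¹ * x ∈ redUnits hA m := range_pow_le_redUnits hA m (QuotientGroup.eq.1 he)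
    simpa using mul_mem hy h1
  · exact fun hx => ⟨x, hx, rfl⟩

theorem exists_powClass {m : ℕ} (v : UnitsModPow M m) : ∃ x : (K1 M)ˣ, powClass m x = v := by
  obtain ⟨x, hx⟩ := QuotientGroup.mk_surjective (Additive.toMul v)
  exact ⟨x, congrArg Additive.ofMul hx⟩

theorem powClass_mul {m : ℕ} (x y : (K1 M)ˣ) :
    powClass m (x * y) = powClass m x + powClass m y := rfl

theorem powClass_eq_zero {m : ℕ} {x : (K1 M)ˣ} :
    powClass m x = 0 ↔ ∃ u : (K1 M)ˣ, u ^ m = x :=
  (QuotientGroup.eq_one_iff x).trans MonoidHom.mem_range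

theorem powClass_pow {m : ℕ} (x : (K1 M)ˣ) (k : ℕ) :
    powClass m (x ^ k) = k • powClass m x := rfl

variable (M) in
/-- The action of a Galois element on classes. -/
def galClass (m : ℕ) (σ : Γℚ) : UnitsModPow M m →+ UnitsModPow M m :=
  MonoidHom.toAdditive (QuotientGroup.map _ _ (Units.map (galOne M σ).toRingHom.toMonoidHom) (by
    rintro _ ⟨u, rfl⟩
    exact Subgroup.mem_comap.2 ⟨Units.map (galOne M σ).toRingHom.toMonoidHom u,
      ((Units.map (galOne M σ).toRingHom.toMonoidHom).map_pow u m).symm⟩))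

theorem galClass_powClass (m : ℕ) (σ : Γℚ) (x : (K1 M)ˣ) :
    galClass M m σ (powClass m x) =
      powClass m (Units.map (galOne M σ).toRingHom.toMonoidHom x) := rfl

theorem galClass_mul (m : ℕ) (σ τ : Γℚ) (v : UnitsModPow M m) :
    galClass M m (σ * τ) v = galClass M m σ (galClass M m τ v) := by
  obtain ⟨x, rfl⟩ := exists_powClass v
  simp only [galClass_powClass]
  congr 1

theorem galClass_one (m : ℕ) (v : UnitsModPow M m) : galClass M m 1 v = v := by
  obtain ⟨x, rfl⟩ := exists_powClass v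
  rw [galClass_powClass]
  congr 1

section decomposition

theorem decomp_mem {σ : Γℚ} (hσ : σ ∈ A.decompositionSubgroup ℚ) {a : Qbar} (ha : a ∈ A) :
    σ a ∈ A := by
  have h : σ • A = A := hσ
  rw [← h]
  exact ValuationSubring.smul_mem_pointwise_smul σ a A ha

/-- The residual automorphism of an element of the decomposition group. -/
def resAut {σ : Γℚ} (hσ : σ ∈ A.decompositionSubgroup ℚ) :
    ResidueField A ≃+* ResidueField A :=
  IsLocalRing.ResidueField.mapEquiv
    { toFun := fun a => ⟨σ a, decomp_mem hσ a.2⟩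
      invFun := fun a => ⟨σ⁻¹ a, decomp_mem (inv_mem hσ) a.2⟩
      left_inv := fun a => Subtype.ext (σ.symm_apply_apply _)
      right_inv := fun a => Subtype.ext (σ.apply_symm_apply _)
      map_mul' := fun a b => Subtype.ext (map_mul σ (a : Qbar) b)
      map_add' := fun a b => Subtype.ext (map_add σ (a : Qbar) b) }

theorem residue_resAut {σ : Γℚ} (hσ : σ ∈ A.decompositionSubgroup ℚ) (a : A) :
    residue A ⟨σ a, decomp_mem hσ a.2⟩ = resAut hσ (residue A a) := rfl

theorem sRed_galois {σ : Γℚ} (hσ : σ ∈ A.decompositionSubgroup ℚ) {y : LaurentSeries Qbar}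
    {z : LaurentSeries (ResidueField A)} (h : SRed (residue A) y z) :
    SRed (residue A) (coeffMap (σ : Qbar →+* Qbar) y)
      (coeffMap (resAut hσ).toRingHom z) :=
  h.map _ _ (fun _ ha => decomp_mem hσ ha) (residue_resAut hσ)

theorem coeffMap_mem_resField {σ : Γℚ} (hσ : σ ∈ A.decompositionSubgroup ℚ)
    {z : LaurentSeries (ResidueField A)} (hz : z ∈ resField M A) :
    coeffMap (resAut hσ).toRingHom z ∈ resField M A := by
  obtain ⟨y, hy, h⟩ := mem_resField.1 hz
  exact mem_resField.2 ⟨_, coeffMap_mem_laurentBaseChange σ hy, sRed_galois hσ h⟩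

theorem coeffMap_smul_series {L : Type*} [Field L] (f : L →+* L) (c : L)
    (y : LaurentSeries L) : coeffMap f (c • y) = f c • coeffMap f y := by
  rw [smul_series, smul_series, map_mul, coeffMap_algebraMap]

theorem RedPow.galOne {m : ℕ} {σ : Γℚ} (hσ : σ ∈ A.decompositionSubgroup ℚ) {x : K1 M}
    (hx : RedPow A m x) : RedPow A m (DS.galOne M σ x) := by
  obtain ⟨c, z, hc, hz, hzC, h⟩ := hx
  refine ⟨σ c, coeffMap (resAut hσ).toRingHom z, (map_ne_zero σ).2 hc,
    (map_ne_zero_iff _ (coeffMap (resAut hσ).toRingHom).injective).2 hz,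
    coeffMap_mem_resField hσ hzC, ?_⟩
  have := sRed_galois hσ h
  rwa [coeffMap_smul_series, map_pow] at this

theorem galClass_mem_redKer (hA : A.LiesOverPrime q) {m : ℕ} {σ : Γℚ}
    (hσ : σ ∈ A.decompositionSubgroup ℚ) {v : UnitsModPow M m} (hv : v ∈ redKer hA m) :
    galClass M m σ v ∈ redKer hA m := by
  obtain ⟨x, rfl⟩ := exists_powClass v
  rw [galClass_powClass, powClass_mem_redKer]
  exact ((powClass_mem_redKer hA).1 hv).galOne hσ

theorem resAut_eq_self_of_inertia {s : Γℚ} (hs : s ∈ A.inertiaSubgroupIn ℚ) (t : ResidueField A) :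
    resAut (Frobenius.mem_inertiaSubgroupIn_iff.1 hs).1 t = t := by
  obtain ⟨a, rfl⟩ := residue_surjective t
  rw [← residue_resAut, ← sub_eq_zero, ← map_sub, (isResidueMap_residue A).eq_zero_iff]
  exact (Frobenius.mem_inertiaSubgroupIn_iff.1 hs).2 _ a.2

/-- Inertia fixes classes modulo the kernel of reduction. -/
theorem galClass_sub_self_mem (hA : A.LiesOverPrime q) {m : ℕ} {s : Γℚ}
    (hs : s ∈ A.inertiaSubgroupIn ℚ) (v : UnitsModPow M m) :
    galClass M m s v - v ∈ redKer hA m := by
  obtain ⟨x, rfl⟩ := exists_powClass v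
  have e : galClass M m s (powClass m x) - powClass m x =
      powClass m (Units.map (galOne M s).toRingHom.toMonoidHom x * x⁻¹) := by
    rw [galClass_powClass, powClass_mul]
    exact (sub_eq_add_neg (G := UnitsModPow M m) _ _).trans rfl
  rw [e, powClass_mem_redKer]
  obtain ⟨c, z, hc, hz, -, h⟩ := exists_scale_K1 hA x.ne_zero
  have hd := (Frobenius.mem_inertiaSubgroupIn_iff.1 hs).1
  refine ⟨s c / c, 1, div_ne_zero ((map_ne_zero s).2 hc) hc, one_ne_zero, one_mem _, ?_⟩
  have h2 := sRed_galois hd h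
  have hz2 : coeffMap (resAut hd).toRingHom z = z :=
    HahnSeries.ext (funext fun n => resAut_eq_self_of_inertia hs (z.coeff n))
  rw [hz2] at h2
  have h3 := h2.div h hz
  rw [div_self hz] at h3
  rw [one_pow]
  convert h3 using 1
  rw [coeffMap_smul_series, smul_series, smul_series, smul_series, map_div₀, Units.val_mul,
    Units.val_inv_eq_inv_val, IntermediateField.coe_mul, IntermediateField.coe_inv]
  rw [mul_div_mul_comm]
  rfl

end decomposition

theorem exists_algebraMap_of_pow_eq {k : Type*} [Field k] [IsAlgClosed k] {n : ℕ} (hn : 0 < n)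
    {w : LaurentSeries k} {s : k} (h : w ^ n = algebraMap k (LaurentSeries k) s) :
    ∃ t : k, w = algebraMap k (LaurentSeries k) t := by
  have hint : IsIntegral k w := ⟨Polynomial.X ^ n - Polynomial.C s,
    Polynomial.monic_X_pow_sub_C s hn.ne', by simp [h]⟩
  have := IntermediateField.adjoin.finiteDimensional hint
  obtain ⟨t, ht⟩ := (IsAlgClosed.algebraMap_bijective_of_isIntegral
    (k := k) (K := IntermediateField.adjoin k ({w} : Set (LaurentSeries k)))).2
    ⟨w, IntermediateField.mem_adjoin_simple_self k w⟩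
  exact ⟨t, (congrArg Subtype.val ht).symm⟩

/-- If `x ^ n` reduces to an `m n`-th power, `x` reduces to an `m`-th power. -/
theorem RedPow.of_pow (hA : A.LiesOverPrime q) {m n : ℕ} (hn : 0 < n) {x : K1 M} (hx0 : x ≠ 0)
    (hx : RedPow A (m * n) (x ^ n)) : RedPow A m x := by
  haveI := GoodRed.isAlgClosed_residue A
  obtain ⟨c, z, hc, hz, hzC, h⟩ := hx
  obtain ⟨d, w, hd, hw, -, hr⟩ := exists_scale_K1 hA hx0
  obtain ⟨r, hr0⟩ := IsAlgClosed.exists_pow_nat_eq c hn
  have hr0' : r ≠ 0 := fun h0 => hc (by rw [← hr0, h0, zero_pow hn.ne'])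
  -- `(d / r) ^ n` is a unit of `A`
  set a := (d / r) ^ n with ha
  have e : d ^ n • ((x ^ n : K1 M) : LaurentSeries Qbar) =
      a • (c • ((x ^ n : K1 M) : LaurentSeries Qbar)) := by
    rw [smul_smul, ha, ← hr0, div_pow, div_mul_cancel₀ _ (pow_ne_zero _ hr0')]
  have h1 := hr.pow n
  rw [smul_pow_series] at h1
  change SRed _ (d ^ n • ((x ^ n : K1 M) : LaurentSeries Qbar)) _ at h1
  rw [e] at h1
  have haA : a ∈ A := by
    by_contra hna
    have hn' : a⁻¹ ∈ A.nonunits := by
      rw [ValuationSubring.inv_mem_nonunits_iff]; exact Or.inr hna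
    have ha0 : a ≠ 0 := fun h0 => hna (h0 ▸ zero_mem A)
    have h2 := h1.smul ⟨a⁻¹, A.nonunits_subset hn'⟩
    rw [((isResidueMap_residue A).eq_zero_iff _).2 hn', zero_smul] at h2
    change SRed _ (a⁻¹ • a • _) _ at h2
    rw [smul_smul, inv_mul_cancel₀ ha0, one_smul] at h2
    exact pow_ne_zero (m * n) hz (h.unique h2)
  have h3 := h1.unique (h.smul ⟨a, haA⟩)
  rw [smul_series] at h3
  obtain ⟨t, ht⟩ := exists_algebraMap_of_pow_eq (w := w / z ^ m) hn (s := residue A ⟨a, haA⟩) (by
    rw [div_pow, h3, ← pow_mul, mul_div_cancel_right₀ _ (pow_ne_zero _ hz)])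
  have ht0 : t ≠ 0 := fun h0 => div_ne_zero hw (pow_ne_zero m hz) (by rw [ht, h0, map_zero])
  obtain ⟨b, hb⟩ := residue_surjective t⁻¹
  have hb0 : (b : Qbar) ≠ 0 := fun h0 => inv_ne_zero ht0 (by
    rw [← hb, show b = 0 from Subtype.ext h0, map_zero])
  refine ⟨(b : Qbar) * d, z, mul_ne_zero hb0 hd, hz, hzC, ?_⟩
  rw [← smul_smul]
  convert hr.smul b using 1
  rw [hb, smul_series, show w = algebraMap _ _ t * z ^ m by
    rw [← ht, div_mul_cancel₀ _ (pow_ne_zero m hz)], ← mul_assoc, ← map_mul,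
    inv_mul_cancel₀ ht0, map_one, one_mul]

end FLTAgent.RT.Compat
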