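import Fermat.Agent.DS.Geom.Facts
import Fermat.Agent.RT.Compat.Reduce
import Fermat.Agent.FunctionField.PlaceBasic

/-!
# The class of a parabolic homomorphism

`jClass` sends a parabolic homomorphism `Γ₁(M) → ℤ / m` to the class of a function having an
`m`-th root with this multiplier system.
-/

set_option autoImplicit false
set_option linter.unusedSectionVars false

noncomputable section

open ModularCurve CongruenceSubgroup FLTAgent.DS
open scoped MatrixGroups

namespace FLTAgent.RT.Compat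

local notation "Qbar" => AlgebraicClosure ℚ

/-- The parabolic homomorphisms. -/
def parHom (Γ : Subgroup SL(2, ℤ)) (B : Type*) [AddCommGroup B] :
    AddSubgroup (Additive Γ →+ B) where
  carrier := {c | Period.IsParabolicHom Γ c}
  zero_mem' := fun _ _ => rfl
  add_mem' := fun {a b} ha hb γ hγ => by simp [ha γ hγ, hb γ hγ]
  neg_mem' := fun {a} ha γ hγ => by simp [ha γ hγ]

theorem mem_parHom {Γ : Subgroup SL(2, ℤ)} {B : Type*} [AddCommGroup B]
    {c : Additive Γ →+ B} : c ∈ parHom Γ B ↔ Period.IsParabolicHom Γ c := Iff.rfl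

/-- Composition with an additive map of the values. -/
def pushHom {Γ : Subgroup SL(2, ℤ)} {B C : Type*} [AddCommGroup B] [AddCommGroup C] (ψ : B →+ C)
    (c : parHom Γ B) : parHom Γ C :=
  ⟨ψ.comp c.1, fun γ hγ => by simp [c.2 γ hγ]⟩

variable {M : ℕ} [NeZero M] {D : DiamondData M} {m : ℕ} (H : CharClassFacts D m)

include H in
theorem exists_unit_class (c : parHom (Gamma1 M) (ZMod m)) :
    ∃ x : (K1 M)ˣ, DvdDiv m (x : K1 M) ∧ IsRootHomOne m (x : K1 M) c.1 := by
  obtain ⟨x, hx, hd, hr⟩ := H.exists_class c.1 c.2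
  exact ⟨Units.mk0 x hx, hd, hr⟩

/-- A unit with the multiplier system `c`. -/
def rootUnit (c : parHom (Gamma1 M) (ZMod m)) : (K1 M)ˣ := (exists_unit_class H c).choose

theorem rootUnit_spec (c : parHom (Gamma1 M) (ZMod m)) :
    DvdDiv m (rootUnit H c : K1 M) ∧ IsRootHomOne m (rootUnit H c : K1 M) c.1 :=
  (exists_unit_class H c).choose_spec

include H in
theorem powClass_eq_zero_of_root {x : (K1 M)ˣ} (hx : IsRootHomOne m (x : K1 M) 0) :
    powClass m x = 0 := by
  obtain ⟨u, hu⟩ := (H.pow_iff _ 0 x.ne_zero hx).1 rfl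
  rcases Nat.eq_zero_or_pos m with rfl | hm
  · exact powClass_eq_zero.2 ⟨1, Units.ext (by simpa using hu.symm)⟩
  have hu0 : u ≠ 0 := fun h => x.ne_zero (by rw [hu, h, zero_pow hm.ne'])
  exact powClass_eq_zero.2 ⟨Units.mk0 u hu0, Units.ext (by simp [hu])⟩

/-- The multiplier system determines the class. -/
theorem powClass_eq_of_root {x : (K1 M)ˣ} {c : parHom (Gamma1 M) (ZMod m)}
    (hx : IsRootHomOne m (x : K1 M) c.1) : powClass m x = powClass m (rootUnit H c) := by
  have hneg := (rootUnit_spec H (-c)).2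
  have h1 : ∀ {y : (K1 M)ˣ}, IsRootHomOne m (y : K1 M) c.1 →
      powClass m y + powClass m (rootUnit H (-c)) = 0 := fun {y} hy => by
    rw [← powClass_mul]
    refine powClass_eq_zero_of_root H ?_
    have := H.mul _ _ _ _ hy hneg
    rwa [AddSubgroup.coe_neg, add_neg_cancel] at this
  exact (eq_neg_of_add_eq_zero_left (h1 hx)).trans (eq_neg_of_add_eq_zero_left (h1 (rootUnit_spec H c).2)).symm

/-- The class of a parabolic homomorphism. -/
def jClass : parHom (Gamma1 M) (ZMod m) →+ UnitsModPow M m :=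
  AddMonoidHom.mk' (fun c => powClass m (rootUnit H c)) fun a b => by
    rw [← powClass_mul]
    exact (powClass_eq_of_root H (c := a + b) (by
      rw [Units.val_mul, AddSubgroup.coe_add]
      exact H.mul _ _ _ _ (rootUnit_spec H a).2 (rootUnit_spec H b).2)).symm

theorem jClass_eq {x : (K1 M)ˣ} {c : parHom (Gamma1 M) (ZMod m)}
    (hx : IsRootHomOne m (x : K1 M) c.1) : jClass H c = powClass m x :=
  (powClass_eq_of_root H hx).symm

theorem dvdDiv_mul {x y : K1 M} (hx0 : x ≠ 0) (hy0 : y ≠ 0) (hx : DvdDiv m x) (hy : DvdDiv m y) :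
    DvdDiv m (x * y) := fun v => by
  rw [v.ord_mul hx0 hy0]; exact dvd_add (hx v) (hy v)

theorem dvdDiv_pow {x : K1 M} (hx : DvdDiv m x) (k : ℕ) : DvdDiv m (x ^ k) := fun v => by
  rw [FunctionField.ord_pow]; exact dvd_mul_of_dvd_right (hx v) _

theorem dvdDiv_pow_self (u : K1 M) : DvdDiv m (u ^ m) := fun v => by
  rw [FunctionField.ord_pow]; exact dvd_mul_right _ _

include H in
theorem dvdDiv_of_root {x : (K1 M)ˣ} {c : parHom (Gamma1 M) (ZMod m)}
    (hx : IsRootHomOne m (x : K1 M) c.1) : DvdDiv m (x : K1 M) := by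
  have h := powClass_eq_of_root H hx
  have h0 : powClass m ((rootUnit H c)⁻¹ * x) = 0 := by
    rw [powClass_mul, h, ← powClass_mul, inv_mul_cancel]
    rfl
  obtain ⟨u, hu⟩ := powClass_eq_zero.1 h0
  have e : (x : K1 M) = (rootUnit H c : K1 M) * (u : K1 M) ^ m := by
    rw [← Units.val_pow_eq_pow_val, ← Units.val_mul, hu, mul_inv_cancel_left]
  rw [e]
  exact dvdDiv_mul (Units.ne_zero _) (pow_ne_zero _ u.ne_zero) (rootUnit_spec H c).1 (dvdDiv_pow_self _)

end FLTAgent.RT.Compat
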