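import Fermat.Agent.RT.Compat.Reduce
import Fermat.Agent.DS.Geom.Facts
import Mathlib.Algebra.Polynomial.Expand
import Mathlib.Algebra.CharP.Two
import Mathlib.RingTheory.Polynomial.Vieta

/-!
# Reductions commuting with Frobenius descend to the fixed field of the diamonds

The residue extension of the functions of level `Γ₁(M)` over those fixed by the diamonds commutes
with a Frobenius element at the place.  So if a fixed function reduces to a `p`-th power, its
Frobenius quotient reduces to the `p`-th power of the reduction of a fixed function.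
-/

set_option autoImplicit false
set_option linter.unusedSectionVars false
set_option linter.style.haveILetI false

noncomputable section

open ModularCurve IsLocalRing FLTAgent.GoodRed FLTAgent.Semistable FLTAgent.DS Polynomial

namespace FLTAgent.RT.Compat

local notation "Qbar" => AlgebraicClosure ℚ
local notation "Γℚ" => AlgebraicClosure ℚ ≃ₐ[ℚ] AlgebraicClosure ℚ

variable {M : ℕ} [NeZero M] {A : ValuationSubring (AlgebraicClosure ℚ)}

/-- `x` reduces to `z`. -/
abbrev RedTo (A : ValuationSubring (AlgebraicClosure ℚ)) (x : K1 M)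
    (z : LaurentSeries (ResidueField A)) : Prop :=
  SRed (residue A) (x : LaurentSeries Qbar) z

/-- `x` is integral for the Gauss valuation. -/
def IsInt (A : ValuationSubring (AlgebraicClosure ℚ)) (x : K1 M) : Prop := ∃ z, RedTo A x z

variable {q : ℕ} [Fact q.Prime]

theorem isInt_or_inv (hA : A.LiesOverPrime q) (x : K1 M) : IsInt A x ∨ IsInt A x⁻¹ := by
  rcases (hasOrth_K1 (M := M) hA).red_or_inv x.2 with h | h
  · exact Or.inl h
  · exact Or.inr h

theorem redTo_inv_zero (hA : A.LiesOverPrime q) {x : K1 M} (h : ¬ IsInt A x) :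
    RedTo A x⁻¹ 0 := by
  obtain ⟨z, hz⟩ := (isInt_or_inv hA x).resolve_left h
  rcases eq_or_ne z 0 with rfl | hz0
  · exact hz
  · exact absurd ⟨z⁻¹, by simpa [RedTo] using hz.inv hz0⟩ h

theorem not_isInt_inv {x : K1 M} (hx : x ≠ 0) (h : RedTo A x 0) : ¬ IsInt A x⁻¹ := by
  rintro ⟨z, hz⟩
  have h1 : RedTo A x 0 ∧ SRed (residue A) ((x : LaurentSeries Qbar)⁻¹) z := ⟨h, hz⟩
  have h2 := h1.1.mul h1.2
  rw [zero_mul, mul_inv_cancel₀ (by simpa using hx)] at h2
  exact zero_ne_one (h2.unique sRed_one)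

variable (D : DiamondData M)

variable (A) in
/-- The diamonds preserving integrality. -/
def stabSet : Set (ZMod M)ˣ := {u | ∀ x : K1 M, IsInt A x → IsInt A (D.dia u x)}

theorem dia_mul_apply (u v : (ZMod M)ˣ) (x : K1 M) : D.dia (u * v) x = D.dia u (D.dia v x) := by
  rw [map_mul]; rfl

theorem dia_one_apply (x : K1 M) : D.dia 1 x = x := by rw [map_one]; rfl

theorem one_mem_stab : (1 : (ZMod M)ˣ) ∈ stabSet A D := fun x hx => by rwa [dia_one_apply]

theorem mul_mem_stab {u v : (ZMod M)ˣ} (hu : u ∈ stabSet A D) (hv : v ∈ stabSet A D) :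
    u * v ∈ stabSet A D := fun x hx => by rw [dia_mul_apply]; exact hu _ (hv _ hx)

theorem inv_mem_stab {u : (ZMod M)ˣ} (hu : u ∈ stabSet A D) : u⁻¹ ∈ stabSet A D := by
  rw [← zpow_neg_one, zpow_eq_zpow_emod (n := (orderOf u : ℤ)) (-1)
    (by rw [zpow_natCast, pow_orderOf_eq_one])]
  obtain ⟨n, hn⟩ := Int.eq_ofNat_of_zero_le
    (Int.emod_nonneg (-1) (Int.natCast_ne_zero.2 (orderOf_pos u).ne'))
  rw [hn, zpow_natCast]
  clear hn
  induction n with
  | zero => simpa using one_mem_stab D
  | succ n ih => rw [pow_succ]; exact mul_mem_stab D ih hu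

theorem mul_mem_stab_iff {u v : (ZMod M)ˣ} (hu : u ∈ stabSet A D) :
    u * v ∈ stabSet A D ↔ v ∈ stabSet A D :=
  ⟨fun h => by simpa using mul_mem_stab D (inv_mem_stab D hu) h, mul_mem_stab D hu⟩

/-- Elements of the stabiliser keep reduction zero and nonzero apart. -/
theorem redTo_dia_zero (hA : A.LiesOverPrime q) {u : (ZMod M)ˣ} (hu : u ∈ stabSet A D) {x : K1 M}
    (h : RedTo A x 0) : RedTo A (D.dia u x) 0 := by
  rcases eq_or_ne x 0 with rfl | hx
  · rw [map_zero]; exact sRed_zero
  have hn : ¬ IsInt A (D.dia u x⁻¹) := fun hi => not_isInt_inv hx h (by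
    have := inv_mem_stab D hu _ hi
    rwa [← dia_mul_apply, inv_mul_cancel, dia_one_apply] at this)
  have := redTo_inv_zero hA hn
  rwa [map_inv₀, inv_inv] at this

theorem exists_redTo_dia {u : (ZMod M)ˣ} (hu : u ∈ stabSet A D) {x : K1 M}
    {z : LaurentSeries (ResidueField A)} (h : RedTo A x z) : ∃ w, RedTo A (D.dia u x) w :=
  hu x ⟨z, h⟩

theorem redTo_dia_ne_zero (hA : A.LiesOverPrime q) {u : (ZMod M)ˣ} (hu : u ∈ stabSet A D)
    {x : K1 M} {z w : LaurentSeries (ResidueField A)} (h : RedTo A x z) (hz : z ≠ 0)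
    (hw : RedTo A (D.dia u x) w) : w ≠ 0 := by
  rintro rfl
  have := redTo_dia_zero D hA (inv_mem_stab D hu) hw
  rw [← dia_mul_apply, inv_mul_cancel, dia_one_apply] at this
  exact hz (h.unique this)

/-- `z` is the reduction of a function fixed by all diamonds. -/
def FixRed (z : LaurentSeries (ResidueField A)) : Prop :=
  ∃ y : K1 M, (∀ u, D.dia u y = y) ∧ RedTo A y z

namespace FixRed

variable {D} {z w : LaurentSeries (ResidueField A)}

theorem mul (hz : FixRed D z) (hw : FixRed D w) : FixRed D (z * w) := by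
  obtain ⟨y, hy, h⟩ := hz
  obtain ⟨y', hy', h'⟩ := hw
  exact ⟨y * y', fun u => by rw [map_mul, hy, hy'], h.mul h'⟩

theorem add (hz : FixRed D z) (hw : FixRed D w) : FixRed D (z + w) := by
  obtain ⟨y, hy, h⟩ := hz
  obtain ⟨y', hy', h'⟩ := hw
  exact ⟨y + y', fun u => by rw [map_add, hy, hy'], h.add h'⟩

theorem const (t : ResidueField A) :
    FixRed D (algebraMap (ResidueField A) (LaurentSeries (ResidueField A)) t) := by
  obtain ⟨a, rfl⟩ := residue_surjective t
  exact ⟨algebraMap Qbar (K1 M) a, fun u => (D.dia u).commutes _, sRed_algebraMap a⟩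

theorem one : FixRed D (1 : LaurentSeries (ResidueField A)) := by
  simpa using const (A := A) (D := D) 1

theorem inv (hz : FixRed D z) : FixRed D z⁻¹ := by
  rcases eq_or_ne z 0 with rfl | hz0
  · rwa [inv_zero]
  obtain ⟨y, hy, h⟩ := hz
  exact ⟨y⁻¹, fun u => by rw [map_inv₀, hy], h.inv hz0⟩

theorem pow (hz : FixRed D z) : ∀ n : ℕ, FixRed D (z ^ n)
  | 0 => by simpa using one
  | n + 1 => by rw [pow_succ]; exact (pow hz n).mul hz

theorem zpow (hz : FixRed D z) : ∀ n : ℤ, FixRed D (z ^ n)
  | Int.ofNat n => by simpa using hz.pow n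
  | Int.negSucc n => by simpa [zpow_negSucc] using (hz.pow (n + 1)).inv

end FixRed

open scoped Classical in
/-- A function with reduction `e` at the stabiliser and `0` elsewhere puts a power of `e` of
exponent a power of `q` into the fixed reductions. -/
theorem exists_fixRed_pow [CharP (ResidueField A) q] {y : K1 M}
    {e : LaurentSeries (ResidueField A)} (hin : ∀ u ∈ stabSet A D, RedTo A (D.dia u y) e)
    (hout : ∀ u, u ∉ stabSet A D → RedTo A (D.dia u y) 0) :
    ∃ s : ℕ, FixRed D (e ^ q ^ s) := by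
  haveI : NeZero q := ⟨(Fact.out : q.Prime).ne_zero⟩
  haveI : CharP (LaurentSeries (ResidueField A)) q :=
    charP_of_injective_algebraMap
      (algebraMap (ResidueField A) (LaurentSeries (ResidueField A))).injective q
  set g : (ZMod M)ˣ → LaurentSeries (ResidueField A) :=
    fun u => if u ∈ stabSet A D then e else 0
  have hg : ∀ u, RedTo A (D.dia u y) (g u) := fun u => by
    by_cases hu : u ∈ stabSet A D
    · simpa [g, hu] using hin u hu
    · simpa [g, hu] using hout u hu
  set d := (Finset.univ.filter fun u : (ZMod M)ˣ => u ∈ stabSet A D).card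
  set r := (Finset.univ.filter fun u : (ZMod M)ˣ => ¬ u ∈ stabSet A D).card
  have hd : d ≠ 0 := Finset.card_ne_zero.2 ⟨1, by simpa using one_mem_stab D⟩
  obtain ⟨s, m, hm, hdm⟩ := Nat.exists_eq_pow_mul_and_not_dvd hd q (Fact.out : q.Prime).ne_one
  refine ⟨s, ?_⟩
  set P : (K1 M)[X] := ∏ u, (X - C (D.dia u y))
  set Pb : (LaurentSeries (ResidueField A))[X] := ∏ u, (X - C (g u))
  have hred : ∀ (S : Finset (ZMod M)ˣ) (n : ℕ),
      RedTo A ((∏ u ∈ S, (X - C (D.dia u y))).coeff n) ((∏ u ∈ S, (X - C (g u))).coeff n) := by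
    intro S
    induction S using Finset.induction with
    | empty =>
      intro n
      rw [Finset.prod_empty, Finset.prod_empty, coeff_one, coeff_one]
      split_ifs
      · exact sRed_one
      · exact sRed_zero
    | insert a S ha ih =>
      intro n
      rw [Finset.prod_insert ha, Finset.prod_insert ha, sub_mul, sub_mul, coeff_sub, coeff_sub,
        coeff_C_mul, coeff_C_mul]
      refine SRed.sub ?_ ((hg a).mul (ih n))
      cases n with
      | zero => rw [coeff_X_mul_zero, coeff_X_mul_zero]; exact sRed_zero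
      | succ n => rw [coeff_X_mul, coeff_X_mul]; exact ih n
  have hfix : ∀ (n : ℕ) (v : (ZMod M)ˣ), D.dia v (P.coeff n) = P.coeff n := by
    intro n v
    have hP : P.map (D.dia v).toRingEquiv.toRingHom = P := by
      simp only [P, Polynomial.map_prod, Polynomial.map_sub, map_X, map_C]
      exact Fintype.prod_equiv (Equiv.mulLeft v) _ _ fun u => by
        rw [Equiv.coe_mulLeft, dia_mul_apply]; rfl
    conv_rhs => rw [← hP, coeff_map]
    rfl
  have hcoef : ∀ n, FixRed D (Pb.coeff n) := fun n => ⟨_, hfix n, hred Finset.univ n⟩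
  have hPb : Pb = expand _ (q ^ s) ((X - C (e ^ q ^ s)) ^ m) * X ^ r := by
    simp only [Pb]
    rw [← Finset.prod_filter_mul_prod_filter_not Finset.univ (fun u => u ∈ stabSet A D),
      Finset.prod_congr rfl (fun u hu => by rw [show g u = e from if_pos (Finset.mem_filter.1 hu).2]),
      Finset.prod_const,
      Finset.prod_congr (g := fun _ => X) rfl (fun u hu => by
        rw [show g u = 0 from if_neg (Finset.mem_filter.1 hu).2, map_zero, sub_zero]),
      Finset.prod_const]
    congr 1
    show (X - C e) ^ d = _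
    rw [hdm, pow_mul, map_pow, map_sub, expand_X, expand_C]
    congr 1
    haveI : ExpChar (LaurentSeries (ResidueField A))[X] q := ExpChar.prime Fact.out
    rw [sub_pow_expChar_pow, map_pow]
  have hm0 : 1 ≤ m := Nat.one_le_iff_ne_zero.2 fun h0 => hm (h0 ▸ dvd_zero q)
  have h1 := hcoef (q ^ s * (m - 1) + r)
  rw [hPb, coeff_mul_X_pow, coeff_expand_mul' (pow_pos (Fact.out : q.Prime).pos _)] at h1
  have hc : ((X - C (e ^ q ^ s)) ^ m).coeff (m - 1) =
      algebraMap (ResidueField A) (LaurentSeries (ResidueField A)) (-(m : ResidueField A)) *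
        e ^ q ^ s := by
    have hmon : ((X - C (e ^ q ^ s)) ^ m).nextCoeff = m • (X - C (e ^ q ^ s)).nextCoeff :=
      (monic_X_sub_C _).nextCoeff_pow m
    rw [nextCoeff_X_sub_C, nextCoeff_of_natDegree_pos (by
      rw [natDegree_pow, natDegree_X_sub_C]; omega), natDegree_pow, natDegree_X_sub_C, mul_one]
      at hmon
    rw [hmon, map_neg, map_natCast, nsmul_eq_mul]
    ring
  rw [hc] at h1
  have hmk : (-(m : ResidueField A)) ≠ 0 := neg_ne_zero.2 (by
    rw [Ne, CharP.cast_eq_zero_iff (ResidueField A) q]; exact hm)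
  have h2 := (FixRed.const (D := D) (A := A) (-(m : ResidueField A))⁻¹).mul h1
  rwa [← mul_assoc, ← map_mul, inv_mul_cancel₀ hmk, map_one, one_mul] at h2

theorem exists_unit_avoid (p : ℕ) (S : Finset (LaurentSeries (ResidueField A))) :
    ∃ c : A, residue A c ≠ 0 ∧ ∀ w ∈ S,
      1 + algebraMap (ResidueField A) (LaurentSeries (ResidueField A)) (residue A c) * w ^ p ≠ 0 := by
  classical
  haveI := GoodRed.isAlgClosed_residue A
  obtain ⟨t, ht⟩ := Infinite.exists_notMem_finset
    (insert (0 : ResidueField A) (S.image fun w => (-((w ^ p)⁻¹)).coeff 0))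
  obtain ⟨c, rfl⟩ := residue_surjective t
  refine ⟨c, fun h => ht (by simp [h]), fun w hw h0 => ht ?_⟩
  refine Finset.mem_insert_of_mem (Finset.mem_image.2 ⟨w, hw, ?_⟩)
  have h1 : algebraMap (ResidueField A) (LaurentSeries (ResidueField A)) (residue A c) * w ^ p
      = -1 := eq_neg_of_add_eq_zero_right h0
  have hw0 : w ^ p ≠ 0 := fun h => by rw [h, mul_zero] at h1; exact one_ne_zero (neg_eq_zero.1 h1.symm)
  have h2 : algebraMap (ResidueField A) (LaurentSeries (ResidueField A)) (residue A c) =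
      -((w ^ p)⁻¹) := by rw [eq_div_of_mul_eq hw0 h1, neg_div, one_div]
  rw [← h2, algebraMap_laurentSeries_eq_single, HahnSeries.coeff_single_same]

/-- Correcting an element so that it is integral at all conjugates. -/
theorem exists_damped (hA : A.LiesOverPrime q) {p : ℕ} (hp : 2 ≤ p) (t : K1 M) :
    ∃ c : A, residue A c ≠ 0 ∧
      (∀ u, ∃ w, RedTo A (D.dia u (t / (1 + algebraMap Qbar (K1 M) c * t ^ p))) w) ∧
      (∀ u w, RedTo A (D.dia u t) w →
        1 + algebraMap (ResidueField A) (LaurentSeries (ResidueField A)) (residue A c) * w ^ p ≠ 0 ∧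
        RedTo A (D.dia u (t / (1 + algebraMap Qbar (K1 M) c * t ^ p)))
          (w / (1 + algebraMap (ResidueField A) (LaurentSeries (ResidueField A)) (residue A c) *
            w ^ p))) ∧
      (∀ u, ¬ IsInt A (D.dia u t) →
        RedTo A (D.dia u (t / (1 + algebraMap Qbar (K1 M) c * t ^ p))) 0) := by
  classical
  obtain ⟨c, hc, hS⟩ := exists_unit_avoid p
    (Finset.univ.image fun u : (ZMod M)ˣ =>
      if h : ∃ w, RedTo A (D.dia u t) w then h.choose else 0)
  have hval : ∀ u, D.dia u (t / (1 + algebraMap Qbar (K1 M) c * t ^ p)) =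
      D.dia u t / (1 + algebraMap Qbar (K1 M) c * D.dia u t ^ p) := fun u => by
    rw [map_div₀, map_add, map_one, map_mul, map_pow, AlgEquiv.commutes]
  have h2 : ∀ u w, RedTo A (D.dia u t) w →
      1 + algebraMap (ResidueField A) (LaurentSeries (ResidueField A)) (residue A c) * w ^ p ≠ 0 ∧
        RedTo A (D.dia u (t / (1 + algebraMap Qbar (K1 M) c * t ^ p)))
          (w / (1 + algebraMap (ResidueField A) (LaurentSeries (ResidueField A)) (residue A c) *
            w ^ p)) := fun u w hw => by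
    have hex : ∃ w, RedTo A (D.dia u t) w := ⟨w, hw⟩
    have hne := hS _ (Finset.mem_image.2 ⟨u, Finset.mem_univ u, by rw [dif_pos hex]⟩)
    rw [hex.choose_spec.unique hw] at hne
    refine ⟨hne, ?_⟩
    rw [hval]
    exact hw.div (sRed_one.add ((sRed_algebraMap c).mul (hw.pow p))) hne
  have h3 : ∀ u, ¬ IsInt A (D.dia u t) →
      RedTo A (D.dia u (t / (1 + algebraMap Qbar (K1 M) c * t ^ p))) 0 := fun u hu => by
    set x := D.dia u t with hx
    have hi : RedTo A x⁻¹ 0 := redTo_inv_zero hA hu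
    have hx0 : x ≠ 0 := fun h => hu (h ▸ ⟨0, sRed_zero⟩)
    have hk : algebraMap (ResidueField A) (LaurentSeries (ResidueField A)) (residue A c) ≠ 0 :=
      (_root_.map_ne_zero _).2 hc
    have hnum : RedTo A (x⁻¹ ^ (p - 1)) 0 := by
      have := hi.pow (p - 1)
      rwa [zero_pow (by omega)] at this
    have hden : RedTo A (x⁻¹ ^ p + algebraMap Qbar (K1 M) c)
        (algebraMap (ResidueField A) (LaurentSeries (ResidueField A)) (residue A c)) := by
      have := (hi.pow p).add (sRed_algebraMap (π := residue A) c)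
      rwa [zero_pow (by omega), zero_add] at this
    have hq := hnum.div hden hk
    rw [zero_div] at hq
    rw [hval, ← hx]
    convert hq using 1
    show ((x / (1 + _ * x ^ p) : K1 M) : LaurentSeries Qbar) =
      ((x⁻¹ ^ (p - 1) / (x⁻¹ ^ p + _) : K1 M) : LaurentSeries Qbar)
    congr 1
    have hp' : x ^ p = x ^ (p - 1) * x := by rw [← pow_succ]; congr 1; omega
    rw [← mul_div_mul_right x _ (pow_ne_zero p (inv_ne_zero hx0)), add_mul, one_mul, mul_assoc,
      ← mul_pow x x⁻¹, mul_inv_cancel₀ hx0, one_pow, mul_one]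
    congr 1
    rw [show x⁻¹ ^ p = x⁻¹ ^ (p - 1) * x⁻¹ by rw [← pow_succ]; congr 1; omega,
      mul_left_comm, mul_inv_cancel₀ hx0, mul_one]
  refine ⟨c, hc, fun u => ?_, h2, h3⟩
  by_cases hu : IsInt A (D.dia u t)
  · exact ⟨_, (h2 u _ hu.choose_spec).2⟩
  · exact ⟨0, h3 u hu⟩

/-- An element which reduces to a nonzero series at all of the stabiliser, the same one, and to zero
elsewhere. -/
theorem exists_separator (hA : A.LiesOverPrime q) {p : ℕ} (hp : 2 ≤ p) :
    ∃ (E : K1 M) (ε : LaurentSeries (ResidueField A)), ε ≠ 0 ∧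
      (∀ u ∈ stabSet A D, RedTo A (D.dia u E) ε) ∧
      ∀ u, u ∉ stabSet A D → RedTo A (D.dia u E) 0 := by
  classical
  have hsep : ∀ v, v ∉ stabSet A D → ∃ t : K1 M, (∀ u, IsInt A (D.dia u t)) ∧
      (∃ z, z ≠ 0 ∧ RedTo A t z) ∧ RedTo A (D.dia v t) 0 := by
    intro v hv
    simp only [stabSet, Set.mem_setOf_eq, not_forall, exists_prop] at hv
    obtain ⟨x, ⟨z, hz⟩, hvx⟩ := hv
    -- adjust the residue to be nonzero
    obtain ⟨x', z', hz', hz'0, hvx'⟩ : ∃ x' z', RedTo A x' z' ∧ z' ≠ 0 ∧
        ¬ IsInt A (D.dia v x') := by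
      rcases eq_or_ne z 0 with rfl | hz0
      · refine ⟨x + 1, 1, by simpa [RedTo] using hz.add (sRed_one (π := residue A)), one_ne_zero,
          fun ⟨w, hw⟩ => hvx ⟨w - 1, ?_⟩⟩
        have := hw.sub (sRed_one (π := residue A))
        rw [map_add, map_one] at this
        simpa [RedTo] using this
      · exact ⟨x, z, hz, hz0, hvx⟩
    obtain ⟨c, hc, hint, h2, h3⟩ := exists_damped D hA hp x'
    refine ⟨_, hint, ⟨_, ?_, by simpa [dia_one_apply] using (h2 1 z' (by rwa [dia_one_apply])).2⟩,
      h3 v hvx'⟩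
    exact div_ne_zero hz'0 (h2 1 z' (by rwa [dia_one_apply])).1
  choose t hint hnz hzero using hsep
  set T : K1 M := ∏ v : {v // v ∉ stabSet A D}, t v.1 v.2
  choose z hz0 hz using hnz
  choose R hR using fun v (hv : v ∉ stabSet A D) => hint v hv
  -- reductions of the conjugates of `T`
  have hT : ∀ u, RedTo A (D.dia u T) (∏ v : {v // v ∉ stabSet A D}, R v.1 v.2 u) := fun u => by
    show SRed _ _ _
    rw [map_prod]
    induction (Finset.univ : Finset {v // v ∉ stabSet A D}) using Finset.induction with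
    | empty => simpa using sRed_one
    | insert a S ha ih =>
      rw [Finset.prod_insert ha, Finset.prod_insert ha, IntermediateField.coe_mul]
      exact (hR a.1 a.2 u).mul ih
  set G : (ZMod M)ˣ → LaurentSeries (ResidueField A) := fun u =>
    ∏ v : {v // v ∉ stabSet A D}, R v.1 v.2 u
  set Hs := Finset.univ.filter fun u : (ZMod M)ˣ => u ∈ stabSet A D
  have hE : ∀ u, RedTo A (D.dia u (∏ h ∈ Hs, D.dia h T)) (∏ h ∈ Hs, G (u * h)) := fun u => by
    show SRed _ _ _
    rw [map_prod]
    induction Hs using Finset.induction with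
    | empty => simpa using sRed_one
    | insert a S ha ih =>
      rw [Finset.prod_insert ha, Finset.prod_insert ha, IntermediateField.coe_mul, ← dia_mul_apply]
      exact (hT (u * a)).mul ih
  refine ⟨∏ h ∈ Hs, D.dia h T, ∏ h ∈ Hs, G h, Finset.prod_ne_zero_iff.2 fun h hh =>
    Finset.prod_ne_zero_iff.2 fun v _ => ?_, fun u hu => ?_, fun u hu => ?_⟩
  · exact redTo_dia_ne_zero D hA (Finset.mem_filter.1 hh).2 (hz v.1 v.2) (hz0 v.1 v.2)
      (hR v.1 v.2 h)
  · have he : ∏ h ∈ Hs, G (u * h) = ∏ h ∈ Hs, G h := by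
      refine Finset.prod_equiv (Equiv.mulLeft u) (fun h => ?_) (fun h _ => rfl)
      simpa [Hs] using (mul_mem_stab_iff D hu).symm
    rw [← he]
    exact hE u
  · have h0 : ∏ h ∈ Hs, G (u * h) = 0 := by
      refine Finset.prod_eq_zero (i := 1) (by simpa [Hs] using one_mem_stab D) ?_
      rw [mul_one]
      exact Finset.prod_eq_zero (i := ⟨u, hu⟩) (Finset.mem_univ _)
        ((hR u hu u).unique (hzero u hu))
    rw [← h0]
    exact hE u

/-- **Commutation.** -/
theorem fixRed_frobenius_quotient (hA : A.LiesOverPrime q) {p : ℕ} (hp : p.Prime)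
    (hqp : q % p = 1) {φ : Γℚ} (hφ : A.IsFrobeniusAt φ q) {f : K1 M}
    (hfix : ∀ u, D.dia u f = f) (hf : RedPow A p f) :
    ∃ (c : Qbar) (e : LaurentSeries (ResidueField A)), c ≠ 0 ∧ e ≠ 0 ∧ FixRed D e ∧
      RedTo A (algebraMap Qbar (K1 M) c * (galOne M φ f / f)) (e ^ p) := by
  haveI : CharP (ResidueField A) q := WeilPairing.charP_residueField Fact.out hA
  haveI := GoodRed.isAlgClosed_residue A
  have hd := (Frobenius.isFrobeniusAt_iff.1 hφ).1
  set τ := coeffMap (resAut hd).toRingHom
  obtain ⟨c, z, hc, hz0, hzC, hcz⟩ := hf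
  obtain ⟨y, hy, hyz⟩ := mem_resField.1 hzC
  set Y : K1 M := ⟨y, hy⟩
  have hY0 : RedTo A Y z := hyz
  set F : K1 M := algebraMap Qbar (K1 M) c * f with hFdef
  have hF : RedTo A F (z ^ p) := by
    show SRed _ _ _
    rwa [show ((F : K1 M) : LaurentSeries Qbar) = c • (f : LaurentSeries Qbar) from
      (smul_series c _).symm]
  have hFfix : ∀ u, D.dia u F = F := fun u => by rw [hFdef, map_mul, hfix, AlgEquiv.commutes]
  set e := τ z / z
  have he0 : e ≠ 0 :=
    div_ne_zero ((map_ne_zero_iff _ (coeffMap (resAut hd).toRingHom).injective).2 hz0) hz0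
  have hgal : ∀ {x : K1 M} {w}, RedTo A x w → RedTo A (galOne M φ x) (τ w) :=
    fun h => sRed_galois hd h
  -- `Y` has the same quotient at all of the stabiliser
  have hin : ∀ u ∈ stabSet A D, RedTo A (D.dia u (galOne M φ Y / Y)) e := by
    intro u hu
    obtain ⟨w, hw⟩ := exists_redTo_dia D hu hY0
    have h0 : RedTo A (Y ^ p - F) 0 := by
      have := (hY0.pow p).sub hF
      simpa [RedTo] using this
    have h1 := redTo_dia_zero D hA hu h0
    rw [map_sub, map_pow, hFfix] at h1
    have h2 := (hw.pow p).sub hF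
    have h3 : w ^ p = z ^ p := sub_eq_zero.1 (SRed.unique (π := residue A)
      (by simpa [RedTo] using h2) h1)
    obtain ⟨ζ, hζ⟩ := exists_algebraMap_of_pow_eq (w := w / z) hp.pos (s := (1 : ResidueField A))
      (by rw [div_pow, h3, div_self (pow_ne_zero _ hz0), map_one])
    have hwz : w = algebraMap _ _ ζ * z := by rw [← hζ, div_mul_cancel₀ _ hz0]
    have hζp : ζ ^ p = 1 := by
      refine (algebraMap (ResidueField A) (LaurentSeries (ResidueField A))).injective ?_
      rw [map_pow, ← hζ, div_pow, h3, div_self (pow_ne_zero _ hz0), map_one]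
    have hτζ : resAut hd ζ = ζ := by
      obtain ⟨a, ha⟩ := residue_surjective ζ
      have h4 : residue A ⟨φ (a : Qbar), decomp_mem hd a.2⟩ = residue A (a ^ q) := by
        rw [← sub_eq_zero, ← map_sub, (isResidueMap_residue A).eq_zero_iff]
        exact (Frobenius.isFrobeniusAt_iff.1 hφ).2 _ a.2
      rw [map_pow, residue_resAut hd, ha] at h4
      rw [h4]
      conv_lhs => rw [← Nat.div_add_mod q p, hqp, pow_add, pow_one, pow_mul, hζp, one_pow, one_mul]
    have hz' : algebraMap (ResidueField A) (LaurentSeries (ResidueField A)) ζ ≠ 0 := by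
      intro h; rw [hwz, h, zero_mul] at h3; exact pow_ne_zero p hz0 (by rw [← h3, zero_pow hp.ne_zero])
    have hτw : τ w = algebraMap _ _ ζ * τ z := by
      rw [hwz, map_mul]
      congr 1
      rw [algebraMap_laurentSeries_eq_single, coeffMap_single]
      exact congrArg _ hτζ
    have hwne : w ≠ 0 := by rw [hwz]; exact mul_ne_zero hz' hz0
    rw [map_div₀, D.dia_galOne]
    have h5 := (hgal hw).div hw hwne
    rw [hτw, hwz, mul_div_mul_left _ _ hz'] at h5
    exact h5
  -- damp and separate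
  obtain ⟨E, ε, hε, hEin, hEout⟩ := exists_separator D hA hp.two_le (q := q)
  set t := galOne M φ Y / Y
  obtain ⟨lam', hlam', hint', hd2, hd3⟩ := exists_damped D hA hp.two_le t
  set t' := t / (1 + algebraMap Qbar (K1 M) lam' * t ^ p)
  set den := 1 + algebraMap (ResidueField A) (LaurentSeries (ResidueField A)) (residue A lam') * e ^ p
  obtain ⟨s₁, hs₁⟩ := exists_fixRed_pow D (y := E) hEin hEout
  obtain ⟨s₂, hs₂⟩ := exists_fixRed_pow D (y := t' * E) (e := e / den * ε)
    (fun u hu => by rw [map_mul]; exact (hd2 u e (hin u hu)).2.mul (hEin u hu))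
    (fun u hu => by
      rw [map_mul]
      obtain ⟨w, hw⟩ := hint' u
      simpa [RedTo] using hw.mul (hEout u hu))
  have hep : FixRed D (e ^ p) := by
    refine ⟨galOne M φ F / F, fun u => ?_, ?_⟩
    · rw [map_div₀, D.dia_galOne, hFfix]
    · have h5 := (hgal hF).div hF (pow_ne_zero p hz0)
      rw [map_pow, ← div_pow] at h5
      exact h5
  have hden : FixRed D den := FixRed.one.add ((FixRed.const _).mul hep)
  have hden0 : den ≠ 0 := by
    have h1 := (hd2 1 e (by simpa [dia_one_apply] using hin 1 (one_mem_stab D))).1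
    exact h1
  -- collect exponents
  have hE : FixRed D (e ^ q ^ (s₁ + s₂)) := by
    have h1 := hs₂.pow (q ^ s₁)
    have h2 := hs₁.pow (q ^ s₂)
    rw [← pow_mul, ← pow_add, add_comm] at h1
    rw [← pow_mul, ← pow_add] at h2
    have h3 := (h1.mul h2.inv).mul (hden.pow (q ^ (s₁ + s₂)))
    rw [mul_pow, mul_inv_cancel_right₀ (pow_ne_zero _ hε), ← mul_pow,
      div_mul_cancel₀ _ hden0] at h3
    exact h3
  have hcop : Nat.Coprime (q ^ (s₁ + s₂)) p :=
    Nat.Coprime.pow_left _ ((Nat.coprime_primes Fact.out hp).2 fun h => by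
      subst h; simp at hqp)
  have he : FixRed D e := by
    have hb := Nat.gcd_eq_gcd_ab (q ^ (s₁ + s₂)) p
    rw [hcop.gcd_eq_one] at hb
    have := (hE.zpow ((q ^ (s₁ + s₂)).gcdA p)).mul (hep.zpow ((q ^ (s₁ + s₂)).gcdB p))
    rwa [← zpow_natCast e (q ^ _), ← zpow_natCast e p, ← zpow_mul, ← zpow_mul,
      ← zpow_add₀ he0, ← hb, Nat.cast_one, zpow_one] at this
  refine ⟨φ c / c, e, div_ne_zero ((_root_.map_ne_zero φ).2 hc) hc, he0, he, ?_⟩
  have h5 := (hgal hF).div hF (pow_ne_zero p hz0)
  rw [map_pow, ← div_pow] at h5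
  have e1 : algebraMap Qbar (K1 M) (φ c / c) * (galOne M φ f / f) = galOne M φ F / F := by
    rw [hFdef, map_mul, show galOne M φ (algebraMap Qbar (K1 M) c) =
      algebraMap Qbar (K1 M) (φ c) from arithmeticRingAut_algebraMap _ φ c, map_div₀,
      div_mul_div_comm]
  show SRed _ _ _
  rw [e1]
  exact h5

end FLTAgent.RT.Compat
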