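import Fermat.Agent.RT.Coh.CohPart

/-!
# The part is detected modulo the maximal ideal on a principal congruence subgroup

A homomorphism on `Γ₀(N)` killing `Γ(K)` modulo `J` is multiplied by `l + 1` by `T l` when
`l ≡ 1` modulo `K`, so a non-Eisenstein part is detected on `Γ(K)`.
-/

set_option autoImplicit false
set_option linter.unusedSectionVars false

noncomputable section

open CongruenceSubgroup IsLocalRing
open scoped MatrixGroups

namespace FLTAgent.RT.Compat

open FLTAgent.LevelRaise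

variable {N K : ℕ} [NeZero N] {A : Type*} [AddCommGroup A]

/-- Homomorphisms trivial on `Γ(K)` modulo `J` are eigen for `T l`, `l ≡ 1` modulo `K`. -/
theorem opT_sub_mem_of_gamma {R : Type*} [CommRing R] [Module R A] (hK : N ∣ K) {l : ℕ}
    (hl : l.Prime) (hlK : ¬ l ∣ K) (hl1 : (l : ZMod K) = 1) (J : AddSubgroup A)
    (φ : Coh N trivChar A)
    (hφ : ∀ γ : gammaH N trivChar, (γ : SL(2, ℤ)) ∈ CongruenceSubgroup.Gamma K →
      φ (Additive.ofMul γ) ∈ J) (γ : gammaH N trivChar) :
    opT R A trivChar (one_dvd N) hl (fun h => hlK (h.trans hK)) φ (Additive.ofMul γ) -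
      (l + 1) • φ (Additive.ofMul γ) ∈ J := by
  classical
  have : NeZero l := ⟨hl.ne_zero⟩
  have : Fact l.Prime := ⟨hl⟩
  have hlN : ¬ l ∣ N := fun h => hlK (h.trans hK)
  have hT := opFam_T (χ := trivChar) (one_dvd N) hl hlN
  have hc : ∀ (i : Option (ZMod l)) (r s : Fin 2), ((congRep K l i r s : ℤ) : ZMod K) =
      (((1 : Matrix (Fin 2) (Fin 2) ℤ) r s : ℤ) : ZMod K) := fun i r s => by
    rcases i with _ | j <;> fin_cases r <;> fin_cases s <;>
      simp [congRep, hl1, -ZMod.natCast_val]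
  have hdvd : (N : ℤ) ∣ (K : ℤ) := Int.natCast_dvd_natCast.mpr hK
  have hcov : ∀ i, ∃ (k : Option (ZMod l)) (δ : gammaH N trivChar),
      congRep K l i = matSL (δ : SL(2, ℤ)) * balRep N trivChar l k := fun i => by
    have hdet : (congRep K l i).det = l := by
      rcases i with _ | j <;> simp [congRep, Matrix.det_fin_two_of]
    refine hT.cover _ hdet ?_ ?_ (bal_trivChar _ (by rw [hdet]; exact_mod_cast hl.ne_zero))
    · rcases i with _ | j <;> simp [congRep]
    · rcases i with _ | j
      · exact Nat.isCoprime_iff_coprime.mpr ((hl.coprime_iff_not_dvd).mpr hlN)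
      · exact isCoprime_one_left
  choose e δ hδ using hcov
  have hinj : Function.Injective e := fun i j hij => by
    refine congRep_distinct hlK i j ((δ i : SL(2, ℤ)) * (δ j : SL(2, ℤ))⁻¹) ?_
    rw [hδ j, matSL_mul, Matrix.mul_assoc, matSL_inv_mul_cancel, hδ i, hij]
  let e' := Equiv.ofBijective e (Finite.injective_iff_bijective.mp hinj)
  have he' : ∀ k, congRep K l (e'.symm k) =
      matSL (δ (e'.symm k) : SL(2, ℤ)) * balRep N trivChar l k := fun k => by
    have := hδ (e'.symm k)
    rwa [show e (e'.symm k) = k from e'.apply_symm_apply k] at this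
  have hfam := (hT.isFam hl).congr e'.symm (fun k => δ (e'.symm k)) he'
  rw [opT_apply, ← famTransfer_congr (hT.isFam hl) hfam e'.symm (fun k => δ (e'.symm k)) he' φ]
  obtain ⟨σ, ε, hε⟩ := hfam.exists_eq _ γ.2
  rw [famTransfer_apply hfam φ γ hε]
  have hmem : ∀ i, φ (Additive.ofMul (ε i)) - φ (Additive.ofMul γ) ∈ J := fun i => by
    rw [← map_sub, ← ofMul_div]
    refine hφ _ ?_
    rw [div_eq_mul_inv, Subgroup.coe_mul, Subgroup.coe_inv]
    refine CongruenceSubgroup.Gamma_mem'.mpr ?_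
    rw [map_mul, map_inv, mul_inv_eq_one]
    refine Subtype.ext (Matrix.ext fun r s => ?_)
    have h := congrArg (fun X : Matrix (Fin 2) (Fin 2) ℤ => ((X r s : ℤ) : ZMod K)) (hε i)
    simp only [Matrix.mul_apply, Fin.sum_univ_two, Int.cast_add, Int.cast_mul, hc] at h
    fin_cases r <;> fin_cases s <;> simpa [Matrix.one_apply, matSL] using h.symm
  have hsum := J.sum_mem (t := Finset.univ) (fun i _ => hmem i)
  rwa [Finset.sum_sub_distrib, Finset.sum_const, Finset.card_univ, Fintype.card_option,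
    ZMod.card] at hsum

variable {O : Type*} [CommRing O] [IsLocalRing O] [IsNoetherianRing O]
  [IsAdicComplete (maximalIdeal O) O] [Finite (ResidueField O)] {ι : Type*} {l : ι → ℕ}
  (hl : ∀ i, (l i).Prime) {a : ι → O}

/-- A non-Eisenstein part is detected modulo the maximal ideal on `Γ(K)`. -/
theorem mem_maximalIdeal_of_gamma [NeZero K] (hK : N ∣ K) (hne : NonEis l a)
    {φ : Coh N trivChar O} (hφ : φ ∈ cohPart trivChar (one_dvd N) hl a)
    (h : ∀ γ : gammaH N trivChar, (γ : SL(2, ℤ)) ∈ CongruenceSubgroup.Gamma K →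
      φ (Additive.ofMul γ) ∈ maximalIdeal O) (γ : gammaH N trivChar) :
    φ (Additive.ofMul γ) ∈ maximalIdeal O := by
  obtain ⟨i, hiK, hi1, hu⟩ := hne.exists_index (N := K) hl
  have hiN : ¬ l i ∣ N := fun h => hiK (h.trans hK)
  set T₁ := opP O O trivChar (one_dvd N) (hl i) - a i • (1 : Module.End O (Coh N trivChar O))
  set c : O := (l i : O) + 1 - a i
  have key : ∀ ψ : Coh N trivChar O, (∀ δ : gammaH N trivChar,
      (δ : SL(2, ℤ)) ∈ CongruenceSubgroup.Gamma K → ψ (Additive.ofMul δ) ∈ maximalIdeal O) →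
      ∀ δ : gammaH N trivChar,
        T₁ ψ (Additive.ofMul δ) - c * ψ (Additive.ofMul δ) ∈ maximalIdeal O := fun ψ hψ δ => by
    have := opT_sub_mem_of_gamma (R := O) hK (hl i) hiK hi1 (maximalIdeal O).toAddSubgroup ψ hψ δ
    rw [nsmul_eq_mul, ← opP_of_not_dvd O O (one_dvd N) (hl i) hiN] at this
    push_cast at this
    show opP O O trivChar (one_dvd N) (hl i) ψ (Additive.ofMul δ) - a i • ψ (Additive.ofMul δ) -
      c * ψ (Additive.ofMul δ) ∈ maximalIdeal O
    rw [smul_eq_mul, sub_sub, ← add_mul, show a i + c = (l i : O) + 1 by simp [c]]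
    exact this
  have hk : ∀ k, ∀ δ : gammaH N trivChar,
      (T₁ ^ k) φ (Additive.ofMul δ) - c ^ k * φ (Additive.ofMul δ) ∈ maximalIdeal O := by
    intro k
    induction k with
    | zero => intro δ; simp
    | succ k ih =>
      intro δ
      have hin : ∀ ε : gammaH N trivChar, (ε : SL(2, ℤ)) ∈ CongruenceSubgroup.Gamma K →
          (T₁ ^ k) φ (Additive.ofMul ε) ∈ maximalIdeal O := fun ε hε => by
        have := (maximalIdeal O).add_mem (ih ε) ((maximalIdeal O).mul_mem_left (c ^ k) (h ε hε))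
        rwa [sub_add_cancel] at this
      rw [pow_succ', Module.End.mul_apply,
        show T₁ ((T₁ ^ k) φ) (Additive.ofMul δ) - c ^ (k + 1) * φ (Additive.ofMul δ) =
          (T₁ ((T₁ ^ k) φ) (Additive.ofMul δ) - c * (T₁ ^ k) φ (Additive.ofMul δ)) +
            c * ((T₁ ^ k) φ (Additive.ofMul δ) - c ^ k * φ (Additive.ofMul δ)) by ring]
      exact add_mem (key _ hin δ) ((maximalIdeal O).mul_mem_left c (ih δ))
  obtain ⟨k, hk'⟩ := exists_pow_sub_mem_cohPart (χ := trivChar) (O := O) (one_dvd N) hl a i 1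
  have h1 := map_mem_pow_smul_top (cohEval (O := O) (χ := trivChar) γ) (hk' φ hφ)
  rw [pow_one, smul_eq_mul, Ideal.mul_top] at h1
  have h2 : c ^ k * φ (Additive.ofMul γ) ∈ maximalIdeal O := by
    have := (maximalIdeal O).sub_mem h1 (hk k γ)
    rwa [show cohEval γ ((T₁ ^ k) φ) = (T₁ ^ k) φ (Additive.ofMul γ) from rfl,
      sub_sub_cancel] at this
  exact ((maximalIdeal O).unit_mul_mem_iff_mem (hu.pow k)).mp h2

end FLTAgent.RT.Compat
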