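import Fermat.Agent.RT.Compat.Galois
import Mathlib.RingTheory.DiscreteValuationRing.Basic
import Mathlib.Algebra.Module.CharacterModule
import Mathlib.Topology.Instances.AddCircle.Real

/-!
# From `p ^ n` to `p`

If the classes modulo `p ^ n` of `p ^ a • c` reduce to powers for all translates, the classes
modulo `p` of `c` reduce to `p`-th powers.  A nonzero operator commuting with a family of
residually scalar operators has, up to a power of `p`, an eigenvector modulo `π` in its image.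
-/

set_option autoImplicit false
set_option linter.unusedSectionVars false

noncomputable section

open ModularCurve CongruenceSubgroup IsLocalRing FLTAgent.DS UpperHalfPlane
open scoped MatrixGroups

namespace FLTAgent.RT.Compat

local notation "Qbar" => AlgebraicClosure ℚ
local notation "Γℚ" => AlgebraicClosure ℚ ≃ₐ[ℚ] AlgebraicClosure ℚ

/-- A homomorphism to `ℤ / p` killing `p` lifts to `ℤ / p ^ (a + 1)`. -/
theorem exists_lift_zmod {O : Type*} [AddCommGroup O] [IsAddTorsionFree O] {p : ℕ} [Fact p.Prime]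
    (a : ℕ) (ψ₁ : O →+ ZMod p) :
    ∃ ψ : O →+ ZMod (p ^ (a + 1)), ∀ x, ((ψ x).val : ZMod p) = ψ₁ x := by
  have hp := (Fact.out : p.Prime)
  have : NeZero (p ^ (a + 1)) := ⟨pow_ne_zero _ hp.ne_zero⟩
  let f : O →+ O := nsmulAddMonoidHom (p ^ a)
  have hf : Function.Injective f := nsmul_right_injective (pow_ne_zero _ hp.ne_zero)
  obtain ⟨χ, hχ⟩ := (Module.Baer.of_divisible UnitAddCircle).extension_property_addMonoidHom f hf
    ((ZMod.toAddCircle (N := p)).comp ψ₁)
  have hχ' : ∀ x, χ ((p ^ a) • x) = ZMod.toAddCircle (ψ₁ x) := fun x =>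
    DFunLike.congr_fun hχ x
  have htor : ∀ x, ∃ y : ZMod (p ^ (a + 1)), ZMod.toAddCircle y = χ x := fun x => by
    have h0 : (p ^ (a + 1)) • χ x = 0 := by
      rw [pow_succ, mul_smul, ← map_nsmul, ← map_nsmul, hχ', map_nsmul,
        ZModModule.char_nsmul_eq_zero, map_zero]
    obtain ⟨m, -, hm⟩ := (AddCircle.nsmul_eq_zero_iff (NeZero.pos _)).1 h0
    exact ⟨(m : ZMod (p ^ (a + 1))), by rw [ZMod.toAddCircle_natCast, ← hm, mul_one]⟩
  choose y hy using htor
  refine ⟨AddMonoidHom.mk' y fun x x' => ZMod.toAddCircle_injective _ ?_, fun x => ?_⟩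
  · rw [map_add, hy, hy, hy, map_add]
  · refine ZMod.toAddCircle_injective _ ?_
    show ZMod.toAddCircle (((y x).val : ℕ) : ZMod p) = _
    rw [← hχ', map_nsmul, ← hy, ZMod.toAddCircle_natCast, ZMod.toAddCircle_apply,
      ← AddCircle.coe_nsmul, nsmul_eq_mul]
    congr 1
    push_cast [pow_succ]
    have : (p : ℝ) ≠ 0 := by exact_mod_cast hp.ne_zero
    field_simp

variable {M : ℕ} [NeZero M] {D : DiamondData M}

/-- A root of order `p ^ (a + 1)` gives one of order `p`. -/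
theorem isRootHomOne_cast {p a : ℕ} [Fact p.Prime] {x : K1 M}
    {c : Additive (Gamma1 M) →+ ZMod (p ^ (a + 1))} {c₁ : Additive (Gamma1 M) →+ ZMod p}
    (hc : ∀ g, ((c g).val : ZMod p) = c₁ g) (h : IsRootHomOne (p ^ (a + 1)) x c) :
    IsRootHomOne p x c₁ := by
  obtain ⟨f, A, B, hrep, hf, hf0, hfp, hfγ⟩ := h
  have hp := (Fact.out : p.Prime)
  refine ⟨fun τ => f τ ^ p ^ a, A, B, hrep, hf.pow _, ?_, fun τ => ?_, fun γ τ => ?_⟩
  · intro h0
    refine hf0 (funext fun τ => ?_)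
    exact eq_zero_of_pow_eq_zero (congrFun h0 τ)
  · rw [← pow_mul, ← pow_succ]; exact hfp τ
  · show f _ ^ p ^ a = _
    rw [hfγ, mul_pow, ← Complex.exp_nat_mul]
    congr 1
    rw [Complex.exp_eq_exp_iff_exists_int]
    set b := (c (Additive.ofMul γ)).val
    have hb : ((b : ℕ) : ZMod p) = ((c₁ (Additive.ofMul γ)).val : ZMod p) := by
      rw [ZMod.natCast_zmod_val]; exact hc _
    obtain ⟨k, hk⟩ := (ZMod.intCast_eq_intCast_iff_dvd_sub ((c₁ (Additive.ofMul γ)).val : ℤ) b p).1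
      (by push_cast; exact hb.symm)
    refine ⟨k, ?_⟩
    have h1 : (b : ℂ) = ((c₁ (Additive.ofMul γ)).val : ℂ) + (p : ℂ) * k := by
      have : (b : ℤ) = ((c₁ (Additive.ofMul γ)).val : ℤ) + (p : ℤ) * k := by linarith
      exact_mod_cast this
    have hp0 : (p : ℂ) ≠ 0 := by exact_mod_cast hp.ne_zero
    push_cast
    rw [h1, pow_succ]
    field_simp

/-- Descent of the reduction statement from `p ^ (a + 1)` to `p`. -/
theorem galClass_mem_redKer_descend {p a : ℕ} [Fact p.Prime] {q : ℕ} [Fact q.Prime]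
    {A : ValuationSubring Qbar} (hA : A.LiesOverPrime q) (Hn : CharClassFacts D (p ^ (a + 1)))
    (H₁ : CharClassFacts D p) (c : parHom (Gamma1 M) (ZMod (p ^ (a + 1))))
    (c₁ : parHom (Gamma1 M) (ZMod p)) (hc : ∀ g, ((c.1 g).val : ZMod p) = c₁.1 g) (τ : Γℚ)
    (h : galClass M (p ^ (a + 1)) τ (jClass Hn ((p ^ a) • c)) ∈ redKer hA (p ^ (a + 1))) :
    galClass M p τ (jClass H₁ c₁) ∈ redKer hA p := by
  have hp := (Fact.out : p.Prime)
  set x := rootUnit Hn c with hx
  rw [map_nsmul, map_nsmul, show jClass Hn c = powClass _ x from rfl, galClass_powClass,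
    ← powClass_pow, powClass_mem_redKer, Units.val_pow_eq_pow_val] at h
  rw [jClass_eq H₁ (isRootHomOne_cast hc (rootUnit_spec Hn c).2), galClass_powClass,
    powClass_mem_redKer]
  refine RedPow.of_pow hA (n := p ^ a) (pow_pos hp.pos a) (Units.ne_zero _) ?_
  rwa [← pow_succ']

section Eigen

variable {O : Type*} [CommRing O] [IsDomain O] [IsDiscreteValuationRing O]
  [Finite (ResidueField O)] {P : Type*} [AddCommGroup P] [Module O P] [Module.Finite O P]
  [Module.Free O P]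

/-- A nonzero vector is a multiple of one which is not divisible by `π`. -/
theorem exists_smul_notMem {π : O} (hπ : Irreducible π) {v : P} (hv : v ≠ 0) :
    ∃ (c : O) (w : P), c ≠ 0 ∧ v = c • w ∧ w ∉ maximalIdeal O • (⊤ : Submodule O P) := by
  classical
  let b := Module.Free.chooseBasis O P
  obtain ⟨i, hi⟩ : ∃ i, b.repr v i ≠ 0 := by
    by_contra h; push Not at h
    exact hv (b.repr.map_eq_zero_iff.1 (Finsupp.ext h))
  obtain ⟨n, u, hn⟩ := IsDiscreteValuationRing.eq_unit_mul_pow_irreducible hi hπ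
  suffices key : ∀ k ≤ n + 1, (∃ (c : O) (w : P), c ≠ 0 ∧ v = c • w ∧
      w ∉ maximalIdeal O • (⊤ : Submodule O P)) ∨ ∃ w, v = π ^ k • w by
    refine (key (n + 1) le_rfl).resolve_right ?_
    rintro ⟨w, hw⟩
    rw [hw, map_smul, Finsupp.smul_apply, smul_eq_mul, pow_succ', mul_assoc] at hn
    have h1 : π * (b.repr w i) = (u : O) :=
      mul_left_cancel₀ (pow_ne_zero n hπ.ne_zero) (by linear_combination hn)
    exact hπ.not_isUnit (isUnit_of_mul_isUnit_left (h1 ▸ u.isUnit))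
  intro k hk
  induction k with
  | zero => exact Or.inr ⟨v, by simp⟩
  | succ k ih =>
    rcases ih (by omega) with h | ⟨w, hw⟩
    · exact Or.inl h
    by_cases hwm : w ∈ maximalIdeal O • (⊤ : Submodule O P)
    · rw [hπ.maximalIdeal_eq, Submodule.ideal_span_singleton_smul] at hwm
      obtain ⟨z, -, rfl⟩ := hwm
      exact Or.inr ⟨z, by rw [hw, pow_succ, mul_smul]; rfl⟩
    · exact Or.inl ⟨π ^ k, w, pow_ne_zero k hπ.ne_zero, hw, hwm⟩

/-- A residual eigenvector in the saturated image of `δ`. -/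
theorem exists_eigen_in_image {ι' : Type*} (X : ι' → Module.End O P) (a : ι' → O)
    (hX : ∀ i j, Commute (X i) (X j))
    (hnil : ∀ i, ∃ k, ∀ v, ((X i - a i • (1 : Module.End O P)) ^ k) v ∈ maximalIdeal O • (⊤ : Submodule O P))
    {δ : Module.End O P} (hδ : δ ≠ 0) (hcomm : ∀ i, Commute (X i) δ) {c₀ : O}
    (hc₀ : c₀ ∈ maximalIdeal O) (_hc₀0 : c₀ ≠ 0) :
    ∃ (w v : P) (n : ℕ), w ∉ maximalIdeal O • (⊤ : Submodule O P) ∧ c₀ ^ n • w = δ v ∧
      ∀ i, X i w - a i • w ∈ maximalIdeal O • (⊤ : Submodule O P) := by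
  classical
  obtain ⟨π, hπ⟩ := IsDiscreteValuationRing.exists_irreducible O
  let P₁ := P ⧸ maximalIdeal O • (⊤ : Submodule O P)
  have : Finite P₁ := by
    have : Module.Finite (O ⧸ maximalIdeal O) P₁ := Module.Finite.of_restrictScalars_finite O _ _
    have : Finite (O ⧸ maximalIdeal O) := ‹Finite (ResidueField O)›
    exact Module.finite_of_finite (O ⧸ maximalIdeal O)
  let qm : P →ₗ[O] P₁ := Submodule.mkQ _
  let W : Submodule O P :=
    { carrier := {w | ∃ (c : O) (v : P), c ≠ 0 ∧ c • w = δ v}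
      zero_mem' := ⟨1, 0, one_ne_zero, by simp⟩
      add_mem' := by
        rintro w w' ⟨c, v, hc, h⟩ ⟨c', v', hc', h'⟩
        refine ⟨c * c', c' • v + c • v', mul_ne_zero hc hc', ?_⟩
        rw [smul_add, map_add, map_smul, map_smul, ← h, ← h', smul_smul, smul_smul,
          mul_comm c c']
      smul_mem' := by
        rintro r w ⟨c, v, hc, h⟩
        exact ⟨c, r • v, hc, by rw [map_smul, ← h, smul_comm]⟩ }
  let Y := fun i => X i - a i • (1 : Module.End O P)
  have hYW : ∀ i, ∀ w ∈ W, Y i w ∈ W := by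
    rintro i w ⟨c, v, hc, h⟩
    refine ⟨c, Y i v, hc, ?_⟩
    rw [← map_smul, h]
    exact LinearMap.congr_fun ((hcomm i).sub_left (((Commute.one_left δ)).smul_left _)).eq v
  obtain ⟨w₀, hw₀, hw₀m⟩ : ∃ w ∈ W, qm w ≠ 0 := by
    obtain ⟨v, hv⟩ : ∃ v, δ v ≠ 0 := by
      by_contra h; push Not at h; exact hδ (LinearMap.ext h)
    obtain ⟨c, w, hc, hw, hwm⟩ := exists_smul_notMem hπ hv
    exact ⟨w, ⟨c, v, hc, hw.symm⟩, fun h => hwm ((Submodule.Quotient.mk_eq_zero _).1 h)⟩
  -- a minimal stable subspace of the reduction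
  let Z : Set (Submodule O P) := {U | U ≤ W ∧ (∃ u ∈ U, qm u ≠ 0) ∧ ∀ i, ∀ u ∈ U, Y i u ∈ U}
  obtain ⟨B, ⟨U, hU, rfl⟩, hmin⟩ := (Set.toFinite ((fun U => U.map qm) '' Z)).exists_minimal
    (Set.Nonempty.image _ ⟨W, le_rfl, ⟨w₀, hw₀, hw₀m⟩, hYW⟩)
  obtain ⟨hUW, ⟨u, hu, hu0⟩, hUY⟩ := hU
  have key : ∀ i, qm (Y i u) = 0 := by
    intro i
    obtain ⟨k, hk⟩ := hnil i
    -- the last power not vanishing on the reduction
    have hex : ∃ j, ∀ x ∈ U, qm ((Y i ^ j) x) = 0 :=
      ⟨k, fun x _ => (Submodule.Quotient.mk_eq_zero _).2 (hk x)⟩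
    let j := Nat.find hex
    have hj : j ≠ 0 := fun h => hu0 (by simpa [j, h] using Nat.find_spec hex u hu)
    obtain ⟨j', hj'⟩ := Nat.exists_eq_succ_of_ne_zero hj
    obtain ⟨x, hx, hx0⟩ : ∃ x ∈ U, qm ((Y i ^ j') x) ≠ 0 := by
      have := Nat.find_min hex (show j' < Nat.find hex from by omega)
      push Not at this; exact this
    let U' : Submodule O P :=
      { carrier := {x | x ∈ U ∧ qm (Y i x) = 0}
        zero_mem' := ⟨U.zero_mem, by simp⟩
        add_mem' := fun ⟨h1, h2⟩ ⟨h3, h4⟩ => ⟨U.add_mem h1 h3, by simp [h2, h4]⟩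
        smul_mem' := fun r _ ⟨h1, h2⟩ => ⟨U.smul_mem r h1, by simp [h2]⟩ }
    have hpow : ∀ n, ∀ y ∈ U, (Y i ^ n) y ∈ U := fun n => by
      induction n with
      | zero => exact fun y hy => hy
      | succ n ih => intro y hy; rw [pow_succ', Module.End.mul_apply]; exact hUY i _ (ih y hy)
    have hYq : ∀ l y, qm y = 0 → qm (Y l y) = 0 := fun l y hy =>
      (Submodule.Quotient.mk_eq_zero _).2 (by
        have := Submodule.mem_map_of_mem (f := Y l) ((Submodule.Quotient.mk_eq_zero _).1 hy)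
        rw [Submodule.map_smul''] at this
        exact Submodule.smul_mono le_rfl le_top this)
    have hU' : U' ∈ Z := by
      refine ⟨fun y hy => hUW hy.1, ⟨(Y i ^ j') x, ⟨hpow j' x hx, ?_⟩, hx0⟩, fun l y hy =>
        ⟨hUY l y hy.1, ?_⟩⟩
      · rw [← Module.End.mul_apply, ← pow_succ', ← Nat.succ_eq_add_one, ← hj']
        exact Nat.find_spec hex x hx
      · have hc : Y i (Y l y) = Y l (Y i y) :=
          LinearMap.congr_fun (((hX i l).sub_right ((Commute.one_right _).smul_right _)).sub_left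
            (((Commute.one_left _)).smul_left _)).eq y
        rw [hc]
        exact hYq l _ hy.2
    have hle := hmin ⟨U', hU', rfl⟩ (Submodule.map_mono fun y hy => hy.1)
    obtain ⟨y, hy, hyu⟩ := hle (Submodule.mem_map_of_mem (f := qm) hu)
    have := hYq i (u - y) (by rw [map_sub, hyu, sub_self])
    rwa [map_sub, map_sub, hy.2, sub_zero] at this
  obtain ⟨c, v, hc, hcv⟩ := hUW hu
  obtain ⟨e, r, he⟩ : ∃ (e : ℕ) (r : O), c * r = c₀ ^ e := by
    obtain ⟨n, hn⟩ := IsDiscreteValuationRing.associated_pow_irreducible hc hπ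
    obtain ⟨s, hs⟩ : π ∣ c₀ := by
      rw [hπ.maximalIdeal_eq, Ideal.mem_span_singleton] at hc₀; exact hc₀
    obtain ⟨r, hr⟩ : c ∣ c₀ ^ n := hn.dvd.trans (by rw [hs, mul_pow]; exact dvd_mul_right _ _)
    exact ⟨n, r, hr.symm⟩
  refine ⟨u, r • v, e, fun h => hu0 ((Submodule.Quotient.mk_eq_zero _).2 h), ?_, fun i => ?_⟩
  · rw [map_smul, ← hcv, smul_smul, mul_comm r, he]
  · exact (Submodule.Quotient.mk_eq_zero _).1 (key i)

end Eigen

end FLTAgent.RT.Compat
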