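import Fermat.Agent.RT.Compat.Classes
import Fermat.Agent.DS.ModRep.Rep
import Fermat.Agent.Chebotarev.Main
import Fermat.Agent.GalRep.OpenStab

/-!
# The Galois relation on the classes of a Hecke module of homomorphisms

`ι` embeds a module `P` into parabolic homomorphisms; at almost every prime `l` the operator
`t φ` of a Frobenius element is the image under `T l` and `d φ` is `l` times the diamond. Then
`σ ^ 2 + d σ = σ (t σ)` on the classes, for every `σ`, and on an inertia element at the residual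
prime `1 + d - t` kills the reductions of all translates.
-/

set_option autoImplicit false
set_option linter.unusedSectionVars false
set_option linter.style.haveILetI false

noncomputable section

open ModularCurve CongruenceSubgroup FLTAgent.DS
open scoped MatrixGroups

namespace FLTAgent.RT.Compat

local notation "Qbar" => AlgebraicClosure ℚ
local notation "Γℚ" => AlgebraicClosure ℚ ≃ₐ[ℚ] AlgebraicClosure ℚ

variable {M : ℕ} [NeZero M] {O P : Type*} [AddCommGroup O] [AddCommGroup P]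

/-- Galois-indexed operators on a module of homomorphisms, given at Frobenius elements by the Hecke
operators and the diamonds. -/
structure HeckeSystem (ι : P →+ parHom (Gamma1 M) O) (t d : Γℚ → P →+ P) (S : Finset ℕ) : Prop where
  prime_mem : ∀ l : ℕ, l.Prime → l ∣ M → l ∈ S
  hecke : ∀ l : ℕ, ∀ hl : l.Prime, l ∉ S → ∀ A : ValuationSubring Qbar, A.LiesOverPrime l →
    ∀ φ : Γℚ, A.IsFrobeniusAt φ l → haveI : NeZero l := ⟨hl.ne_zero⟩
      ∀ v, IsHeckeImageOne l (ι v).1 (ι (t φ v)).1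
  diamond : ∀ l : ℕ, l.Prime → l ∉ S → ∀ A : ValuationSubring Qbar, A.LiesOverPrime l →
    ∀ φ : Γℚ, A.IsFrobeniusAt φ l → ∀ v, ∃ w, d φ v = l • w ∧
      ∀ γ : SL(2, ℤ), γ ∈ Gamma0 M → ((γ 1 1 : ℤ) : ZMod M) = (l : ZMod M) →
        ∀ a b : Gamma1 M, (b : SL(2, ℤ)) = γ * (a : SL(2, ℤ)) * γ⁻¹ →
          (ι w).1 (Additive.ofMul a) = (ι v).1 (Additive.ofMul b)

/-- The operators modulo `m` depend on a finite level. -/
def ContMod (m : ℕ) (f : Γℚ → P →+ P) : Prop :=
  ∃ L : IntermediateField ℚ Qbar, FiniteDimensional ℚ L ∧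
    ∀ σ τ : Γℚ, (∀ x ∈ L, σ x = τ x) → ∀ v, ∃ w, f σ v - f τ v = m • w

variable {ι : P →+ parHom (Gamma1 M) O} {t d : Γℚ → P →+ P} {S : Finset ℕ}
  {D : DiamondData M} {m : ℕ}

/-- The class of `ψ ∘ ι v`. -/
def jOf (H : CharClassFacts D m) (ι : P →+ parHom (Gamma1 M) O) (ψ : O →+ ZMod m) :
    P →+ UnitsModPow M m :=
  (jClass H).comp (AddMonoidHom.mk' (fun v => pushHom ψ (ι v)) fun a b => Subtype.ext (by
    simp [pushHom, map_add, AddMonoidHom.comp_add]))

theorem pushHom_apply {Γ : Subgroup SL(2, ℤ)} {B C : Type*} [AddCommGroup B] [AddCommGroup C]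
    (ψ : B →+ C) (c : parHom Γ B) (x : Additive Γ) : (pushHom ψ c).1 x = ψ (c.1 x) := rfl

theorem jOf_nsmul_eq_zero (H : CharClassFacts D m) (ψ : O →+ ZMod m) (w : P) :
    jOf H ι ψ (m • w) = 0 := by
  rw [map_nsmul]
  exact nsmul_eq_zero' (jOf H ι ψ w)

theorem jOf_eq_of_sub (H : CharClassFacts D m) (ψ : O →+ ZMod m) {a b w : P}
    (h : a - b = m • w) : jOf H ι ψ a = jOf H ι ψ b := by
  rw [← sub_eq_zero, ← map_sub, h, jOf_nsmul_eq_zero]

/-- Agreement on a finite level determines the Galois action on a finite family of functions. -/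
theorem exists_level_units (s : Finset (K1 M)) :
    ∃ L : IntermediateField ℚ Qbar, FiniteDimensional ℚ L ∧
      ∀ σ τ : Γℚ, (∀ x ∈ L, σ x = τ x) → ∀ u ∈ s, galOne M σ u = galOne M τ u := by
  obtain ⟨L, hL, h⟩ := GalRep.exists_common_level s
    (fun u σ => galOne M σ u = u) (fun u _ => GalRep.exists_level_function (fieldOne M) u)
  refine ⟨L, hL, fun σ τ hστ u hu => ?_⟩
  have h1 := h (τ⁻¹ * σ) (fun a ha => by
    rw [AlgEquiv.mul_apply, hστ a ha]; exact τ.symm_apply_apply a) u hu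
  have h2 := congrArg (galOne M τ) h1
  rwa [← galOne_mul_apply, mul_inv_cancel_left] at h2

theorem galClass_eq_galCls (σ : Γℚ) (v : UnitsModPow M m) : galClass M m σ v = galCls σ v := rfl

variable [NeZero m]

/-- **The Galois relation.** -/
theorem galois_relation (hS : HeckeSystem ι t d S) (hT : HeckeFacts D) (H : CharClassFacts D m)
    (ht : ContMod m t) (hd : ContMod m d)
    (hR : ∀ l : ℕ, l.Prime → l ∉ S → ∀ A : ValuationSubring Qbar, A.LiesOverPrime l →
      ReductionFacts D A)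
    (ψ : O →+ ZMod m) (σ : Γℚ) (v : P) :
    galClass M m σ (galClass M m σ (jOf H ι ψ v)) + jOf H ι ψ (d σ v) =
      galClass M m σ (jOf H ι ψ (t σ v)) := by
  classical
  set x := rootUnit H (pushHom ψ (ι v)) with hx
  set y := rootUnit H (pushHom ψ (ι (t σ v))) with hy
  obtain ⟨L₀, hL₀, hgal⟩ := exists_level_units (M := M)
    {(x : K1 M), galOne M σ (x : K1 M), (y : K1 M)}
  obtain ⟨L₁, hL₁, ht⟩ := ht
  obtain ⟨L₂, hL₂, hd⟩ := hd
  obtain ⟨l, hl, hlS, A, hA, -, φ, hφ, hφσ⟩ := Chebotarev.exists_frobenius_eqOn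
    (L₀ ⊔ L₁ ⊔ L₂) σ (S ∪ Finset.range (m + 1))
  rw [Finset.notMem_union] at hlS
  have hlm : m < l := by
    have := hlS.2
    rw [Finset.mem_range] at this
    omega
  haveI : NeZero l := ⟨hl.ne_zero⟩
  have hlM : l.Coprime M :=
    hl.coprime_iff_not_dvd.2 fun h => hlS.1 (hS.prime_mem l hl h)
  have hres : (m : IsLocalRing.ResidueField A) ≠ 0 := by
    haveI := charP_residue_of_liesOverPrime hl hA
    rw [Ne, CharP.cast_eq_zero_iff (IsLocalRing.ResidueField A) l]
    exact fun h => absurd (Nat.le_of_dvd (Nat.pos_of_ne_zero (NeZero.ne m)) h) (by omega)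
  have hg : ∀ u ∈ ({(x : K1 M), galOne M σ (x : K1 M), (y : K1 M)} : Finset (K1 M)),
      galOne M φ u = galOne M σ u :=
    fun u hu => hgal φ σ (fun a ha => hφσ a ((le_sup_left.trans le_sup_left : L₀ ≤ L₀ ⊔ L₁ ⊔ L₂) ha)) u hu
  -- the relation at `φ`
  obtain ⟨w, hw, hwd⟩ := hS.diamond l hl hlS.1 A hA φ hφ v
  obtain ⟨T, hT'⟩ := hT l hl hlM (x : K1 M)
  have hT0 := hT'.ne_zero x.ne_zero
  have hxr := rootUnit_spec H (pushHom ψ (ι v))
  have hTr : IsRootHomOne m T (pushHom ψ (ι (t φ v))).1 := by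
    refine H.hecke l hl hlM _ _ _ _ hxr.2 hT' ?_
    intro γp h0 h1 g
    obtain ⟨s, δ, hrel, hsum⟩ := hS.hecke l hl hlS.1 A hA φ hφ v γp h0 h1 g
    refine ⟨s, δ, hrel, ?_⟩
    rw [pushHom_apply, hsum, map_sum]
    exact Finset.sum_congr rfl fun i _ => rfl
  set T' := Units.mk0 T hT0 with hT'def
  have hdia : powClass m (Units.map (D.dia (ZMod.unitOfCoprime l hlM) : K1 M →* K1 M) x) =
      jOf H ι ψ w := by
    obtain ⟨γ, hγ, hγu⟩ := exists_lowerRight_unit (ZMod.unitOfCoprime l hlM)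
    refine (jClass_eq H (c := pushHom ψ (ι w)) ?_).symm
    refine H.diamond _ γ hγ hγu _ _ _ hxr.2 fun a b hab => ?_
    rw [pushHom_apply, pushHom_apply, hwd γ hγ (by rw [hγu, ZMod.coe_unitOfCoprime]) a b hab]
  have hrel := galCls_hecke_eq (hR l hl hlS.1 A hA) hl hA hres hlM hφ x T' hT' hxr.1
    (dvdDiv_of_root H hTr)
  have hTc : powClass m T' = jOf H ι ψ (t φ v) :=
    (jClass_eq H (x := T') (c := pushHom ψ (ι (t φ v))) hTr).symm
  have hxc : jOf H ι ψ v = powClass m x := rfl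
  have hyc : jOf H ι ψ (t σ v) = powClass m y := rfl
  have e1 : jOf H ι ψ (t φ v) = jOf H ι ψ (t σ v) := by
    obtain ⟨w', hw'⟩ := ht φ σ (fun a ha => hφσ a ((le_sup_right.trans le_sup_left : L₁ ≤ L₀ ⊔ L₁ ⊔ L₂) ha)) v
    exact jOf_eq_of_sub H ψ hw'
  have e2 : jOf H ι ψ (d σ v) = l • jOf H ι ψ w := by
    obtain ⟨w', hw'⟩ := hd φ σ (fun a ha => hφσ a ((le_sup_right : L₂ ≤ L₀ ⊔ L₁ ⊔ L₂) ha)) v
    rw [← jOf_eq_of_sub H ψ hw', hw, map_nsmul]
  have ey : galCls φ (powClass m y) = galCls σ (powClass m y) := by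
    rw [galCls_powClass, galCls_powClass]
    exact congrArg _ (Units.ext (hg _ (by simp)))
  have ex : galCls φ (galCls φ (powClass m x)) = galCls σ (galCls σ (powClass m x)) := by
    simp only [galCls_powClass]
    refine congrArg _ (Units.ext ?_)
    show galOne M φ (galOne M φ (x : K1 M)) = galOne M σ (galOne M σ (x : K1 M))
    rw [hg (x : K1 M) (by simp), hg _ (by simp)]
  rw [hTc, e1, hyc, ey, ex] at hrel
  simp only [galClass_eq_galCls, hxc, hyc, e2]
  rw [← hdia]
  exact hrel.symm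

include S in
/-- **Inertia at `q`.** All translates of the class of `(1 + d s - t s) v` reduce to powers. -/
theorem inertia_mem_redKer (hS : HeckeSystem ι t d S) (hT : HeckeFacts D) (H : CharClassFacts D m)
    (ht : ContMod m t) (hd : ContMod m d)
    (hR : ∀ l : ℕ, l.Prime → l ∉ S → ∀ A : ValuationSubring Qbar, A.LiesOverPrime l →
      ReductionFacts D A)
    {q : ℕ} [Fact q.Prime] {A : ValuationSubring Qbar} (hA : A.LiesOverPrime q) {s : Γℚ}
    (hs : s ∈ A.inertiaSubgroupIn ℚ) (τ : Γℚ) (htτ : t (τ⁻¹ * s * τ) = t s)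
    (hdτ : d (τ⁻¹ * s * τ) = d s) (ψ : O →+ ZMod m) (v : P) :
    galClass M m τ (jOf H ι ψ (v + d s v - t s v)) ∈ redKer hA m := by
  have h := congrArg (galClass M m τ) (galois_relation hS hT H ht hd hR ψ (τ⁻¹ * s * τ) v)
  rw [htτ, hdτ] at h
  simp only [map_add, ← galClass_mul, ← mul_assoc, mul_inv_cancel, one_mul, mul_inv_cancel_right] at h
  have hdec := (Frobenius.mem_inertiaSubgroupIn_iff.1 hs).1
  have e1 : ∀ u, galClass M m (s * τ) u - galClass M m τ u ∈ redKer hA m := fun u => by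
    rw [galClass_mul]; exact galClass_sub_self_mem hA hs _
  have e2 : galClass M m (s * s * τ) (jOf H ι ψ v) - galClass M m τ (jOf H ι ψ v) ∈ redKer hA m := by
    have h1 := galClass_mem_redKer hA hdec (e1 (jOf H ι ψ v))
    rw [map_sub, ← galClass_mul, ← galClass_mul, ← mul_assoc] at h1
    have := add_mem h1 (e1 (jOf H ι ψ v))
    rwa [sub_add_sub_cancel] at this
  have h2 := sub_mem (e1 (jOf H ι ψ (t s v))) e2
  rw [show galClass M m τ (jOf H ι ψ (v + d s v - t s v)) =
    galClass M m (s * τ) (jOf H ι ψ (t s v)) - galClass M m τ (jOf H ι ψ (t s v)) -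
      (galClass M m (s * s * τ) (jOf H ι ψ v) - galClass M m τ (jOf H ι ψ v)) by
    rw [← h, map_sub, map_add, map_sub, map_add]; abel]
  exact h2

end FLTAgent.RT.Compat
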