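import Fermat.Agent.RT.Compat.Classes
import Fermat.Agent.RT.Compat.Commute
import Fermat.Agent.DS.Geom.Field
import Fermat.Agent.JTors.Generate
import Fermat.Agent.JTors.SeriesDescent
import Fermat.Agent.Semistable.LevelDatum

/-!
# The two maps from level `N` to level `q N`, and the functions fixed by the diamonds

`x (τ)` and `x (q τ)` lie at level `q N`, with the multiplier systems restricted along the two
degeneracy maps. A function of level `Γ₁(M)` fixed by the diamonds lies at level `Γ₀(M)`, so its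
reduction at `q` lies in the reduction of level `N`.
-/

set_option autoImplicit false
set_option linter.unusedSectionVars false
set_option linter.style.haveILetI false

noncomputable section

open ModularCurve IsLocalRing CongruenceSubgroup FLTAgent.DS FLTAgent.ModPoly FLTAgent.Semistable
  FLTAgent.GoodRed FLTAgent.Hecke
open UpperHalfPlane hiding I
open scoped MatrixGroups

namespace FLTAgent.RT.Compat

local notation "Qbar" => AlgebraicClosure ℚ

variable {N M q : ℕ} [NeZero N] [NeZero M] [NeZero q]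

theorem expands_prod {h : ℕ} {ι : Type*} (s : Finset ι) {F : ι → ℍ → ℂ}
    {X : ι → LaurentSeries ℂ} (hF : ∀ i ∈ s, Expands h (F i) (X i)) :
    Expands h (∏ i ∈ s, F i) (∏ i ∈ s, X i) := by
  classical
  induction s using Finset.induction_on with
  | empty => simpa using Expands.one h
  | insert a s ha ih =>
    rw [Finset.prod_insert ha, Finset.prod_insert ha]
    exact (hF a (Finset.mem_insert_self a s)).mul
      (ih fun i hi => hF i (Finset.mem_insert_of_mem hi))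

theorem gamma1_le_of_dvd (h : N ∣ M) : Gamma1 M ≤ Gamma1 N := by
  intro γ hγ
  obtain ⟨h1, h2, h3⟩ := (Gamma1_mem M γ).1 hγ
  have key : ∀ {a b : ℤ}, (a : ZMod M) = b → (a : ZMod N) = b := fun {a b} e => by
    rw [ZMod.intCast_eq_intCast_iff_dvd_sub] at e ⊢
    exact (Int.natCast_dvd_natCast.2 h).trans e
  refine (Gamma1_mem N γ).2 ⟨?_, ?_, ?_⟩
  · simpa using key (b := 1) (by simpa using h1)
  · simpa using key (b := 1) (by simpa using h2)
  · simpa using key (b := 0) (by simpa using h3)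

theorem mem_modFunRingOne_of_dvd (h : N ∣ M) {g : ℍ → ℂ} (hg : g ∈ modFunRingOne N) :
    g ∈ modFunRingOne M :=
  ⟨hg.1, fun γ hγ τ => hg.2.1 γ (gamma1_le_of_dvd h hγ) τ, fun γ => by
    obtain ⟨x, hx⟩ := hg.2.2 γ
    exact hx.mem_expRing_width h⟩

theorem gamma0_le_of_dvd (h : N ∣ M) : Gamma0 M ≤ Gamma0 N := fun γ hγ => by
  rw [Gamma0_mem, ZMod.intCast_zmod_eq_zero_iff_dvd] at hγ ⊢
  exact (Int.natCast_dvd_natCast.2 h).trans hγ

/-- `diag (q, 1) γ diag (q, 1)⁻¹`. -/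
def lowerConj (hM : N * q = M) (γ : Gamma1 M) : Gamma1 N :=
  have hc : (q : ℤ) ∣ (γ : SL(2, ℤ)) 1 0 := by
    have := ((Gamma1_mem M _).1 γ.2).2.2
    rw [ZMod.intCast_zmod_eq_zero_iff_dvd] at this
    exact (Int.natCast_dvd_natCast.2 ⟨N, by rw [← hM, mul_comm]⟩).trans this
  ⟨⟨!![(γ : SL(2, ℤ)) 0 0, (q : ℤ) * (γ : SL(2, ℤ)) 0 1;
      (γ : SL(2, ℤ)) 1 0 / q, (γ : SL(2, ℤ)) 1 1], by
    have hd := (γ : SL(2, ℤ)).det_coe
    rw [Matrix.det_fin_two] at hd
    rw [Matrix.det_fin_two_of]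
    linear_combination hd - (γ : SL(2, ℤ)) 0 1 * Int.mul_ediv_cancel' hc⟩,
  by
    obtain ⟨h1, h2, h3⟩ := (Gamma1_mem M _).1 γ.2
    have key : ∀ {a b : ℤ}, (a : ZMod M) = b → (a : ZMod N) = b := fun {a b} e => by
      rw [ZMod.intCast_eq_intCast_iff_dvd_sub] at e ⊢
      exact (Int.natCast_dvd_natCast.2 ⟨q, hM.symm⟩).trans e
    refine (Gamma1_mem N _).2 ⟨?_, ?_, ?_⟩
    · simpa using key (b := 1) (by simpa using h1)
    · simpa using key (b := 1) (by simpa using h2)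
    · show (((γ : SL(2, ℤ)) 1 0 / q : ℤ) : ZMod N) = 0
      rw [ZMod.intCast_zmod_eq_zero_iff_dvd] at h3 ⊢
      refine Int.dvd_div_of_mul_dvd ?_
      have e : ((q : ℤ) * N) = (M : ℤ) := by rw [← Nat.cast_mul, mul_comm, hM]
      exact e.symm ▸ h3⟩

theorem coe_lowerConj (hM : N * q = M) (γ : Gamma1 M) :
    ((lowerConj hM γ : SL(2, ℤ)) : Matrix (Fin 2) (Fin 2) ℤ) =
      !![(γ : SL(2, ℤ)) 0 0, (q : ℤ) * (γ : SL(2, ℤ)) 0 1;
        (γ : SL(2, ℤ)) 1 0 / q, (γ : SL(2, ℤ)) 1 1] := rfl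

theorem mulM_smul (hM : N * q = M) (γ : Gamma1 M) (τ : ℍ) :
    Gen.mulM q ((γ : SL(2, ℤ)) • τ) = (lowerConj hM γ : SL(2, ℤ)) • Gen.mulM q τ := by
  have hc : (q : ℤ) ∣ (γ : SL(2, ℤ)) 1 0 := by
    have := ((Gamma1_mem M _).1 γ.2).2.2
    rw [ZMod.intCast_zmod_eq_zero_iff_dvd] at this
    exact (Int.natCast_dvd_natCast.2 ⟨N, by rw [← hM, mul_comm]⟩).trans this
  obtain ⟨k, hk⟩ := hc
  apply UpperHalfPlane.ext
  rw [Gen.coe_mulM, UpperHalfPlane.coe_specialLinearGroup_apply,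
    UpperHalfPlane.coe_specialLinearGroup_apply, Gen.coe_mulM]
  have hq : (q : ℂ) ≠ 0 := Nat.cast_ne_zero.2 (NeZero.ne q)
  simp only [coe_lowerConj, Matrix.of_apply, Matrix.cons_val', Matrix.cons_val_zero,
    Matrix.cons_val_one, Matrix.empty_val', Matrix.cons_val_fin_one, eq_intCast]
  rw [hk, Int.mul_ediv_cancel_left _ (by exact_mod_cast NeZero.ne q)]
  push_cast
  ring

theorem comp_mulM_mem (hM : N * q = M) {g : ℍ → ℂ} (hg : g ∈ modFunRingOne N) :
    (fun τ => g (Gen.mulM q τ)) ∈ modFunRingOne M := by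
  refine ⟨Gen.mdiff_mulM hg.1, fun γ hγ τ => ?_, fun γ => ?_⟩
  · show g (Gen.mulM q (γ • τ)) = _
    rw [mulM_smul hM ⟨γ, hγ⟩, hg.2.1 _ (lowerConj hM ⟨γ, hγ⟩).2]
  · subst hM
    exact Gen.comp_rep_mem_expRing hg.2.2 none γ

theorem isExpOne_mulM {g : ℍ → ℂ} {x : LaurentSeries Qbar} (h : IsExpOne g x) :
    IsExpOne (fun τ => g (Gen.mulM q τ)) (qExpand Qbar q x) := by
  have := Gen.expands_comp_mulM (M := q) h
  rwa [← coeffMap_qExpand] at this

/-- `lowerConj` is multiplicative. -/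
def lowerConjHom (hM : N * q = M) : Gamma1 M →* Gamma1 N :=
  MonoidHom.mk' (lowerConj hM) fun γ δ => by
    have hdvd : ∀ g : Gamma1 M, (q : ℤ) ∣ (g : SL(2, ℤ)) 1 0 := fun g => by
      have := ((Gamma1_mem M _).1 g.2).2.2
      rw [ZMod.intCast_zmod_eq_zero_iff_dvd] at this
      exact (Int.natCast_dvd_natCast.2 ⟨N, by rw [← hM, mul_comm]⟩).trans this
    obtain ⟨k, hk⟩ := hdvd γ
    obtain ⟨l, hl⟩ := hdvd δ
    refine Subtype.ext (Subtype.ext ?_)
    have hq : (q : ℤ) ≠ 0 := by exact_mod_cast NeZero.ne q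
    simp only [Subgroup.coe_mul, Matrix.SpecialLinearGroup.coe_mul, coe_lowerConj]
    have hk' : (γ : SL(2, ℤ)) 1 0 / (q : ℤ) = k := by rw [hk, Int.mul_ediv_cancel_left _ hq]
    have hl' : (δ : SL(2, ℤ)) 1 0 / (q : ℤ) = l := by rw [hl, Int.mul_ediv_cancel_left _ hq]
    have hkl : ((γ : SL(2, ℤ)) 1 0 * (δ : SL(2, ℤ)) 0 0 +
        (γ : SL(2, ℤ)) 1 1 * (δ : SL(2, ℤ)) 1 0) / (q : ℤ) =
          k * (δ : SL(2, ℤ)) 0 0 + (γ : SL(2, ℤ)) 1 1 * l := by
      rw [hk, hl, show (q : ℤ) * k * (δ : SL(2, ℤ)) 0 0 + (γ : SL(2, ℤ)) 1 1 * ((q : ℤ) * l) =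
        (q : ℤ) * (k * (δ : SL(2, ℤ)) 0 0 + (γ : SL(2, ℤ)) 1 1 * l) by ring,
        Int.mul_ediv_cancel_left _ hq]
    ext i j
    fin_cases i <;> fin_cases j <;> simp [Matrix.mul_apply, Fin.sum_univ_two, hk', hl', hkl] <;>
      (try simp only [hk, hl]) <;> ring

/-- Conjugation by `diag (q, 1)` maps `Γ₀(N q)` into `Γ₀(N)`. -/
theorem exists_gamma0_conj (hM : N * q = M) {γ : SL(2, ℤ)} (hγ : γ ∈ Gamma0 M) (τ : ℍ) :
    ∃ δ ∈ Gamma0 N, Gen.mulM q (γ • τ) = δ • Gen.mulM q τ := by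
  have h := Gamma0_mem.1 hγ
  rw [ZMod.intCast_zmod_eq_zero_iff_dvd] at h
  obtain ⟨k, hk⟩ := h
  have hd := γ.det_coe
  rw [Matrix.det_fin_two, hk] at hd
  refine ⟨⟨!![γ 0 0, (q : ℤ) * γ 0 1; (N : ℤ) * k, γ 1 1], by
    rw [Matrix.det_fin_two_of]
    subst hM
    push_cast at hd
    linear_combination hd⟩, Gamma0_mem.2 (by simp), ?_⟩
  apply UpperHalfPlane.ext
  rw [Gen.coe_mulM, UpperHalfPlane.coe_specialLinearGroup_apply,
    UpperHalfPlane.coe_specialLinearGroup_apply, Gen.coe_mulM]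
  simp only [Matrix.of_apply, Matrix.cons_val', Matrix.cons_val_zero,
    Matrix.cons_val_one, Matrix.empty_val', Matrix.cons_val_fin_one, eq_intCast]
  rw [hk, ← hM]
  push_cast
  ring

variable (hN : LevelFacts N) (hLM : LevelFacts M)

/-! ### Functions fixed by the diamonds -/

variable {D : DiamondData M}

include hLM in
/-- A function fixed by all diamonds lies at level `Γ₀(M)`. -/
theorem mem_MF_of_fixed {x : K1 M} (hx : ∀ u, D.dia u x = x) :
    (x : LaurentSeries Qbar) ∈ MF Qbar M := by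
  classical
  obtain ⟨a, b, hab⟩ := hLM.exists_rep x
  choose γ hγ hγu using fun u : (ZMod M)ˣ => Gen.exists_gamma0 u
  choose a' b' ha' hb' hrep using fun u => D.spec u (γ u) (hγ u) (hγu u) x a b hab
  choose ya yb hyb hea heb hxy using hrep
  -- `a ∘ γ` and `b ∘ γ` only depend on the lower right entry
  have hinv : ∀ (g : modFunRingOne M) (g' : (ZMod M)ˣ → modFunRingOne M),
      (∀ u τ, (g' u : ℍ → ℂ) τ = (g : ℍ → ℂ) (γ u • τ)) → ∀ {δ : SL(2, ℤ)} (v : (ZMod M)ˣ),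
      δ ∈ Gamma0 M → ((δ 1 1 : ℤ) : ZMod M) = v → ∀ u τ,
        (g' u : ℍ → ℂ) (δ • τ) = (g' (u * v) : ℍ → ℂ) τ := by
    intro g g' hg' δ v hδ hv u τ
    rw [hg', hg', ← mul_smul, show γ u * δ = γ u * δ * (γ (u * v))⁻¹ * γ (u * v) by group,
      mul_smul]
    refine g.2.2.1 _ ?_ _
    have h0 : ∀ {g : SL(2, ℤ)}, g ∈ Gamma0 M → (g 1 0 : ZMod M) = 0 := fun h => Gamma0_mem.1 h
    have hdet := congrArg (Int.cast : ℤ → ZMod M) ((Matrix.det_fin_two
      (γ (u * v) : Matrix (Fin 2) (Fin 2) ℤ)).symm.trans (γ (u * v)).det_coe)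
    push_cast at hdet
    have hmem : γ u * δ * (γ (u * v))⁻¹ ∈ Gamma0 M :=
      mul_mem (mul_mem (hγ u) hδ) (inv_mem (hγ _))
    have hd11 : (((γ u * δ * (γ (u * v))⁻¹) 1 1 : ℤ) : ZMod M) = 1 := by
      simp [Matrix.SpecialLinearGroup.coe_inv, Matrix.adjugate_fin_two, Matrix.mul_apply,
        Fin.sum_univ_two, h0 (hγ u), h0 hδ, hγu, hv]
      rw [h0 (hγ (u * v)), hγu, Units.val_mul] at hdet
      linear_combination hdet
    refine (Gamma1_mem M _).2 ⟨?_, hd11, h0 hmem⟩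
    have hdet' := congrArg (Int.cast : ℤ → ZMod M) ((Matrix.det_fin_two
      ((γ u * δ * (γ (u * v))⁻¹ : SL(2, ℤ)) : Matrix (Fin 2) (Fin 2) ℤ)).symm.trans
        (γ u * δ * (γ (u * v))⁻¹).det_coe)
    push_cast at hdet'
    rw [hd11, h0 hmem] at hdet'
    linear_combination hdet'
  set A₀ : modFunRingOne M := ∑ u, a' u * ∏ w ∈ Finset.univ.erase u, b' w
  set B₀ : modFunRingOne M := ∏ w, b' w
  have hval : ∀ (τ : ℍ),
      (A₀ : ℍ → ℂ) τ = ∑ u, (a' u : ℍ → ℂ) τ * ∏ w ∈ Finset.univ.erase u, (b' w : ℍ → ℂ) τ ∧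
      (B₀ : ℍ → ℂ) τ = ∏ w, (b' w : ℍ → ℂ) τ := fun τ => by
    simp [A₀, B₀, Finset.sum_apply, Finset.prod_apply]
  have hmf : ∀ g : modFunRingOne M, (∀ δ ∈ Gamma0 M, ∀ τ, (g : ℍ → ℂ) (δ • τ) = (g : ℍ → ℂ) τ) →
      (g : ℍ → ℂ) ∈ modFunRing M := fun g h => ⟨g.2.1, h, g.2.2.2⟩
  have hv : ∀ {δ : SL(2, ℤ)}, δ ∈ Gamma0 M →
      ∃ v : (ZMod M)ˣ, ((δ 1 1 : ℤ) : ZMod M) = v := fun {δ} hδ => by
    have hdet := congrArg (Int.cast : ℤ → ZMod M)
      ((Matrix.det_fin_two (δ : Matrix (Fin 2) (Fin 2) ℤ)).symm.trans δ.det_coe)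
    push_cast at hdet
    rw [show (δ 1 0 : ZMod M) = 0 from Gamma0_mem.1 hδ, mul_zero, sub_zero, mul_comm] at hdet
    exact ⟨(IsUnit.of_mul_eq_one _ hdet).unit, rfl⟩
  have hA₀ : (A₀ : ℍ → ℂ) ∈ modFunRing M := hmf A₀ fun δ hδ τ => by
    obtain ⟨v, hv⟩ := hv hδ
    rw [(hval _).1, (hval _).1]
    refine Fintype.sum_equiv (Equiv.mulRight v) _ _ fun u => ?_
    rw [hinv a a' ha' v hδ hv]
    congr 1
    refine Finset.prod_equiv (Equiv.mulRight v) (fun w => ?_) fun w _ => hinv b b' hb' v hδ hv w τ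
    simp
  have hB₀ : (B₀ : ℍ → ℂ) ∈ modFunRing M := hmf B₀ fun δ hδ τ => by
    obtain ⟨v, hv⟩ := hv hδ
    rw [(hval _).2, (hval _).2]
    exact Fintype.prod_equiv (Equiv.mulRight v) _ _ fun w => hinv b b' hb' v hδ hv w τ
  -- the expansions
  have hexpA : IsExpOne (A₀ : ℍ → ℂ) (∑ u, ya u * ∏ w ∈ Finset.univ.erase u, yb w) := by
    show Expands 1 _ _
    simp only [map_sum, map_mul, map_prod]
    rw [show (A₀ : ℍ → ℂ) = ∑ u, (a' u : ℍ → ℂ) * ∏ w ∈ Finset.univ.erase u, (b' w : ℍ → ℂ) from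
      funext fun τ => by rw [(hval τ).1]; simp [Finset.sum_apply, Finset.prod_apply]]
    exact Expands.sum _ fun u _ => (hea u).mul (expands_prod _ fun w _ => heb w)
  have hexpB : IsExpOne (B₀ : ℍ → ℂ) (∏ w, yb w) := by
    show Expands 1 _ _
    rw [map_prod, show (B₀ : ℍ → ℂ) = ∏ w, (b' w : ℍ → ℂ) from
      funext fun τ => by rw [(hval τ).2, Finset.prod_apply]]
    exact expands_prod _ fun w _ => heb w
  have hdesc : ∀ (g : ℍ → ℂ) (hg : g ∈ modFunRing M) (y : LaurentSeries Qbar),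
      IsExpOne g y → y ∈ MF Qbar M := by
    intro g hg y hy
    letI : Algebra Qbar ℂ := iotaOne.toAlgebra
    have h := JTors.qL_mem_laurentBaseChange ⟨g, hg⟩
    rw [qL_eq_of_expands (g := ⟨g, hg⟩) (x := coeffMap iotaOne y) hy] at h
    obtain ⟨z, hz, hzx⟩ := JTors.exists_coeffMap_eq_of_mem (K := Qbar) (L := ℂ)
      (modularFunctionFieldFull M) h fun k => ⟨y.coeff k, (coeffMap_coeff _ _ _).symm⟩
    rw [show z = y from Gen.coeffMap_inj iotaOne.injective hzx] at hz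
    exact hz
  have hsum : (∑ u, ya u * ∏ w ∈ Finset.univ.erase u, yb w) =
      (Fintype.card (ZMod M)ˣ : LaurentSeries Qbar) * ((x : LaurentSeries Qbar) * ∏ w, yb w) := by
    rw [← nsmul_eq_mul, ← Finset.card_univ, ← Finset.sum_const]
    refine Finset.sum_congr rfl fun u _ => ?_
    have e := hxy u
    rw [hx] at e
    rw [← e, mul_assoc, Finset.mul_prod_erase _ _ (Finset.mem_univ u)]
  have hB0 : (∏ w, yb w : LaurentSeries Qbar) ≠ 0 := Finset.prod_ne_zero_iff.2 fun w _ => hyb w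
  have hcard : ((Fintype.card (ZMod M)ˣ : ℕ) : LaurentSeries Qbar) ≠ 0 := by
    rw [← map_natCast (algebraMap Qbar (LaurentSeries Qbar))]
    exact (map_ne_zero _).2 (Nat.cast_ne_zero.2 Fintype.card_ne_zero)
  have e : (x : LaurentSeries Qbar) =
      (∑ u, ya u * ∏ w ∈ Finset.univ.erase u, yb w) /
        ((Fintype.card (ZMod M)ˣ : LaurentSeries Qbar) * ∏ w, yb w) := by
    rw [hsum, eq_div_iff (mul_ne_zero hcard hB0)]
    ring
  rw [e]
  exact div_mem (hdesc _ hA₀ _ hexpA)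
    (mul_mem (natCast_mem _ _) (hdesc _ hB₀ _ hexpB))

section Residue

variable {A : ValuationSubring (AlgebraicClosure ℚ)} [Fact q.Prime]

include hN in
/-- The reduction of level `N` contains `k (j (q ^ d) : d ∣ N)`. -/
theorem fullC_le_resField (hA : A.LiesOverPrime q) {z : LaurentSeries (ResidueField A)}
    (hz : z ∈ modularFunctionFieldFullC (ResidueField A) N) : z ∈ resField N A := by
  haveI : CharP (ResidueField A) q := WeilPairing.charP_residueField Fact.out hA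
  haveI := GoodRed.isAlgClosed_residue A
  refine IntermediateField.adjoin_le_iff.2 ?_ hz
  rintro x ⟨d, hd0, hd, rfl⟩
  refine ⟨_, hN.mem_of_isExp ⟨jMul d, ?_⟩ (jd Qbar d) ?_, sRed_jd A d⟩
  · exact ⟨(jMul_mem hd).1, fun γ hγ τ => (jMul_mem hd).2.1 γ (Gamma1_in_Gamma0 N hγ) τ,
      (jMul_mem hd).2.2⟩
  · show Expands 1 _ _
    rw [coeffMap_qExpand, coeffMap_jqModC]
    exact expands_jMul

include hN hLM in
/-- The reduction at `q` of a function of level `q N` fixed by the diamonds comes from level `N`. -/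
theorem mem_resField_of_fixRed (hA : A.LiesOverPrime q) (hqN : ¬ q ∣ N) (hM : N * q = M)
    {z : LaurentSeries (ResidueField A)} (hz : FixRed D z) : z ∈ resField N A := by
  haveI : CharP (ResidueField A) q := WeilPairing.charP_residueField Fact.out hA
  haveI := GoodRed.isAlgClosed_residue A
  obtain ⟨y, hy, hyz⟩ := hz
  subst hM
  exact fullC_le_resField hN hA ((mem_fullC_iff_sRed A hA N hqN z).2
    ⟨(y : LaurentSeries Qbar), mem_MF_of_fixed hLM hy, hyz⟩)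

end Residue

end FLTAgent.RT.Compat
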