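import Fermat.Agent.RT.Coh.CohPart
import Fermat.Agent.RT.Compat.LevelMaps
import Fermat.Agent.LevelRaise.FormsBridge
import Fermat.Agent.DS.HeckeOne

/-!
# Balanced and classical representatives of `T l`

The balanced operator at `l` is the classical one after the diamond of an inverse square root of
the class of `l`.  A homomorphism of `Γ₀(N)` killing `Γ(K)` modulo `J` is multiplied by `l + 1` by
`T l` for `l ≡ 1` modulo `K`.
-/

set_option autoImplicit false
set_option linter.unusedSectionVars false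

noncomputable section

open CongruenceSubgroup IsLocalRing
open scoped MatrixGroups

namespace FLTAgent.RT.Compat

open FLTAgent.LevelRaise

/-- The square root in a group of odd order. -/
def sqrtD (D : Type*) [CommGroup D] : D →* D := powMonoidHom ((Nat.card D + 1) / 2)

theorem sqrtD_sq {D : Type*} [CommGroup D] [Fact (Odd (Nat.card D))] (x : D) :
    sqrtD D x * sqrtD D x = x := by
  obtain ⟨k, hk⟩ := (Fact.out : Odd (Nat.card D))
  show x ^ ((Nat.card D + 1) / 2) * x ^ ((Nat.card D + 1) / 2) = x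
  rw [← pow_add, show (Nat.card D + 1) / 2 + (Nat.card D + 1) / 2 = Nat.card D + 1 by omega,
    pow_succ, pow_card_eq_one', one_mul]

variable {M N K : ℕ} {D : Type*} [CommGroup D] {χ : (ZMod M)ˣ →* D} [Fact (Odd (Nat.card D))]
  [NeZero N]

theorem gamma1_le_gammaH (hMN : M ∣ N) (hK : N ∣ K) : Gamma1 K ≤ gammaH N χ := fun γ hγ => by
  rw [mem_gammaH_iff hMN (gamma0_le hK (Gamma1_in_Gamma0 K hγ))]
  intro v hv
  have h := congrArg (ZMod.castHom (hMN.trans hK) (ZMod M)) ((Gamma1_mem K γ).1 hγ).2.1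
  rw [map_one, map_intCast] at h
  rw [show v = 1 from Units.ext (hv.trans h), map_one]

theorem mapGL_injective' {X Y : Matrix (Fin 2) (Fin 2) ℤ}
    (h : X.map (Int.castRingHom ℝ) = Y.map (Int.castRingHom ℝ)) : X = Y :=
  Matrix.map_injective (fun _ _ e => Int.cast_injective e) h

theorem val_tRepOne {l : ℕ} (hl : l ≠ 0) (γp : SL(2, ℤ)) (i : Option (ZMod l)) :
    (DS.tRepOne l γp i).val =
      (matSL (DS.shiftOne l γp i) * tRepZ l i).map (Int.castRingHom ℝ) := by
  rw [DS.tRepOne_eq, Units.val_mul, val_tRep hl, Matrix.map_mul]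
  rfl

theorem isTransferZ_of_one {l : ℕ} (hl : l ≠ 0) {γp g : SL(2, ℤ)}
    {δ : Option (ZMod l) → SL(2, ℤ)} {i j : Option (ZMod l)}
    (h : DS.tRepOne l γp i * (g : GL (Fin 2) ℝ) = (δ i : GL (Fin 2) ℝ) * DS.tRepOne l γp j) :
    matSL (DS.shiftOne l γp i) * tRepZ l i * matSL g =
      matSL (δ i) * (matSL (DS.shiftOne l γp j) * tRepZ l j) := by
  refine mapGL_injective' ?_
  have e := congrArg Units.val h
  rw [Units.val_mul, Units.val_mul, val_tRepOne hl, val_tRepOne hl,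
    show ((g : GL (Fin 2) ℝ)).val = (matSL g).map (Int.castRingHom ℝ) from rfl,
    show ((δ i : GL (Fin 2) ℝ)).val = (matSL (δ i)).map (Int.castRingHom ℝ) from rfl,
    ← Matrix.map_mul, ← Matrix.map_mul] at e
  exact e

variable {A : Type*} [AddCommGroup A] {R : Type*} [CommRing R] [Module R A]

/-- **Classical cofactors for the balanced operator.** -/
theorem exists_transfer_opT (hMN : M ∣ N) (hK : N ∣ K) {l : ℕ} [NeZero l] (hl : l.Prime)
    (hlK : ¬ l ∣ K) {γp : SL(2, ℤ)} (h0 : γp ∈ Gamma0 K)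
    (h1 : ((γp 1 1 : ℤ) : ZMod K) = (l : ZMod K)) (g' : Gamma0 N)
    (hg' : ((χ (dUnit hMN g'))⁻¹ * (χ (dUnit hMN g'))⁻¹ : D) =
      χ (ZMod.unitOfCoprime l (hl.coprime_iff_not_dvd.2 fun h => hlK (h.trans (hMN.trans hK)))))
    (γ : Gamma1 K) :
    ∃ (σ : Equiv.Perm (Option (ZMod l))) (δ : Option (ZMod l) → Gamma1 K),
      DS.IsTransferOne (DS.tRepOne l γp) γ σ δ ∧
      ∀ v : Coh N χ A, opT R A χ hMN hl (fun h => hlK (h.trans hK)) v
          (Additive.ofMul ⟨(γ : SL(2, ℤ)), gamma1_le_gammaH hMN hK γ.2⟩) =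
        ∑ i, diamondAt R A χ hMN g' v
          (Additive.ofMul ⟨(δ i : SL(2, ℤ)), gamma1_le_gammaH hMN hK (δ i).2⟩) := by
  have hlN : ¬ l ∣ N := fun h => hlK (h.trans hK)
  have hlM : ¬ l ∣ M := fun h => hlN (h.trans hMN)
  have hγp : γp ∈ Gamma0 N := gamma0_le hK h0
  obtain ⟨σ, δ, hδ, hrel⟩ :=
    DS.exists_transferOne hl hlK h0 h1 (Gamma1_in_Gamma0 K γ.2)
  have hδ1 : ∀ i, δ i ∈ Gamma1 K := fun i => DS.mem_Gamma1_of_lowerRight (hδ i).1 (by
    rw [(hδ i).2]; exact ((Gamma1_mem K _).1 γ.2).2.1)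
  refine ⟨σ, fun i => ⟨δ i, hδ1 i⟩, hrel, fun v => ?_⟩
  let η : Option (ZMod l) → Matrix (Fin 2) (Fin 2) ℤ := fun i =>
    matSL (DS.shiftOne l γp i) * tRepZ l i
  have hs : ∀ i, DS.shiftOne l γp i ∈ Gamma0 N := fun i => by
    cases i
    · exact hγp
    · exact one_mem _
  have hbal : ∀ i, Bal χ (matSL (g' : SL(2, ℤ)) * η i) := fun i => by
    have hdet : (matSL (g' : SL(2, ℤ)) * η i).det = l := by
      rw [Matrix.det_mul, Matrix.det_mul, (g' : SL(2, ℤ)).det_coe, (DS.shiftOne l γp i).det_coe,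
        det_tRepZ, one_mul, one_mul]
    have h10 : (M : ℤ) ∣ η i 1 0 := dvd_mul_apply_one_zero
      ((Int.natCast_dvd_natCast.mpr hMN).trans (mem_gamma0_iff.mp (hs i)))
      (by rw [tRepZ_apply_one_zero]; exact dvd_zero _)
    refine ⟨dvd_mul_apply_one_zero ((Int.natCast_dvd_natCast.mpr hMN).trans
        (mem_gamma0_iff.mp g'.2)) h10, by rw [hdet]; exact_mod_cast hl.ne_zero,
      (dUnit hMN g')⁻¹, ?_, ?_⟩
    · rw [cast_mul_apply_zero_zero h10, ← coe_dUnit_inv hMN g']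
      have hone : ((η i 0 0 : ℤ) : ZMod M) = 1 := by
        rw [cast_mul_apply_zero_zero (by rw [tRepZ_apply_one_zero]; exact dvd_zero _)]
        cases i with
        | none =>
          have hd := det_matSL γp
          have e := congrArg (fun z : ℤ => (z : ZMod M)) hd
          push_cast at e
          have hM0 : ((matSL γp 1 0 : ℤ) : ZMod M) = 0 :=
            (ZMod.intCast_zmod_eq_zero_iff_dvd _ M).mpr
              ((Int.natCast_dvd_natCast.mpr hMN).trans (mem_gamma0_iff.mp hγp))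
          have h11 : ((matSL γp 1 1 : ℤ) : ZMod M) = (l : ZMod M) := by
            have := congrArg (ZMod.castHom (hMN.trans hK) (ZMod M)) h1
            rwa [map_intCast, map_natCast] at this
          rw [hM0, mul_zero, sub_zero, h11] at e
          simpa [DS.shiftOne, tRepZ] using e
        | some j => simp [DS.shiftOne, tRepZ]
      rw [hone, mul_one]
    · rw [hdet, map_inv, detChar_eq (v := ZMod.unitOfCoprime l (hl.coprime_iff_not_dvd.2 hlM))
        (by simp [ZMod.coe_unitOfCoprime]), hg']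
  have hcov : ∀ i, ∃ e : gammaH N χ,
      matSL (g' : SL(2, ℤ)) * η i = matSL (e : SL(2, ℤ)) * balRep N χ l i := fun i =>
    balRep_cover hMN hl (hbal i) (fun _ => hlM) (δ := g' * ⟨_, hs i⟩)
      (by rw [Subgroup.coe_mul, matSL_mul, Matrix.mul_assoc])
  choose e he using hcov
  let v' : ∀ x : SL(2, ℤ), x ∈ Gamma1 K → gammaH N χ := fun x hx =>
    ⟨(g' : SL(2, ℤ)) * x * (g' : SL(2, ℤ))⁻¹,
      conj_mem_gammaH hMN g' (gamma1_le_gammaH hMN hK hx)⟩
  have hT : IsTransferZ (balRep N χ l) (γ : SL(2, ℤ)) σ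
      (fun i => (e i)⁻¹ * v' (δ i) (hδ1 i) * e (σ i)) := fun i => by
    have hb : balRep N χ l i = matSL ((e i : SL(2, ℤ))⁻¹) * (matSL (g' : SL(2, ℤ)) * η i) := by
      rw [he, matSL_inv_mul_cancel]
    have hc : matSL (g' : SL(2, ℤ)) * η i * matSL (γ : SL(2, ℤ)) =
        matSL ((v' (δ i) (hδ1 i) : gammaH N χ) : SL(2, ℤ)) *
          (matSL (g' : SL(2, ℤ)) * η (σ i)) := by
      rw [Matrix.mul_assoc, isTransferZ_of_one (NeZero.ne l) (hrel i)]
      simp only [v', η, matSL_mul, Matrix.mul_assoc, matSL_inv_mul_cancel]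
    rw [hb, Matrix.mul_assoc, hc, he]
    simp only [Subgroup.coe_mul, Subgroup.coe_inv, matSL_mul, Matrix.mul_assoc]
  rw [opT_apply hMN hl hlN, famTransfer_apply _ v
    ⟨(γ : SL(2, ℤ)), gamma1_le_gammaH hMN hK γ.2⟩ hT]
  simp only [ofMul_mul, ofMul_inv, map_add, map_neg, Finset.sum_add_distrib,
    Finset.sum_neg_distrib]
  rw [Equiv.sum_comp σ (fun i => v (Additive.ofMul (e i))), neg_add_eq_sub, sub_add_cancel]
  refine Finset.sum_congr rfl fun i _ => ?_
  exact (diamondAt_apply_apply hMN g' v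
    ⟨(δ i : SL(2, ℤ)), gamma1_le_gammaH hMN hK (hδ1 i)⟩ (δ := v' (δ i) (hδ1 i)) rfl).symm

end FLTAgent.RT.Compat
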