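import Fermat.Agent.RT.Compat.Old
import Fermat.Agent.RT.Compat.Transfer
import Fermat.Agent.RT.Coh.Free
import Fermat.Agent.RT.Coh.TWStep

/-!
# A residual eigenvector at level `L q` is an old vector

At a Taylor–Wiles prime the residual eigenvectors in the part at level `L q` reduce to
`x (γ) + y (diag (q, 1) γ diag (q, 1)⁻¹)` with `x`, `y` residual eigenvectors prime to `q`.
-/

set_option autoImplicit false
set_option linter.unusedSectionVars false

noncomputable section

open IsLocalRing CongruenceSubgroup Polynomial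
open scoped MatrixGroups

namespace FLTAgent.RT.Compat

open FLTAgent.LevelRaise

variable {O : Type} [CommRing O] [IsDomain O] [IsDiscreteValuationRing O]
  [IsAdicComplete (maximalIdeal O) O] [Finite (ResidueField O)] [CharZero O]

section Pointwise

variable {M N : ℕ} {D : Type*} [CommGroup D] {χ : (ZMod M)ˣ →* D} [Fact (Odd (Nat.card D))]
  [NeZero N]

/-- Divisibility by a uniformiser is pointwise. -/
theorem mem_smul_top_iff {φ : Coh N χ O} :
    φ ∈ maximalIdeal O • (⊤ : Submodule O (Coh N χ O)) ↔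
      ∀ γ : gammaH N χ, φ (Additive.ofMul γ) ∈ maximalIdeal O := by
  refine ⟨fun h γ => ?_, fun h => ?_⟩
  · have h' := Submodule.mem_map_of_mem (f := cohEval (O := O) γ) h
    rw [Submodule.map_smul''] at h'
    have h2 := Submodule.smul_mono (le_refl (maximalIdeal O))
      (le_top : (⊤ : Submodule O (Coh N χ O)).map (cohEval (O := O) γ) ≤ ⊤) h'
    rw [smul_eq_mul, Ideal.mul_top] at h2
    exact h2
  · obtain ⟨ϖ, hϖ⟩ := IsDiscreteValuationRing.exists_irreducible O
    obtain ⟨ψ, rfl⟩ := exists_eq_smul_of_forall_mem hϖ h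
    exact Submodule.smul_mem_smul (hϖ.maximalIdeal_eq ▸ Ideal.mem_span_singleton_self ϖ)
      Submodule.mem_top

theorem map_mem_smul_top {E F : Type*} [AddCommGroup E] [Module O E] [AddCommGroup F] [Module O F]
    (f : E →ₗ[O] F) {x : E} (h : x ∈ maximalIdeal O • (⊤ : Submodule O E)) :
    f x ∈ maximalIdeal O • (⊤ : Submodule O F) := by
  have h' := Submodule.mem_map_of_mem (f := f) h
  rw [Submodule.map_smul''] at h'
  exact Submodule.smul_mono le_rfl le_top h'

/-- A polynomial residually a unit is injective modulo the maximal ideal where the translated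
operator is nilpotent. -/
theorem mem_smul_top_of_aeval {E : Type*} [AddCommGroup E] [Module O E] {X e : Module.End O E}
    {a : O} (hnil : ∀ n, ∃ k, ∀ φ, e φ = φ →
      ((X - a • (1 : Module.End O E)) ^ k) φ ∈ maximalIdeal O ^ n • (⊤ : Submodule O E))
    {p : O[X]} (hp : IsUnit (p.eval a)) {v : E} (hv : e v = v)
    (h : aeval X p v ∈ maximalIdeal O • (⊤ : Submodule O E)) :
    v ∈ maximalIdeal O • (⊤ : Submodule O E) := by
  obtain ⟨k, hk⟩ := exists_aeval_pow_mem hnil (p := C (p.eval a) - p) (by simp) 1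
  obtain ⟨g, hg⟩ : p ∣ (C (p.eval a)) ^ k - (C (p.eval a) - p) ^ k := by
    simpa using sub_dvd_pow_sub_pow (C (p.eval a)) (C (p.eval a) - p) k
  have e' : C (p.eval a) ^ k = g * p + (C (p.eval a) - p) ^ k := by
    rw [mul_comm, ← hg, sub_add_cancel]
  have hdec := congrArg (fun r => aeval X r v) e'
  simp only [map_add, map_mul, LinearMap.add_apply, Module.End.mul_apply] at hdec
  rw [← C_pow, aeval_C, Algebra.algebraMap_eq_smul_one, LinearMap.smul_apply, Module.End.one_apply,
    map_pow] at hdec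
  have hmem : (p.eval a) ^ k • v ∈ maximalIdeal O • (⊤ : Submodule O E) := by
    rw [hdec]
    have := hk v hv
    rw [pow_one] at this
    exact add_mem (map_mem_smul_top _ h) this
  obtain ⟨u, hu⟩ := hp.pow k
  have := Submodule.smul_mem _ (↑u⁻¹ : O) hmem
  rwa [← hu, smul_smul, Units.inv_mul, one_smul] at this

end Pointwise

variable {ι : Type*} {l : ι → ℕ} (hl : ∀ i, (l i).Prime) {L q : ℕ} [NeZero L] [NeZero q]

/-- The reduction on `Γ₀(L')` of a homomorphism at level `L`. -/
def redRes {L' : ℕ} (hL' : L ∣ L') (φ : Coh L trivChar O) :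
    Additive (Gamma0 L') →+ ResidueField O :=
  ((residue O).toAddMonoidHom.comp φ).comp (Subgroup.inclusion
    (show Gamma0 L' ≤ gammaH L trivChar by
      rw [gammaH_trivChar]; exact gamma0_le hL')).toAdditive

/-- A residual eigenvector gives an eigen system with trivial diamonds. -/
theorem isEigenOne_redRes {a : ι → O} (hne : NonEis l a) {L' : ℕ} [NeZero L'] (hL' : L ∣ L')
    {S : Finset ℕ} (hS : ∀ r : ℕ, r.Prime → r ∣ L' → r ∈ S)
    {t : (AlgebraicClosure ℚ ≃ₐ[ℚ] AlgebraicClosure ℚ) → ResidueField O} {φ : Coh L trivChar O}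
    (hφ : φ ∈ cohPart trivChar (one_dvd L) hl a)
    (heig : ∀ r : ℕ, ∀ hr : r.Prime, r ∉ S → ∀ B : ValuationSubring (AlgebraicClosure ℚ),
      B.LiesOverPrime r → ∀ F, B.IsFrobeniusAt F r → ∀ c : O, residue O c = t F →
        opP O O trivChar (one_dvd L) hr φ - c • φ ∈
          maximalIdeal O • (⊤ : Submodule O (Coh L trivChar O))) :
    IsEigenOne (redRes hL' φ) t S where
  vanish γ hγ := by
    have := isAddTorsionFree_of_charZero (O := O)
    show residue O (φ (Additive.ofMul ⟨(γ : SL(2, ℤ)), _⟩)) = 0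
    rw [apply_eq_zero_of_mem_cohPart (one_dvd L) hl hne hφ (show
      (((γ : SL(2, ℤ))) : Matrix (Fin 2) (Fin 2) ℤ).trace ^ 2 ≤ 4 from hγ), map_zero]
  hecke r hr hrS B hB F hF := by
    intro γp h0 h1 g
    have : NeZero r := ⟨hr.ne_zero⟩
    have hrL' : ¬ r ∣ L' := fun h => hrS (hS r hr h)
    obtain ⟨σ, δ, hrel, hsum⟩ := exists_transfer_opT (R := O) (A := O) (χ := trivChar) (one_dvd L)
      hL' hr hrL' h0 h1 1 (Subsingleton.elim _ _) g
    obtain ⟨c, hc⟩ := residue_surjective (t F)
    refine ⟨σ, δ, hrel, ?_⟩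
    have h := (mem_smul_top_iff.mp (heig r hr hrS B hB F hF c hc))
      ⟨(g : SL(2, ℤ)), gamma1_le_gammaH (one_dvd L) hL' g.2⟩
    rw [AddMonoidHom.sub_apply, ← residue_eq_zero_iff, map_sub, sub_eq_zero,
      opP_of_not_dvd O O (one_dvd L) hr (fun h => hrL' (h.trans hL')), hsum φ, diamondAt_one,
      map_sum] at h
    show t F * residue O (φ _) = ∑ i, residue O (φ _)
    rw [← hc, ← map_mul]
    exact h.symm

variable {i₀ : ι} {a a' : ι → O} {α β : O}

/-- **A residual eigenvector at level `L q` is old.** -/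
theorem exists_old_split (W : WData L q) (h : TWHyp l q i₀ a a' α β) (hne : NonEis l a)
    {L' K : ℕ} [NeZero L'] [NeZero K] (hL' : L ∣ L') (hK : L' * q = K)
    {S : Finset ℕ} (hS : ∀ r : ℕ, r.Prime → r ∣ L' → r ∈ S) (hqS : q ∈ S)
    {t : (AlgebraicClosure ℚ ≃ₐ[ℚ] AlgebraicClosure ℚ) → ResidueField O}
    {ψ₀ : Coh (L * q) trivChar O}
    (hψ : ψ₀ ∈ cohPart trivChar ((one_dvd L).trans (dvd_mul_right L q)) hl a')
    (heig : ∀ r : ℕ, ∀ hr : r.Prime, r ∉ S → ∀ B : ValuationSubring (AlgebraicClosure ℚ),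
      B.LiesOverPrime r → ∀ F, B.IsFrobeniusAt F r → ∀ c : O, residue O c = t F →
        opP O O trivChar ((one_dvd L).trans (dvd_mul_right L q)) hr ψ₀ - c • ψ₀ ∈
          maximalIdeal O • (⊤ : Submodule O (Coh (L * q) trivChar O))) :
    ∃ x y : Additive (Gamma0 L') →+ ResidueField O, IsEigenOne x t S ∧ IsEigenOne y t S ∧
      ∀ (γ : Gamma1 K) (h : (γ : SL(2, ℤ)) ∈ gammaH (L * q) trivChar),
        residue O (ψ₀ (Additive.ofMul ⟨(γ : SL(2, ℤ)), h⟩)) =
          oldHom hK x y (Additive.ofMul γ) := by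
  set hN := (one_dvd L).trans (dvd_mul_right L q) with hNdef
  obtain ⟨x₁, hx₁, x₂, hx₂, rfl⟩ := exists_eq_resB_add W (one_dvd L) hl h ψ₀ hψ
  set P := cohPart trivChar (one_dvd L) hl a
  -- the two reductions determine the components
  have hinj : ∀ u ∈ P, ∀ v ∈ P, resB O trivChar (dvd_mul_right L q) u +
      opW O W trivChar (one_dvd L) (resB O trivChar (dvd_mul_right L q) v) ∈
        maximalIdeal O • (⊤ : Submodule O (Coh (L * q) trivChar O)) →
      u ∈ maximalIdeal O • (⊤ : Submodule O (Coh L trivChar O)) ∧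
      v ∈ maximalIdeal O • (⊤ : Submodule O (Coh L trivChar O)) := by
    intro u hu v hv hz
    set T := opTq W (one_dvd L) O O trivChar
    have hc : ∀ x : Coh L trivChar O, coresB O W trivChar (one_dvd L) (resB O trivChar (dvd_mul_right L q) x) =
        ((q : O) + 1) • x := fun x => by
      rw [coresB_resB O W (one_dvd L), ← Nat.cast_smul_eq_nsmul O, Nat.cast_add, Nat.cast_one]
    have h1 : ((q : O) + 1) • u + T v ∈ maximalIdeal O • (⊤ : Submodule O (Coh L trivChar O)) := by
      have := map_mem_smul_top (coresB O W trivChar (one_dvd L)) hz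
      rwa [map_add, hc, coresB_opW_resB O W (one_dvd L)] at this
    have h2 : T u + ((q : O) + 1) • v ∈ maximalIdeal O • (⊤ : Submodule O (Coh L trivChar O)) := by
      have := map_mem_smul_top ((coresB O W trivChar (one_dvd L)).comp
        (opW O W trivChar (one_dvd L))) hz
      rwa [map_add, LinearMap.comp_apply, LinearMap.comp_apply, opW_opW O W (one_dvd L), hc,
        coresB_opW_resB O W (one_dvd L)] at this
    set d : O[X] := C ((q : O) + 1) ^ 2 - Polynomial.X ^ 2
    have hd : IsUnit (d.eval (a i₀)) := by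
      by_contra hn
      have h3 : (α - β) ^ 2 ∈ maximalIdeal O := by
        rw [show (α - β) ^ 2 = -(d.eval (a i₀)) - (a i₀ - (α + β)) * (a i₀ + (α + β)) -
          4 * (α * β - 1) + ((q : O) - 1) * ((q : O) + 3) by simp [d]; ring]
        exact add_mem (sub_mem (sub_mem (neg_mem hn) (Ideal.mul_mem_right _ _ h.add_mem))
          (Ideal.mul_mem_left _ _ h.mul_mem)) (Ideal.mul_mem_right _ _ h.q_one)
      exact (maximalIdeal.isMaximal O).ne_top (Ideal.eq_top_of_isUnit_mem _ h3 (h.sep.pow 2))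
    have hdT : ∀ x, aeval T d x = ((q : O) + 1) ^ 2 • x - T (T x) := fun x => by
      simp [d, Algebra.algebraMap_eq_smul_one, pow_two, -map_natCast]
      module
    have hkill : ∀ x ∈ P, ∀ y, ((q : O) + 1) • x + T y ∈
        maximalIdeal O • (⊤ : Submodule O (Coh L trivChar O)) →
        T x + ((q : O) + 1) • y ∈ maximalIdeal O • (⊤ : Submodule O (Coh L trivChar O)) →
        x ∈ maximalIdeal O • (⊤ : Submodule O (Coh L trivChar O)) := fun x hx y hy hy' => by
      refine mem_smul_top_of_aeval (h.nil_T (χ := trivChar) W (one_dvd L) hl) hd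
        ((mem_cohPart_iff _ hl a).mp hx) ?_
      have := sub_mem (Submodule.smul_mem _ ((q : O) + 1) hy) (map_mem_smul_top T hy')
      rw [hdT]
      convert this using 1
      rw [map_add, map_smul]
      module
    exact ⟨hkill u hu v h1 h2, hkill v hv u (by rwa [add_comm] at h2) (by rwa [add_comm] at h1)⟩
  -- the components are residual eigenvectors
  have hcomp : ∀ r : ℕ, ∀ hr : r.Prime, r ∉ S → ∀ B : ValuationSubring (AlgebraicClosure ℚ),
      B.LiesOverPrime r → ∀ F, B.IsFrobeniusAt F r → ∀ c : O, residue O c = t F →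
        (opP O O trivChar (one_dvd L) hr x₁ - c • x₁ ∈
          maximalIdeal O • (⊤ : Submodule O (Coh L trivChar O))) ∧
        opP O O trivChar (one_dvd L) hr x₂ - c • x₂ ∈
          maximalIdeal O • (⊤ : Submodule O (Coh L trivChar O)) := by
    intro r hr hrS B hB F hF c hc
    have hrq : r ≠ q := fun e => hrS (e ▸ hqS)
    have hkind : r ∣ L * q → r ∣ L := fun hd => (hr.dvd_mul.mp hd).resolve_right fun hq =>
      hrq ((Nat.prime_dvd_prime_iff_eq hr W.prime).mp hq)
    have hst : ∀ x ∈ P, opP O O trivChar (one_dvd L) hr x - c • x ∈ P := fun x hx =>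
      P.sub_mem (mem_cohPart_of_commute (one_dvd L) hl a
        (fun j => opP_comm (χ := trivChar) O O (one_dvd L) hr (hl j)) hx) (P.smul_mem _ hx)
    refine hinj _ (hst x₁ hx₁) _ (hst x₂ hx₂) ?_
    have e := heig r hr hrS B hB F hF c hc
    rw [map_add, ← Module.End.mul_apply (opP O O trivChar hN hr),
      (opW_opP W (one_dvd L) hr hrq).symm.eq, Module.End.mul_apply,
      resB_opP (one_dvd L) (dvd_mul_right L q) hr hkind,
      resB_opP (one_dvd L) (dvd_mul_right L q) hr hkind] at e
    convert e using 1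
    simp only [map_sub, map_smul, smul_add]
    abel
  refine ⟨redRes hL' x₁, redRes hL' x₂,
    isEigenOne_redRes hl hne hL' hS hx₁ (fun r hr hrS B hB F hF c hc =>
      (hcomp r hr hrS B hB F hF c hc).1),
    isEigenOne_redRes hl hne hL' hS hx₂ (fun r hr hrS B hB F hF c hc =>
      (hcomp r hr hrS B hB F hF c hc).2), fun γ hγ => ?_⟩
  have hLK : L' ∣ K := ⟨q, hK.symm⟩
  rw [AddMonoidHom.add_apply, map_add]
  refine congrArg₂ (· + ·) ?_ ?_
  · rw [resB_apply_apply]; rfl
  · -- the involution is conjugation by `diag (q, 1)`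
    set δq : Matrix (Fin 2) (Fin 2) ℤ := !![(q : ℤ), 0; 0, 1]
    obtain ⟨g, hg, -⟩ := exists_balW (χ := trivChar) W (one_dvd L)
    let A₀ : SL(2, ℤ) := slMk 1 W.y L ((q : ℤ) * W.t) (by linear_combination W.rel)
    have hA₀ : A₀ ∈ gammaH L trivChar := by
      rw [gammaH_trivChar, mem_gamma0_iff]; simp [A₀]
    have hWm : W.mat = matSL A₀ * δq := by
      simp [WData.mat, A₀, δq]
    have hconj : δq * matSL (γ : SL(2, ℤ)) = matSL (lowerConj hK γ : SL(2, ℤ)) * δq := by
      have hc : (q : ℤ) ∣ (γ : SL(2, ℤ)) 1 0 := by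
        have := ((Gamma1_mem K _).1 γ.2).2.2
        rw [ZMod.intCast_zmod_eq_zero_iff_dvd] at this
        exact (Int.natCast_dvd_natCast.2 ⟨L', by rw [← hK, mul_comm]⟩).trans this
      show δq * ((γ : SL(2, ℤ)) : Matrix (Fin 2) (Fin 2) ℤ) =
        ((lowerConj hK γ : SL(2, ℤ)) : Matrix (Fin 2) (Fin 2) ℤ) * δq
      rw [coe_lowerConj]
      ext i j
      fin_cases i <;> fin_cases j <;> simp [δq, Matrix.mul_apply, Fin.sum_univ_two] <;>
        (try rw [mul_comm ((γ : SL(2, ℤ)) 1 0 / q)]) <;> first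
          | rw [Int.mul_ediv_cancel' hc]
          | rw [Int.ediv_mul_cancel hc]
          | ring
    obtain ⟨σ, ε, hε⟩ := (isFam_W (χ := trivChar) W (one_dvd L)).exists_eq _ hγ
    rw [opW, famTransferL_apply, famTransfer_apply _ _ ⟨(γ : SL(2, ℤ)), hγ⟩ hε,
      Fintype.sum_unique, resB_apply_apply]
    set lc : gammaH L trivChar := ⟨(lowerConj hK γ : SL(2, ℤ)), by
      rw [gammaH_trivChar]
      exact gamma0_le hL' (Gamma1_in_Gamma0 L' (lowerConj hK γ).2)⟩
    set gA : gammaH L trivChar := ⟨(g : SL(2, ℤ)) * A₀, (gammaH L trivChar).mul_mem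
      (by rw [gammaH_trivChar]; exact gamma0_mul_le L q g.2) hA₀⟩
    have e : (ε default : SL(2, ℤ)) = ((gA * lc * gA⁻¹ : gammaH L trivChar) : SL(2, ℤ)) := by
      refine eq_of_matSL_mul (g := balW W trivChar) ?_ ?_
      · rw [balW_det W (one_dvd L)]; exact_mod_cast W.prime.ne_zero
      have h1 := hε default
      rw [show σ default = (default : Unit) from rfl] at h1
      rw [← h1, hg, hWm]
      simp only [Subgroup.coe_mul, Subgroup.coe_inv, gA, lc, mul_inv_rev, matSL_mul,
        Matrix.mul_assoc, matSL_inv_mul_cancel]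
      rw [hconj]
    rw [show (⟨(ε default : SL(2, ℤ)), gammaH_mono (dvd_mul_right L q) (ε default).2⟩ :
      gammaH L trivChar) = gA * lc * gA⁻¹ from Subtype.ext e]
    simp only [ofMul_mul, ofMul_inv, map_add, map_neg, add_neg_cancel_comm]
    rfl

end FLTAgent.RT.Compat
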