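import Fermat.Agent.DS.ModRep.CycloN
import Fermat.Agent.LevelSq.RamField

/-!
# Inertia at `q` maps onto the units modulo `q`
-/

set_option autoImplicit false
set_option linter.unusedSectionVars false

noncomputable section

namespace FLTAgent.RT.Compat

local notation "Qbar" => AlgebraicClosure ℚ
local notation "Γℚ" => AlgebraicClosure ℚ ≃ₐ[ℚ] AlgebraicClosure ℚ

variable {M m q : ℕ} [NeZero M] [NeZero m] [Fact q.Prime] {A : ValuationSubring Qbar}

/-- The cyclotomic characters are compatible. -/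
theorem unitsMap_cycloN (h : m ∣ M) (σ : Γℚ) :
    ZMod.unitsMap h (DS.cycloN M σ) = DS.cycloN m σ := by
  have hj : σ (DS.zetaN M) = DS.zetaN M ^ ((DS.cycloN M σ : (ZMod M)ˣ) : ZMod M).val :=
    ((DS.zetaN_spec M).autToPow_spec ℚ σ).symm
  obtain ⟨c, hc⟩ := h
  have hc' : IsPrimitiveRoot (DS.zetaN M ^ c) m :=
    (DS.zetaN_spec M).pow (Nat.pos_of_ne_zero (NeZero.ne M)) (by rw [hc, mul_comm])
  obtain ⟨i, -, hi⟩ := hc'.eq_pow_of_pow_eq_one (DS.zetaN_spec m).pow_eq_one
  have hσ : σ (DS.zetaN m) = DS.zetaN m ^ ((DS.cycloN M σ : (ZMod M)ˣ) : ZMod M).val := by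
    rw [← hi, map_pow, map_pow, hj, ← pow_mul, ← pow_mul, ← pow_mul, ← pow_mul]
    congr 1
    ring
  refine Units.ext ?_
  rw [DS.cycloN_eq_of_apply m hσ, ZMod.unitsMap_val, ZMod.natCast_val]

/-- **Inertia at `q` realises every unit modulo `q`**, acting trivially on the roots of unity of
order prime to `q`. -/
theorem exists_inertia_cycloN (hA : A.LiesOverPrime q) (u : (ZMod q)ˣ) :
    ∃ s ∈ A.inertiaSubgroupIn ℚ, DS.cycloN q s = u ∧
      ∀ (n : ℕ) [NeZero n], n.Coprime q → DS.cycloN n s = 1 := by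
  have hq : q.Prime := Fact.out
  have : NeZero q := ⟨hq.ne_zero⟩
  have hu : (u : ZMod q).val.Coprime q := by
    rw [← ZMod.isUnit_iff_coprime, ZMod.natCast_zmod_val]; exact u.isUnit
  obtain ⟨s, hs, hsζ⟩ := LevelSq.exists_inertia_map hA (DS.zetaN_spec q)
    ((DS.zetaN_spec q).pow_of_coprime _ hu)
  refine ⟨s, hs, Units.ext ?_, fun n _ hn => DS.cycloN_inertia hA hn hs⟩
  rw [DS.cycloN_eq_of_apply q hsζ, ZMod.natCast_zmod_val]

end FLTAgent.RT.Compat
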