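import Fermat.Agent.RT.Compat.System
import Fermat.Agent.RT.Compat.OldSplit
import Fermat.Agent.RT.Compat.Congr
import Fermat.Agent.RT.Compat.Surj
import Fermat.Agent.RT.Compat.Descend
import Fermat.Agent.RT.Sys.TWLevel
import Fermat.Agent.DS.Phi.Classes
import Fermat.Agent.DS.Geom.RedFacts
import Fermat.Agent.DS.Geom.FieldHecke
import Fermat.Agent.Frobenius.Lifting

/-!
# Inertia at a Taylor–Wiles prime acts on the part through the diamonds

For `s` in inertia at `q` the diamond `Δ` of the cyclotomic character of `s` and the trace `T` of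
the universal deformation at `s` satisfy `Δ ^ 2 - (T ^ 2 - 2) Δ + 1 = 0` on the part.
-/

set_option autoImplicit false
set_option linter.unusedSectionVars false
set_option linter.style.haveILetI false

noncomputable section

open IsLocalRing CongruenceSubgroup ModularCurve
open scoped MatrixGroups

namespace FLTAgent.RT.Compat

open FLTAgent.LevelRaise

local notation "Qbar" => AlgebraicClosure ℚ
local notation "Γℚ" => AlgebraicClosure ℚ ≃ₐ[ℚ] AlgebraicClosure ℚ

variable {O : Type} [CommRing O] [IsDomain O] [IsDiscreteValuationRing O]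
  [IsAdicComplete (maximalIdeal O) O] [Finite (ResidueField O)] [CharZero O]

theorem gamma_le_gamma1 (K : ℕ) : CongruenceSubgroup.Gamma K ≤ Gamma1 K := fun γ hγ =>
  let ⟨h00, _, h10, h11⟩ := Gamma_mem.mp hγ
  (Gamma1_mem K γ).2 ⟨h00, h11, h10⟩

/-- The quadratic relation from a linear one. -/
theorem quad_of_eq {R : Type*} [Ring R] {x t u : R} (hx : x = u * u) (hc : Commute t u)
    (h : 1 + x = t * u) : x ^ 2 - (t ^ 2 - 2) * x + 1 = 0 := by
  have e1 : (t * u) * (t * u) = t ^ 2 * x := by rw [hc.symm.mul_mul_mul_comm, hx, pow_two]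
  rw [← h] at e1
  rw [sub_mul, ← e1, two_mul]
  noncomm_ring

section Fix

variable {M N : ℕ} [NeZero N] {D : Type} [CommGroup D] [Fintype D] {χ : (ZMod M)ˣ →* D}
  [Fact (Odd (Nat.card D))] {J : Type} {l : J → ℕ} (hl : ∀ j, (l j).Prime) {a : J → O}
  {hMN : M ∣ N} {hχ : Function.Surjective χ} {d : ℕ}

/-- A vector fixed by the diamonds modulo the maximal ideal comes from `Γ₀(N)`. -/
theorem exists_coresC_of_fixed (B : Sys.DBasis hMN hχ (cohPart χ hMN hl a) d)
    {w : cohPart χ hMN hl a}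
    (hfix : ∀ δ, B.dia δ w - w ∈ maximalIdeal O • (⊤ : Submodule O (cohPart χ hMN hl a))) :
    ∃ ψ₀ ∈ cohPart trivChar (one_dvd N) hl a,
      (w : Coh N χ O) - resC O (dvd_refl N) (fun _ h => h.toTriv) ψ₀ ∈
        maximalIdeal O • (⊤ : Submodule O (Coh N χ O)) := by
  classical
  set c := B.equiv.symm w with hc
  have hw : B.equiv c = w := by rw [hc, LinearEquiv.apply_symm_apply]
  have hdiff : ∀ δ j, c δ j - c 1 j ∈ maximalIdeal O := fun δ j => by
    have h := map_mem_smul_top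
      (((LinearMap.proj j : (Fin d → O) →ₗ[O] O).comp (LinearMap.proj 1)).comp
        (B.equiv.symm : cohPart χ hMN hl a →ₗ[O] (D → Fin d → O))) (hfix δ⁻¹)
    rw [smul_eq_mul, Ideal.mul_top] at h
    have e : B.equiv.symm (B.dia δ⁻¹ w - w) = (fun ε => c (δ⁻¹⁻¹ * ε)) - c := by
      conv_lhs => rw [← hw, map_sub, B.dia_equiv]
      rw [LinearEquiv.symm_apply_apply, LinearEquiv.symm_apply_apply]
    simpa [e] using h
  obtain ⟨ϖ, hϖ⟩ := IsDiscreteValuationRing.exists_irreducible O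
  have hd : ∀ δ j, ∃ y, c δ j - c 1 j = ϖ * y := fun δ j => by
    have := hdiff δ j
    rwa [hϖ.maximalIdeal_eq, Ideal.mem_span_singleton] at this
  choose y hy using hd
  have e : c = (fun _ => c 1) + ϖ • y := by funext δ j; simp [← hy δ j]
  refine ⟨coresC O χ hMN hχ (∑ j, c 1 j • B.b j), coresC_mem_cohPart hMN hχ hl
    (Submodule.sum_mem _ fun j _ => Submodule.smul_mem _ _ (B.coe_vec j ▸ (B.vec j).2)), ?_⟩
  rw [← hw, B.coe_equiv, ← diamond_sum_eq hMN hχ]
  nth_rw 1 [e]
  rw [map_add, map_smul, diamondSum_apply, add_sub_cancel_left]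
  exact Submodule.smul_mem_smul (hϖ.maximalIdeal_eq ▸ Ideal.mem_span_singleton_self ϖ)
    Submodule.mem_top

theorem exists_coresC_eigen (hne : NonEis l a) (B : Sys.DBasis hMN hχ (cohPart χ hMN hl a) d)
    {w : cohPart χ hMN hl a}
    (hfix : ∀ δ, B.dia δ w - w ∈ maximalIdeal O • (⊤ : Submodule O (cohPart χ hMN hl a))) :
    ∃ ψ₀ ∈ cohPart trivChar (one_dvd N) hl a,
      (w : Coh N χ O) - resC O (dvd_refl N) (fun _ h => h.toTriv) ψ₀ ∈
        maximalIdeal O • (⊤ : Submodule O (Coh N χ O)) ∧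
      ∀ (r : ℕ) (hr : r.Prime) (c : O),
        opP O O χ hMN hr (w : Coh N χ O) - c • (w : Coh N χ O) ∈
          maximalIdeal O • (⊤ : Submodule O (Coh N χ O)) →
        opP O O trivChar (one_dvd N) hr ψ₀ - c • ψ₀ ∈
          maximalIdeal O • (⊤ : Submodule O (Coh N trivChar O)) := by
  obtain ⟨ψ₀, hψ, hwψ⟩ := exists_coresC_of_fixed hl B hfix
  refine ⟨ψ₀, hψ, hwψ, fun r hr c hc => ?_⟩
  have hmem : opP O O trivChar (one_dvd N) hr ψ₀ - c • ψ₀ ∈ cohPart trivChar (one_dvd N) hl a :=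
    Submodule.sub_mem _ (mem_cohPart_of_commute (one_dvd N) hl a
      (fun j => opP_comm (χ := trivChar) O O (one_dvd N) hr (hl j)) hψ)
      (Submodule.smul_mem _ _ hψ)
  refine mem_smul_top_iff.mpr fun γ => mem_maximalIdeal_of_restrict hMN hl hχ hne hmem
    (fun δ hδ => ?_) γ
  have h1 := sub_mem hc
    (map_mem_smul_top (opP O O χ hMN hr - c • (1 : Module.End O (Coh N χ O))) hwψ)
  rw [LinearMap.sub_apply, LinearMap.smul_apply, Module.End.one_apply, map_sub, smul_sub,
    resC_opP hMN hr ψ₀] at h1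
  have h2 : resC O (dvd_refl N) (fun _ h => h.toTriv) (opP O O trivChar (one_dvd N) hr ψ₀ - c • ψ₀) ∈
      maximalIdeal O • (⊤ : Submodule O (Coh N χ O)) := by
    convert h1 using 1
    rw [map_sub, map_smul]
    abel
  have h3 := mem_smul_top_iff.mp h2 ⟨δ, hδ⟩
  rwa [resC_apply_apply] at h3

end Fix

variable {ρbar : ResidualGaloisRep (ResidueField O)}
  {𝒟 : ∀ ⦃A : Type⦄ [CommRing A] [IsLocalRing A] [Algebra O A], GaloisRepAdic A → Prop}
  {M N : ℕ} [NeZero M] [NeZero N] {D : Type} [CommGroup D] [Fintype D] {χ : (ZMod M)ˣ →* D}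
  [Fact (Odd (Nat.card D))] {J : Type} {l : J → ℕ} {hl : ∀ j, (l j).Prime} {a : J → O}
  {hMN : M ∣ N} {hχ : Function.Surjective χ} {d : ℕ} {p : ℕ} [Fact p.Prime]

set_option maxHeartbeats 1600000 in
/-- **Inertia at a Taylor–Wiles prime and the diamonds.** -/
theorem diamond_quadratic_eq_zero (hp2 : p ≠ 2) (hp : (p : O) ∈ maximalIdeal O)
    (ψp : ℤ_[p] →+* O) (h𝒟 : GaloisRep.IsDeformationCondition O 𝒟)
    (Dat : GaloisRep.DeformationRingData O ρbar 𝒟) (S₁ : Finset ℕ)
    (hdet : ∀ r : ℕ, r.Prime → r ∉ S₁ → ∀ A : ValuationSubring Qbar, A.LiesOverPrime r →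
      ∀ F : Γℚ, A.IsFrobeniusAt F r → LinearMap.det (ρbar.ρ F) = (r : ResidueField O))
    (hD : IsPGroup p D) (hne : NonEis l a) (B : Sys.DBasis hMN hχ (cohPart χ hMN hl a) d)
    (φ : Dat.R →ₐ[O] Module.End O (cohPart χ hMN hl a)) (hcompat : Sys.IsFrobCompat Dat S₁ φ)
    {L q : ℕ} (hq : q.Prime) (hN : N = L * q) (hqL : ¬ q ∣ L) (hqp : q % p = 1)
    {i₀ : J} (hi₀ : l i₀ = q) (huniq : ∀ j, l j = q → j = i₀) {β : O}
    (hmul : a i₀ * β - 1 ∈ maximalIdeal O) (hsep : IsUnit (a i₀ - β))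
    {A : ValuationSubring Qbar} (hA : A.LiesOverPrime q)
    (hfrob : ∀ F : Γℚ, A.IsFrobeniusAt F q →
      LinearMap.trace (ResidueField O) ρbar.V (ρbar.ρ F) = residue O (a i₀ + β))
    {s : Γℚ} (hs : s ∈ A.inertiaSubgroupIn ℚ) :
    B.dia (χ (DS.cycloN M s)) ^ 2 -
      (φ (Dat.ρ.trace s) ^ 2 - 2) * B.dia (χ (DS.cycloN M s)) + 1 = 0 := by
  classical
  subst hN
  have hpp : p.Prime := Fact.out
  have : Fact q.Prime := ⟨hq⟩
  have : NeZero q := ⟨hq.ne_zero⟩
  have : NeZero L := ⟨fun h => hqL (h ▸ dvd_zero q)⟩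
  have := isAddTorsionFree_of_charZero (O := O)
  have hpdvd : p ∣ q - 1 := by
    have := Nat.div_add_mod q p
    exact ⟨q / p, by omega⟩
  have hq5 : 5 ≤ q := by
    obtain ⟨c, hc⟩ := hpdvd
    have h3 : 3 ≤ p := by have := hpp.two_le; omega
    have h2 := hq.two_le
    rcases Nat.lt_or_ge c 2 with h | h
    · interval_cases c
      · omega
      · obtain ⟨k, hk⟩ := hpp.odd_of_ne_two hp2
        have : 2 ∣ q := ⟨k + 1, by omega⟩
        have := (Nat.prime_dvd_prime_iff_eq Nat.prime_two hq).mp this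
        omega
    · have : 2 * p ≤ p * c := by rw [mul_comm 2 p]; exact Nat.mul_le_mul_left p h
      omega
  have hqne : q ≠ p := fun h => by rw [h, Nat.mod_self] at hqp; exact zero_ne_one hqp
  have hq1 : (q : O) - 1 ∈ maximalIdeal O := by
    obtain ⟨c, hc⟩ := hpdvd
    rw [show (q : O) = ((p * c + 1 : ℕ) : O) from congrArg Nat.cast (by omega)]
    push_cast
    rw [add_sub_cancel_right]
    exact Ideal.mul_mem_right _ _ hp
  -- the exact relation
  set r₀ : D := sqrtD D (χ (DS.cycloN M s))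
  set Δ := B.dia (χ (DS.cycloN M s))
  set T := φ (Dat.ρ.trace s)
  set S' := B.dia r₀
  have hΔ : Δ = S' * S' := by simp only [Δ, S', r₀]; rw [← map_mul, sqrtD_sq]
  have hcy : (GalRep.cyclo p s : ℤ_[p]) = 1 := by
    rw [GalRep.cyclo_inertia hq hqne hA hs, Units.val_one]
  have hcomm : ∀ x δ, Commute (φ x) (B.dia δ) := fun x δ =>
    ((Subalgebra.mem_centralizer_iff O).mp (hcompat.mem_equivEnd h𝒟 B x) _ ⟨δ, rfl⟩).symm
  suffices hkey : (1 : Module.End O (cohPart χ hMN hl a)) + Δ = T * S' from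
    quad_of_eq (R := Module.End O (cohPart χ hMN hl a)) hΔ (hcomm _ r₀) hkey
  by_contra hne'
  set δE : Module.End O (cohPart χ hMN hl a) := 1 + Δ + (-1 : O) • (T * S') with hδE
  have hδv : ∀ x, δE x = x + Δ x - T (S' x) := fun x => by simp [hδE, sub_eq_add_neg]
  have hδ : δE ≠ 0 := fun h => hne' (LinearMap.ext fun x => by
    have h1 := hδv x
    rw [h, LinearMap.zero_apply, eq_comm, sub_eq_zero] at h1
    exact h1)
  have := moduleFinite_coh (χ := χ) O O hMN
  have := isNoetherian_of_isNoetherianRing_of_finite O (Coh (L * q) χ O)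
  have : Module.IsTorsionFree O (Coh (L * q) χ O) := Function.Injective.moduleIsTorsionFree
    (fun φ x => φ x) (fun _ _ h => DFunLike.ext' h) (fun _ _ => rfl)
  have : Module.Free O (cohPart χ hMN hl a) := inferInstance
  -- residual scalars of the deformation ring
  have hlift : ∀ x : Dat.R, ∃ c : O, x - algebraMap O Dat.R c ∈ maximalIdeal Dat.R := fun x => by
    obtain ⟨c, hc⟩ := Dat.residue_surjective (residue Dat.R x)
    exact ⟨c, by rw [← residue_eq_zero_iff, map_sub, sub_eq_zero]; exact hc.symm⟩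
  choose cR hcR using hlift
  let X : Dat.R ⊕ D → Module.End O (cohPart χ hMN hl a) := Sum.elim φ B.dia
  have hX : ∀ i j, Commute (X i) (X j) := by
    rintro (x | x) (y | y)
    · exact (Commute.all x y).map φ
    · exact hcomm x y
    · exact (hcomm y x).symm
    · exact (Commute.all x y).map B.dia
  have hnil : ∀ i, ∃ k, ∀ v, ((X i - Sum.elim cR (fun _ => (1 : O)) i •
      (1 : Module.End O (cohPart χ hMN hl a))) ^ k) v ∈
        maximalIdeal O • (⊤ : Submodule O (cohPart χ hMN hl a)) := by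
    rintro (x | x)
    · have : Finite (O ⧸ maximalIdeal O) := ‹Finite (ResidueField O)›
      obtain ⟨j, hj⟩ := exists_pow_redEnd (I := maximalIdeal O) φ
      refine ⟨j, fun v => ?_⟩
      have := hj _ (Ideal.pow_mem_pow (hcR x) j) v
      rwa [map_pow, map_sub, AlgHom.commutes, Algebra.algebraMap_eq_smul_one] at this
    · obtain ⟨k, hk⟩ := hD x
      refine ⟨p ^ k, fun v => ?_⟩
      simp only [X, Sum.elim_inr, one_smul]
      exact exists_sub_one_pow_mem hp (by rw [← map_pow, hk, map_one]) v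
  have hXδ : ∀ i, Commute (X i) δE := fun i =>
    ((Commute.one_right _).add_right (hX i (Sum.inr (χ (DS.cycloN M s))))).add_right
      (((hX i (Sum.inl (Dat.ρ.trace s))).mul_right (hX i (Sum.inr r₀))).smul_right _)
  obtain ⟨w, v, n, hwm, hwv, hweig⟩ := exists_eigen_in_image X
    (Sum.elim cR fun _ => (1 : O)) hX hnil hδ hXδ (c₀ := (p : O)) hp
    (Nat.cast_ne_zero.mpr hpp.ne_zero)
  have hfix : ∀ δ, B.dia δ w - w ∈ maximalIdeal O • (⊤ : Submodule O (cohPart χ hMN hl a)) :=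
    fun δ => by
      have := hweig (Sum.inr δ)
      rwa [Sum.elim_inr, one_smul] at this
  obtain ⟨ψ₀, hψ, hwψ, hψeig⟩ := exists_coresC_eigen hl hne B hfix
  -- the levels
  set L' := 8 * L
  set K := 8 * L * q
  have : NeZero L' := ⟨mul_ne_zero (by norm_num) (NeZero.ne L)⟩
  have : NeZero K := ⟨mul_ne_zero (NeZero.ne L') hq.ne_zero⟩
  have hK : L' * q = K := rfl
  have hL' : L ∣ L' := dvd_mul_left L 8
  have hNK : L * q ∣ K := mul_dvd_mul_right hL' q
  have hL7 : 7 ≤ L' := by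
    have := Nat.pos_of_ne_zero (NeZero.ne L); show 7 ≤ 8 * L; omega
  have hK7 : 7 ≤ K := le_trans hL7 (Nat.le_mul_of_pos_right _ hq.pos)
  have hqL' : ¬ q ∣ L' := fun h => by
    rcases hq.dvd_mul.mp h with h | h
    · have := Nat.le_of_dvd (by norm_num) h
      interval_cases q <;> first | omega | (exact absurd hq (by norm_num))
    · exact hqL h
  set S : Finset ℕ := S₁ ∪ K.primeFactors ∪ {p, 2, 3, q}
  have hS : ∀ r : ℕ, r.Prime → r ∣ K → r ∈ S := fun r hr h => by
    simp [S, Nat.mem_primeFactors, hr, h, NeZero.ne K]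
  have hSL' : ∀ r : ℕ, r.Prime → r ∣ L' → r ∈ S := fun r hr h =>
    hS r hr (h.trans (dvd_mul_right L' q))
  have hS₁ : S₁ ⊆ S := fun x hx => by simp [S, hx]
  have hqS : q ∈ S := by simp [S]
  have hpS : p ∈ S := by simp [S]
  have hsys := heckeSystem_cohPart B φ ψp hne hcompat hNK hS hS₁ hpS
  have hRK : ∀ r : ℕ, r.Prime → r ∉ S → ∀ B' : ValuationSubring Qbar, B'.LiesOverPrime r →
      DS.ReductionFacts (DS.diamondData hK7) B' := fun r hr hrS B' hB' =>
    haveI : Fact r.Prime := ⟨hr⟩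
    DS.reductionFacts hB' (fun h => hrS (hS r hr h)) hK7
      (fun h => absurd (show r ∈ S by simp [S, h]) hrS)
      (fun h => absurd (show r ∈ S by simp [S, h]) hrS)
  have hRL : ∀ r : ℕ, r.Prime → r ∉ S → ∀ B' : ValuationSubring Qbar, B'.LiesOverPrime r →
      DS.ReductionFacts (DS.diamondData hL7) B' := fun r hr hrS B' hB' =>
    haveI : Fact r.Prime := ⟨hr⟩
    DS.reductionFacts hB' (fun h => hrS (hSL' r hr h)) hL7
      (fun h => absurd (show r ∈ S by simp [S, h]) hrS)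
      (fun h => absurd (show r ∈ S by simp [S, h]) hrS)
  have hRq : DS.ReductionFacts (DS.diamondData hL7) A :=
    DS.reductionFacts hA hqL' hL7 (fun h => by omega) (fun h => by omega)
  -- the residual system
  have hpk : (p : ResidueField O) = 0 := by
    rw [← map_natCast (residue O), residue_eq_zero_iff]; exact hp
  haveI : CharP (ResidueField O) p := by
    rwa [CharP.charP_iff_prime_eq_zero hpp]
  letI : Algebra (ZMod p) (ResidueField O) := ZMod.algebra _ p
  set t : Γℚ → ResidueField O := fun σ =>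
    LinearMap.trace (ResidueField O) ρbar.V (ρbar.ρ σ) with ht
  let dbar : Γℚ →* ResidueField O :=
    ((residue O).toMonoidHom.comp ψp.toMonoidHom).comp
      ((Units.coeHom ℤ_[p]).comp (GalRep.cyclo p))
  have hdbar : ∀ σ, dbar σ = LinearMap.det (ρbar.ρ σ) := fun σ =>
    (det_eq_cyclo hp ψp S₁ hdet σ).symm
  have h2k : (2 : ResidueField O) ≠ 0 := fun h => by
    obtain ⟨c, hc⟩ := hpp.odd_of_ne_two hp2
    exact one_ne_zero (α := ResidueField O) (by rw [← hpk, hc]; push_cast; rw [h]; ring)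
  have hirr : ∀ χ' : Γℚ →* ResidueField O, ∃ σ, χ' σ ^ 2 - t σ * χ' σ + dbar σ ≠ 0 := fun χ' => by
    obtain ⟨σ, hσ⟩ := exists_charpoly_ne_zero ρbar Dat.absIrr h2k χ'
    exact ⟨σ, by rwa [hdbar]⟩
  have hρlevel : ∃ L₀ : IntermediateField ℚ Qbar, FiniteDimensional ℚ L₀ ∧
      ∀ σ τ : Γℚ, (∀ z ∈ L₀, σ z = τ z) → ρbar.ρ σ = ρbar.ρ τ := by
    obtain ⟨L₀, hL₀, h₀⟩ := ρbar.factorsThroughFiniteLevel
    refine ⟨L₀, hL₀, fun σ τ hστ => ?_⟩
    rw [show σ = τ * (τ⁻¹ * σ) by group, map_mul, h₀ (τ⁻¹ * σ) fun x hx => by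
      rw [AlgEquiv.mul_apply, hστ x hx]; exact τ.symm_apply_apply x, mul_one]
  obtain ⟨L₀, hL₀, hρL⟩ := hρlevel
  -- the eigen property of `w`, hence of `ψ₀`
  have heig : ∀ r : ℕ, ∀ hr : r.Prime, r ∉ S → ∀ B' : ValuationSubring Qbar,
      B'.LiesOverPrime r → ∀ F, B'.IsFrobeniusAt F r → ∀ c : O, residue O c = t F →
        opP O O trivChar ((one_dvd L).trans (dvd_mul_right L q)) hr ψ₀ - c • ψ₀ ∈
          maximalIdeal O • (⊤ : Submodule O (Coh (L * q) trivChar O)) := by
    intro r hr hrS B' hB' F hF c hc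
    refine hψeig r hr c ?_
    have hcc : c - cR (Dat.ρ.trace F) ∈ maximalIdeal O := by
      rw [← residue_eq_zero_iff, map_sub, sub_eq_zero, hc]
      refine (ResidueField.map (algebraMap O Dat.R)).injective ?_
      rw [← residue_trace Dat F, ResidueField.map_residue, ← sub_eq_zero, ← map_sub,
        residue_eq_zero_iff]
      exact hcR _
    have h1 := sub_mem (hweig (Sum.inl (Dat.ρ.trace F)))
      (Submodule.smul_mem_smul hcc (Submodule.mem_top (x := w)))
    simp only [X, Sum.elim_inl, sub_smul, sub_sub_sub_cancel_right] at h1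
    have h2 := map_mem_smul_top (cohPart χ hMN hl a).subtype h1
    rwa [map_sub, map_smul, Submodule.subtype_apply, Submodule.subtype_apply,
      hcompat r hr (fun h => hrS (hS₁ h)) B' hB' F hF] at h2
  -- `ψ₀` is old
  set a₁ := Function.update a i₀ (a i₀ + β) with ha₁
  have hTW : TWHyp l q i₀ a₁ a (a i₀) β :=
    { eq_q := hi₀
      uniq := huniq
      of_ne := fun i hi => (Function.update_of_ne hi _ _).symm
      eq_alpha := rfl
      q_one := hq1
      add_mem := by simp [ha₁]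
      mul_mem := hmul
      sep := hsep }
  have hne₁ : NonEis l a₁ := Sys.nonEis_of_eq hne hq.ne_zero fun i hi =>
    Function.update_of_ne (fun e => hq.ne_one ((Nat.coprime_self q).mp
      (by rwa [e, hi₀] at hi))) _ _
  obtain ⟨W⟩ := exists_wData hq hqL
  obtain ⟨x, y, hx, hy, hxy⟩ :=
    exists_old_split hl W hTW hne₁ hL' hK hSL' hqS (t := t) hψ heig
  have hval : ∀ γ : Gamma1 K,
      residue O ((w : Coh (L * q) χ O)
        (Additive.ofMul ⟨(γ : SL(2, ℤ)), gamma1_le_gammaH hMN hNK γ.2⟩)) =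
      oldHom hK x y (Additive.ofMul γ) := fun γ => by
    have h := mem_smul_top_iff.mp hwψ ⟨(γ : SL(2, ℤ)), gamma1_le_gammaH hMN hNK γ.2⟩
    rw [AddMonoidHom.sub_apply, resC_apply_apply, ← residue_eq_zero_iff, map_sub,
      sub_eq_zero] at h
    rw [h]
    exact hxy γ _
  -- old vectors with these reductions vanish
  obtain ⟨F₀, hF₀⟩ := Frobenius.exists_isFrobeniusAt hq hA
  have hold : oldHom hK x y = 0 := by
    refine oldHom_eq_zero hA (DS.levelFacts hL7) (DS.levelFacts hK7) hK hqL' hqp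
      (D := DS.diamondData hK7) (DS.Phi.charClassFacts hK7 _ p)
      (D' := DS.diamondData hL7) (DS.Phi.charClassFacts hL7 _ p)
      (DS.heckeFacts_diamondData hL7) hSL' hRL hRq hF₀ (t := t) (d := dbar)
      (α := residue O (a i₀)) (β := residue O β)
      ⟨L₀, hL₀, fun σ τ h => by simp only [ht, hρL σ τ h]⟩
      ⟨L₀, hL₀, fun σ τ h => by rw [hdbar, hdbar, hρL σ τ h]⟩
      (fun σ τ => trace_conjugate ρbar.ρ σ τ) (fun r hr hrS B' hB' F hF => ?_) ?_ ?_ ?_ ?_ ?_ ?_ ?_
      hirr hx hy ?_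
    · rw [hdbar, hdet r hr (fun h => hrS (hS₁ h)) B' hB' F hF]
    · rw [← map_add]; exact hfrob F₀ hF₀
    · show residue O (ψp (GalRep.cyclo p F₀ : ℤ_[p])) = _
      rw [GalRep.cyclo_frobenius hq hqne hA hF₀, map_natCast, ← map_mul, ← sub_eq_zero, ← map_sub,
        residue_eq_zero_iff, show (q : O) - a i₀ * β = ((q : O) - 1) - (a i₀ * β - 1) by ring]
      exact sub_mem hq1 hmul
    · intro h0
      have hm : residue O (a i₀) * residue O β = 1 := by
        rw [← map_mul, ← map_one (residue O), ← sub_eq_zero, ← map_sub, residue_eq_zero_iff]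
        exact hmul
      rw [h0, zero_mul] at hm
      exact zero_ne_one hm
    · intro h0
      have hm : residue O (a i₀) * residue O β = 1 := by
        rw [← map_mul, ← map_one (residue O), ← sub_eq_zero, ← map_sub, residue_eq_zero_iff]
        exact hmul
      rw [h0, mul_zero] at hm
      exact zero_ne_one hm
    · intro h0
      have hm : residue O (a i₀) * residue O β = 1 := by
        rw [← map_mul, ← map_one (residue O), ← sub_eq_zero, ← map_sub, residue_eq_zero_iff]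
        exact hmul
      rw [h0, one_mul] at hm
      exact (residue_ne_zero_iff_isUnit _).mpr hsep (by rw [map_sub, h0, hm, sub_self])
    · intro h0
      have hm : residue O (a i₀) * residue O β = 1 := by
        rw [← map_mul, ← map_one (residue O), ← sub_eq_zero, ← map_sub, residue_eq_zero_iff]
        exact hmul
      rw [h0, mul_one] at hm
      exact (residue_ne_zero_iff_isUnit _).mpr hsep (by rw [map_sub, h0, hm, sub_self])
    · exact fun h0 => (residue_ne_zero_iff_isUnit _).mpr hsep (by rw [map_sub, h0, sub_self])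
    -- all translates reduce to powers
    intro π σ c hc
    have : NeZero (p ^ (n + 1)) := ⟨pow_ne_zero _ hpp.ne_zero⟩
    let ψ₁ : O →+ ZMod p := π.toAddMonoidHom.comp (residue O).toAddMonoidHom
    obtain ⟨ψ, hψ₁⟩ := exists_lift_zmod n ψ₁
    set ι' := resPar (χ := χ) hl hMN hne hNK
    have Hn := DS.Phi.charClassFacts hK7 (DS.diamondData hK7) (p ^ (n + 1))
    have hmem := inertia_mem_redKer hsys (DS.heckeFacts_diamondData hK7) Hn
      (contMod_tOp B φ (n + 1)) (contMod_dOp B ψp (n + 1)) hRK hA hs σ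
      (by
        show (φ (Dat.ρ.trace (σ⁻¹ * s * σ)) * B.dia _).toAddMonoidHom = _
        rw [show Dat.ρ.trace (σ⁻¹ * s * σ) = Dat.ρ.trace s from trace_conjugate Dat.ρ.ρ s σ,
          show DS.cycloN M (σ⁻¹ * s * σ) = DS.cycloN M s by
            rw [map_mul, map_mul, map_inv, mul_comm, ← mul_assoc, mul_inv_cancel, one_mul]]
        rfl)
      (by
        show (ψp (GalRep.cyclo p (σ⁻¹ * s * σ) : ℤ_[p]) • B.dia _).toAddMonoidHom = _
        rw [show GalRep.cyclo p (σ⁻¹ * s * σ) = GalRep.cyclo p s by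
            rw [map_mul, map_mul, map_inv, mul_comm, ← mul_assoc, mul_inv_cancel, one_mul],
          show DS.cycloN M (σ⁻¹ * s * σ) = DS.cycloN M s by
            rw [map_mul, map_mul, map_inv, mul_comm, ← mul_assoc, mul_inv_cancel, one_mul]]
        rfl) ψ v
    have e : v + dOp B ψp s v - tOp B φ s v = (p ^ n) • w := by
      rw [dOp_apply, tOp_apply, hcy, map_one, one_smul, ← Nat.cast_smul_eq_nsmul O, Nat.cast_pow,
        hwv, hδv]
    rw [e, map_nsmul] at hmem
    refine galClass_mem_redKer_descend hA Hn _ (pushHom ψ (ι' w)) c (fun g => ?_) σ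
      (by rw [map_nsmul]; exact hmem)
    obtain ⟨γ, rfl⟩ := Additive.ofMul.surjective g
    rw [pushHom_apply, hψ₁, hc, ← hval]
    rfl
  -- hence `w` vanishes modulo the maximal ideal
  have hψ0 : ∀ γ, ψ₀ (Additive.ofMul γ) ∈ maximalIdeal O := by
    refine mem_maximalIdeal_of_gamma hl hNK hne hψ fun γ hγ => ?_
    have h := hxy ⟨(γ : SL(2, ℤ)), gamma_le_gamma1 K hγ⟩ γ.2
    rw [hold, AddMonoidHom.zero_apply, residue_eq_zero_iff] at h
    exact h
  obtain ⟨ϖ, hϖ⟩ := IsDiscreteValuationRing.exists_irreducible O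
  have hw0 : ∀ γ : gammaH (L * q) χ,
      (w : Coh (L * q) χ O) (Additive.ofMul γ) ∈ maximalIdeal O := fun γ => by
    have h := mem_smul_top_iff.mp hwψ γ
    rw [AddMonoidHom.sub_apply, resC_apply_apply] at h
    have h2 := add_mem h (hψ0 ⟨(γ : SL(2, ℤ)), gammaH_le_triv γ.2⟩)
    rwa [sub_add_cancel] at h2
  obtain ⟨ψ', hψ'⟩ := exists_eq_smul_of_forall_mem hϖ hw0
  refine hwm ?_
  rw [show w = ϖ • (⟨_, cohProj_mem hMN hl a ψ'⟩ : cohPart χ hMN hl a) from Subtype.ext (by
    show (w : Coh (L * q) χ O) = ϖ • cohProj χ hMN hl a ψ'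
    rw [← map_smul, ← hψ']
    exact ((mem_cohPart_iff _ hl a).mp w.2).symm)]
  exact Submodule.smul_mem_smul (hϖ.maximalIdeal_eq ▸ Ideal.mem_span_singleton_self ϖ)
    Submodule.mem_top

/-- The diamonds supported at `q` satisfy the quadratic relation with some element of the
deformation ring. -/
theorem exists_diamond_quadratic (hp2 : p ≠ 2) (hp : (p : O) ∈ maximalIdeal O)
    (ψp : ℤ_[p] →+* O) (h𝒟 : GaloisRep.IsDeformationCondition O 𝒟)
    (Dat : GaloisRep.DeformationRingData O ρbar 𝒟) (S₁ : Finset ℕ)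
    (hdet : ∀ r : ℕ, r.Prime → r ∉ S₁ → ∀ A : ValuationSubring Qbar, A.LiesOverPrime r →
      ∀ F : Γℚ, A.IsFrobeniusAt F r → LinearMap.det (ρbar.ρ F) = (r : ResidueField O))
    (hD : IsPGroup p D) (hne : NonEis l a) (B : Sys.DBasis hMN hχ (cohPart χ hMN hl a) d)
    (φ : Dat.R →ₐ[O] Module.End O (cohPart χ hMN hl a)) (hcompat : Sys.IsFrobCompat Dat S₁ φ)
    {L q : ℕ} (hq : q.Prime) (hN : N = L * q) (hqL : ¬ q ∣ L) (hqp : q % p = 1)
    {i₀ : J} (hi₀ : l i₀ = q) (huniq : ∀ j, l j = q → j = i₀) {β : O}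
    (hmul : a i₀ * β - 1 ∈ maximalIdeal O) (hsep : IsUnit (a i₀ - β))
    {A : ValuationSubring Qbar} (hA : A.LiesOverPrime q)
    (hfrob : ∀ F : Γℚ, A.IsFrobeniusAt F q →
      LinearMap.trace (ResidueField O) ρbar.V (ρbar.ρ F) = residue O (a i₀ + β))
    (hqM : q ∣ M) (u : (ZMod q)ˣ) {δ : D}
    (hδ : ∀ v : (ZMod M)ˣ, ZMod.unitsMap hqM v = u →
      (∀ (m : ℕ) (hm : m ∣ M), m.Coprime q → ZMod.unitsMap hm v = 1) → χ v = δ) :
    ∃ t : Dat.R, B.dia δ ^ 2 - (φ t ^ 2 - 2) * B.dia δ + 1 = 0 := by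
  have : Fact q.Prime := ⟨hq⟩
  obtain ⟨s, hs, hsu, hs1⟩ := exists_inertia_cycloN hA u
  refine ⟨Dat.ρ.trace s, ?_⟩
  have : NeZero q := ⟨hq.ne_zero⟩
  have h := diamond_quadratic_eq_zero hp2 hp ψp h𝒟 Dat S₁ hdet hD hne B φ hcompat hq hN hqL hqp
    hi₀ huniq hmul hsep hA hfrob hs
  rwa [hδ _ (by rw [unitsMap_cycloN, hsu]) fun m hm hmq =>
    haveI : NeZero m := ⟨fun h0 => NeZero.ne M (Nat.eq_zero_of_zero_dvd (h0 ▸ hm))⟩
    by rw [unitsMap_cycloN, hs1 m hmq]] at h

end FLTAgent.RT.Compat
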