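import Fermat.Agent.RT.Compat.LevelMaps
import Fermat.Agent.JTors.Surject
import Mathlib.Analysis.SpecialFunctions.Complex.CircleAddChar

/-!
# Functions fixed by the diamonds attached to homomorphisms of `Γ₀(N)`

A homomorphism of `Γ₀(N)` killing elliptic and parabolic elements is the multiplier system of a
root of a function of level `Γ₀(N)`; at level `Γ₁(M)` this gives functions fixed by the diamonds.
-/

set_option autoImplicit false
set_option linter.unusedSectionVars false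

noncomputable section

open ModularCurve CongruenceSubgroup FLTAgent.DS FLTAgent.ModPoly
open UpperHalfPlane hiding I
open scoped MatrixGroups Manifold

namespace FLTAgent.RT.Compat

local notation "Qbar" => AlgebraicClosure ℚ

variable {N M m : ℕ} [NeZero N] [NeZero M] [NeZero m]

theorem exp_val_eq_toCircle (j : ZMod m) :
    Complex.exp (2 * Real.pi * Complex.I * (j.val : ℂ) / m) = (ZMod.stdAddChar j : ℂ) := by
  rw [ZMod.stdAddChar_apply, ZMod.toCircle_apply]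

/-- The root of a function of level `Γ₀(N)` with a prescribed multiplier system. -/
theorem exists_gamma0_root (c : Additive (Gamma0 N) →+ ZMod m)
    (hc : ∀ γ : Gamma0 N, Periods.IsEllPar γ → c (Additive.ofMul γ) = 0) :
    ∃ (g : modFunRing N) (y : LaurentSeries Qbar) (h : ℍ → ℂ),
      IsExpOne (g : ℍ → ℂ) y ∧ y ≠ 0 ∧ MDiff h ∧ h ≠ 0 ∧ (∀ τ, h τ ^ m = (g : ℍ → ℂ) τ) ∧
      ∀ (γ : Gamma0 N) (τ : ℍ), h ((γ : SL(2, ℤ)) • τ) =
        Complex.exp (2 * Real.pi * Complex.I * ((c (Additive.ofMul γ)).val : ℂ) / m) * h τ := by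
  classical
  let χ : Gamma0 N →* ℂˣ := MonoidHom.toHomUnits
    { toFun := fun γ => (ZMod.stdAddChar (c (Additive.ofMul γ)) : ℂ)
      map_one' := by simp
      map_mul' := fun γ δ => by rw [ofMul_mul, map_add, AddChar.map_add_eq_mul] }
  have hχv : ∀ γ, (χ γ : ℂ) =
      Complex.exp (2 * Real.pi * Complex.I * ((c (Additive.ofMul γ)).val : ℂ) / m) :=
    fun γ => (exp_val_eq_toCircle _).symm
  have hn : m ≠ 0 := NeZero.ne m
  have hχn : ∀ γ, χ γ ^ m = 1 := fun γ => Units.ext (by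
    rw [Units.val_pow_eq_pow_val, Units.val_one]
    show (ZMod.stdAddChar (c (Additive.ofMul γ)) : ℂ) ^ m = 1
    rw [← AddChar.map_nsmul_eq_pow, ZModModule.char_nsmul_eq_zero, AddChar.map_zero_eq_one])
  have hpar : ∀ γ : Gamma0 N, Periods.IsEllPar γ → χ γ = 1 := fun γ hγ => Units.ext (by
    show (ZMod.stdAddChar (c (Additive.ofMul γ)) : ℂ) = 1
    rw [hc γ hγ, AddChar.map_zero_eq_one])
  have hχ := JTors.trivialAtInfty_of_isEllPar hpar
  obtain ⟨h, h0, halg⟩ :=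
    JTors.exists_algebraic_cuspChar hn (⟨χ, hχ, hχn⟩ : JTors.InftyChar N m)
  set X := JTors.charExp hχ ⟨(h : ℍ → ℂ), h.2.1⟩ with hX
  set g : modFunRing N := ⟨_, JTors.pow_mem_modFunRing hn hχn h⟩
  have hqg : qL N g = X ^ m := qL_eq_of_expands ((JTors.expands_charExp hχ _).pow m)
  have hcoeff : ∀ k, (qL N g).coeff k ∈ Set.range iotaOne := by
    intro k
    rw [hqg]
    let _ : Algebra Qbar ℂ := iotaOne.toAlgebra
    have hX1 : X ∈ coeffSubring iotaOne.fieldRange.toSubring := fun k =>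
      JTors.mem_range_of_isAlgebraic iotaOne (halg k)
    exact (pow_mem hX1 m : X ^ m ∈ _) k
  choose co hco using hcoeff
  let y : LaurentSeries Qbar :=
    { coeff := co
      isPWO_support' := (qL N g).isPWO_support.mono fun k hk h1 => hk (iotaOne.injective (by
        rw [hco, h1, map_zero])) }
  have hy : coeffMap iotaOne y = qL N g := HahnSeries.ext (funext hco)
  refine ⟨g, y, (h : ℍ → ℂ), ?_, fun e => ?_, h.2.1.1, h0, fun τ => rfl, fun γ τ => ?_⟩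
  · show Expands 1 _ _
    rw [hy]
    exact expands_qL g
  · rw [e, map_zero, hqg] at hy
    refine pow_ne_zero m ((map_ne_zero_iff _ (JTors.charExp_injective hχ)).2 ?_) hy.symm
    exact fun e' => h0 (congrArg Subtype.val e')
  · rw [← hχv]; exact h.2.1.2.1 γ τ

theorem expands_one_mod : IsExpOne ((1 : modFunRingOne M) : ℍ → ℂ) (1 : LaurentSeries Qbar) := by
  show Expands 1 _ (coeffMap iotaOne 1)
  rw [map_one]
  exact Expands.one 1

/-- An invariant function of level `Γ₁(M)` with a root gives an element with that multiplier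
system; if it is invariant under `Γ₀(M)`, the element is fixed by the diamonds. -/
theorem exists_fixed_of_root (hL : LevelFacts M) (G : modFunRingOne M) {s : LaurentSeries Qbar}
    (hs : IsExpOne (G : ℍ → ℂ) s) (hs0 : s ≠ 0) {h : ℍ → ℂ} (hh : MDiff h) (hh0 : h ≠ 0)
    (hpow : ∀ τ, h τ ^ m = (G : ℍ → ℂ) τ) {c : Additive (Gamma1 M) →+ ZMod m}
    (hc : ∀ (γ : Gamma1 M) (τ : ℍ), h ((γ : SL(2, ℤ)) • τ) =
      Complex.exp (2 * Real.pi * Complex.I * ((c (Additive.ofMul γ)).val : ℂ) / m) * h τ) :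
    ∃ y : (K1 M)ˣ, ((y : K1 M) : LaurentSeries Qbar) = s ∧ IsRootHomOne m (y : K1 M) c ∧
      ∀ D : DiamondData M,
        (∀ γ : SL(2, ℤ), γ ∈ Gamma0 M → ∀ τ, (G : ℍ → ℂ) (γ • τ) = (G : ℍ → ℂ) τ) →
        ∀ u, D.dia u (y : K1 M) = y := by
  let y : K1 M := ⟨s, hL.mem_of_isExp G s hs⟩
  have hy0 : y ≠ 0 := fun e => hs0 (congrArg Subtype.val e)
  have hrep : RepOne y G 1 := ⟨s, 1, one_ne_zero, hs, expands_one_mod, mul_one s⟩
  refine ⟨Units.mk0 y hy0, rfl, ⟨h, G, 1, hrep, hh, hh0, fun τ => ?_, hc⟩, fun D hinv u => ?_⟩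
  · simp [hpow τ]
  obtain ⟨γ, hγ, hγu⟩ := Gen.exists_gamma0 u
  obtain ⟨a', b', ha', hb', ya, yb, hyb, hea, heb, hxy⟩ := D.spec u γ hγ hγu y G 1 hrep
  have ea : (a' : ℍ → ℂ) = (G : ℍ → ℂ) := funext fun τ => (ha' τ).trans (hinv γ hγ τ)
  have eb : (b' : ℍ → ℂ) = ((1 : modFunRingOne M) : ℍ → ℂ) := funext fun τ => hb' τ
  have hu : ∀ {f : ℍ → ℂ} {a b : LaurentSeries Qbar}, IsExpOne f a → IsExpOne f b → a = b :=
    fun ha hb => Gen.coeffMap_inj iotaOne.injective (Expands.unique ha hb)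
  rw [hu hea (ea ▸ hs), hu heb (eb ▸ expands_one_mod), mul_one] at hxy
  exact Subtype.ext hxy

variable {q : ℕ} [NeZero q]

theorem isEllPar_iff {γ : Gamma0 N} :
    Periods.IsEllPar γ ↔ ((γ : SL(2, ℤ)) : Matrix (Fin 2) (Fin 2) ℤ).trace ^ 2 ≤ 4 := Iff.rfl

/-- The units of levels `N` and `M = N q` attached to a homomorphism of `Γ₀(N)`. -/
theorem exists_old_units (hN : LevelFacts N) (hLM : LevelFacts M) (hM : N * q = M)
    (c : Additive (Gamma0 N) →+ ZMod m)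
    (hc : ∀ γ : Gamma0 N, Periods.IsEllPar γ → c (Additive.ofMul γ) = 0) :
    ∃ (x : (K1 N)ˣ) (x' x'' : (K1 M)ˣ),
      ((x' : K1 M) : LaurentSeries Qbar) = (x : K1 N) ∧
      ((x'' : K1 M) : LaurentSeries Qbar) = qExpand Qbar q ((x : K1 N) : LaurentSeries Qbar) ∧
      (∀ (D : DiamondData M) (u : (ZMod M)ˣ), D.dia u (x' : K1 M) = x' ∧ D.dia u (x'' : K1 M) = x'')
      ∧ (∀ c₁ : Additive (Gamma1 N) →+ ZMod m, (∀ γ : Gamma1 N, c₁ (Additive.ofMul γ) =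
            c (Additive.ofMul ⟨γ, Gamma1_in_Gamma0 N γ.2⟩)) → IsRootHomOne m (x : K1 N) c₁)
      ∧ (∀ c₂ : Additive (Gamma1 M) →+ ZMod m, (∀ γ : Gamma1 M, c₂ (Additive.ofMul γ) =
            c (Additive.ofMul ⟨γ, Gamma1_in_Gamma0 N (gamma1_le_of_dvd ⟨q, hM.symm⟩ γ.2)⟩)) →
          IsRootHomOne m (x' : K1 M) c₂)
      ∧ (∀ c₃ : Additive (Gamma1 M) →+ ZMod m, (∀ γ : Gamma1 M, c₃ (Additive.ofMul γ) =
            c (Additive.ofMul ⟨lowerConj hM γ, Gamma1_in_Gamma0 N (lowerConj hM γ).2⟩)) →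
          IsRootHomOne m (x'' : K1 M) c₃) := by
  obtain ⟨g, y, h, hy, hy0, hh, hh0, hpow, hγ⟩ := exists_gamma0_root c hc
  have hg1 : (g : ℍ → ℂ) ∈ modFunRingOne N :=
    ⟨g.2.1, fun γ hγ τ => g.2.2.1 γ (Gamma1_in_Gamma0 N hγ) τ, g.2.2.2⟩
  let G : modFunRingOne N := ⟨g, hg1⟩
  let G' : modFunRingOne M := ⟨g, mem_modFunRingOne_of_dvd ⟨q, hM.symm⟩ hg1⟩
  let G'' : modFunRingOne M := ⟨_, comp_mulM_mem hM hg1⟩
  have hs0 : qExpand Qbar q y ≠ 0 := (map_ne_zero_iff _ (qExpand_injective q)).2 hy0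
  have hinv' : ∀ γ : SL(2, ℤ), γ ∈ Gamma0 M → ∀ τ, (G' : ℍ → ℂ) (γ • τ) = (G' : ℍ → ℂ) τ :=
    fun γ hγ τ => g.2.2.1 γ (gamma0_le_of_dvd ⟨q, hM.symm⟩ hγ) τ
  have hinv'' : ∀ γ : SL(2, ℤ), γ ∈ Gamma0 M → ∀ τ, (G'' : ℍ → ℂ) (γ • τ) = (G'' : ℍ → ℂ) τ := by
    intro γ hγ τ
    obtain ⟨δ, hδ, e⟩ := exists_gamma0_conj hM hγ τ
    show (g : ℍ → ℂ) _ = _
    rw [e]
    exact g.2.2.1 δ hδ _
  have hdvd : N ∣ M := ⟨q, hM.symm⟩
  -- the three multiplier systems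
  let d₁ : Additive (Gamma1 N) →+ ZMod m :=
    c.comp (Subgroup.inclusion (Gamma1_in_Gamma0 N)).toAdditive
  let d₂ : Additive (Gamma1 M) →+ ZMod m :=
    d₁.comp (Subgroup.inclusion (gamma1_le_of_dvd hdvd)).toAdditive
  let d₃ : Additive (Gamma1 M) →+ ZMod m := d₁.comp (lowerConjHom hM).toAdditive
  obtain ⟨x, hx, hxr, -⟩ := exists_fixed_of_root (m := m) hN G hy hy0 hh hh0 hpow (c := d₁)
    (fun γ τ => hγ ⟨γ, Gamma1_in_Gamma0 N γ.2⟩ τ)
  obtain ⟨x', hx', hxr', hfix'⟩ := exists_fixed_of_root (m := m) hLM G' hy hy0 hh hh0 hpow (c := d₂)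
    (fun γ τ => hγ ⟨γ, Gamma1_in_Gamma0 N (gamma1_le_of_dvd hdvd γ.2)⟩ τ)
  have hh0' : (fun τ => h (Gen.mulM q τ)) ≠ 0 := fun e => hh0 (funext fun τ => by
    have := congrFun e (Gen.divM q τ); simpa [Gen.mulM_divM] using this)
  obtain ⟨x'', hx'', hxr'', hfix''⟩ := exists_fixed_of_root (m := m) hLM G'' (isExpOne_mulM hy) hs0
    (Gen.mdiff_mulM hh) hh0' (fun τ => hpow _) (c := d₃) (fun γ τ => by
      show h (Gen.mulM q _) = _
      rw [mulM_smul hM γ]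
      exact hγ ⟨lowerConj hM γ, Gamma1_in_Gamma0 N (lowerConj hM γ).2⟩ (Gen.mulM q τ))
  refine ⟨x, x', x'', hx'.trans hx.symm, by rw [hx'', hx], fun D u =>
    ⟨hfix' D hinv' u, hfix'' D hinv'' u⟩, fun c₁ h1 => ?_, fun c₂ h2 => ?_, fun c₃ h3 => ?_⟩
  · have : c₁ = d₁ := AddMonoidHom.ext fun γ => h1 (Additive.toMul γ)
    rw [this]; exact hxr
  · have : c₂ = d₂ := AddMonoidHom.ext fun γ => h2 (Additive.toMul γ)
    rw [this]; exact hxr'
  · have : c₃ = d₃ := AddMonoidHom.ext fun γ => h3 (Additive.toMul γ)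
    rw [this]; exact hxr''

end FLTAgent.RT.Compat
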