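import Mathlib.LinearAlgebra.Span.Basic
import Mathlib.Algebra.Module.Submodule.Invariant
import Mathlib.LinearAlgebra.Basis.VectorSpace
import Mathlib.Tactic.LinearCombination
import Mathlib.Tactic.Module

/-!
# Quadratic actions with a central element having distinct eigenvalues

If every element of a group acts by a root of its prescribed quadratic polynomial and the system of
polynomials has no character as a common root, an element with two distinct eigenvalues cannot be
central on a nonzero cyclic module.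
-/

set_option autoImplicit false

namespace FLTAgent.RT.Compat

variable {k V G : Type*} [Field k] [AddCommGroup V] [Module k V] [Group G]
  (r : G →* Module.End k V) (t : G → k) (d : G →* k)

/-- The quadratic relation of `σ` on the vector `v`. -/
def QuadRel (σ : G) (v : V) : Prop := r σ (r σ v) - t σ • r σ v + d σ • v = 0

/-- All quadratic relations on all translates of `v`. -/
def QuadOn (v : V) : Prop := ∀ σ τ : G, QuadRel r t d σ (r τ v)

variable {r t d}

theorem QuadRel.add {σ : G} {v w : V} (h : QuadRel r t d σ v) (h' : QuadRel r t d σ w) :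
    QuadRel r t d σ (v + w) := by
  unfold QuadRel at h h' ⊢
  simp only [map_add, smul_add]
  linear_combination (norm := module) h + h'

theorem QuadRel.smul {σ : G} {v : V} (h : QuadRel r t d σ v) (c : k) :
    QuadRel r t d σ (c • v) := by
  unfold QuadRel at h ⊢
  simp only [map_smul]
  linear_combination (norm := module) c • h

/-- If `1` is not a root of the polynomial of `φ`, then `φ - 1` is injective on vectors
satisfying the relation. -/
theorem eq_zero_of_fixed {φ : G} {α β : k} (htφ : t φ = α + β) (hdφ : d φ = α * β) (h1α : α ≠ 1)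
    (h1β : β ≠ 1) {v : V} (hv : QuadRel r t d φ v) (hfix : r φ v = v) : v = 0 := by
  unfold QuadRel at hv
  rw [hfix, hfix, htφ, hdφ] at hv
  have h : ((1 - α) * (1 - β)) • v = 0 := by linear_combination (norm := module) hv
  exact (smul_eq_zero.1 h).resolve_left
    (mul_ne_zero (sub_ne_zero.2 h1α.symm) (sub_ne_zero.2 h1β.symm))

/-- An element with two distinct nonzero eigenvalues which commutes with all translations of `x`
forces `x = 0`, unless the quadratic polynomials have a multiplicative system of roots. -/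
theorem eq_zero_of_central {φ : G} {α β : k} (htφ : t φ = α + β) (hdφ : d φ = α * β)
    (hα : α ≠ 0) (hβ : β ≠ 0) (hαβ : α ≠ β) (hd : ∀ σ, d σ ≠ 0)
    (hirr : ∀ χ : G →* k, ∃ σ, χ σ ^ 2 - t σ * χ σ + d σ ≠ 0)
    {x : V} (hx : QuadOn r t d x) (hcomm : ∀ σ, r φ (r σ x) = r σ (r φ x)) : x = 0 := by
  classical
  -- it suffices to treat an eigenvector of `φ` in the span of the translates
  suffices key : ∀ (γ δ : k), γ ≠ 0 → γ ≠ δ → d φ = γ * δ →
      ∀ v : V, QuadOn r t d v → (∀ σ, r φ (r σ v) = γ • r σ v) → v = 0 by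
    have h0 := hx φ 1
    simp only [QuadRel, map_one, Module.End.one_apply] at h0
    rw [htφ, hdφ] at h0
    set a := r φ x - β • x
    set b := r φ x - α • x
    have hquad : ∀ {c : k}, QuadOn r t d (r φ x - c • x) := fun {c} σ τ => by
      rw [map_sub, map_smul, sub_eq_add_neg, ← neg_smul, ← Module.End.mul_apply, ← map_mul]
      exact (hx σ (τ * φ)).add ((hx σ τ).smul _)
    have hcomm' : ∀ {γ δ : k}, t φ = γ + δ → d φ = γ * δ →
        ∀ σ, r φ (r σ (r φ x - δ • x)) = γ • r σ (r φ x - δ • x) := fun {γ δ} h1 h2 σ => by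
      have h3 := hx φ σ
      simp only [QuadRel] at h3
      rw [h1, h2, hcomm σ] at h3
      have h4 := hcomm (σ * φ)
      simp only [map_mul, Module.End.mul_apply] at h4
      rw [← hcomm σ] at h3
      have h5 : r φ (r φ (r σ x)) = r φ (r σ (r φ x)) := by rw [hcomm σ]
      simp only [map_sub, map_smul]
      rw [← hcomm σ]
      linear_combination (norm := module) h3
    have ha : a = 0 := key α β hα hαβ hdφ a hquad (hcomm' htφ hdφ)
    have hb : b = 0 := key β α hβ hαβ.symm (by rw [hdφ, mul_comm]) b hquad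
      (hcomm' (by rw [htφ, add_comm]) (by rw [hdφ, mul_comm]))
    have h : (α - β) • x = 0 := by
      have : a - b = 0 := by rw [ha, hb, sub_zero]
      linear_combination (norm := module) this
    exact (smul_eq_zero.1 h).resolve_left (sub_ne_zero.2 hαβ)
  intro γ δ hγ hγδ hdet v hv heig
  by_contra hv0
  -- every element acts by a scalar on `v`
  have hscal : ∀ σ τ, ∃ c : k, r σ (r τ v) = c • r τ v := by
    intro σ τ
    have h1 := hv σ τ
    have h2 := hv (φ * σ) τ
    simp only [QuadRel, map_mul, Module.End.mul_apply] at h1 h2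
    have e : ∀ w, r σ (r τ w) = r (σ * τ) w := fun w => by rw [map_mul, Module.End.mul_apply]
    have e2 : r φ (r σ (r τ v)) = γ • r σ (r τ v) := by rw [e]; exact heig _
    rw [e2, map_smul, map_smul] at h2
    have e3 : r φ (r σ (r σ (r τ v))) = γ • r σ (r σ (r τ v)) := by
      rw [← Module.End.mul_apply (r σ) (r σ), ← map_mul, ← Module.End.mul_apply (r (σ * σ)),
        ← map_mul]
      exact heig _
    rw [e3, hdet] at h2
    have hdne : γ * d σ * (γ - δ) ≠ 0 := mul_ne_zero (mul_ne_zero hγ (hd σ)) (sub_ne_zero.2 hγδ)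
    have h3 : (γ * (γ * t σ - t (φ * σ))) • r σ (r τ v) =
        (γ * d σ * (γ - δ)) • r τ v := by
      linear_combination (norm := module) h2 - (γ * γ) • h1
    rcases eq_or_ne (γ * (γ * t σ - t (φ * σ))) 0 with hz | hz
    · rw [hz, zero_smul] at h3
      rw [(smul_eq_zero.1 h3.symm).resolve_left hdne]
      exact ⟨0, by simp⟩
    · exact ⟨(γ * (γ * t σ - t (φ * σ)))⁻¹ * (γ * d σ * (γ - δ)),
        by rw [mul_smul, ← h3, inv_smul_smul₀ hz]⟩
  choose c hc using fun σ => hscal σ 1
  simp only [map_one, Module.End.one_apply] at hc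
  have hc1 : ∀ σ τ, c (σ * τ) = c σ * c τ := fun σ τ => smul_left_injective k hv0 (by
    simp only
    rw [← hc, map_mul, Module.End.mul_apply, hc, map_smul, hc, smul_smul, mul_comm])
  have hc0 : c 1 = 1 := smul_left_injective k hv0 (by
    simp only
    rw [← hc, map_one, Module.End.one_apply, one_smul])
  obtain ⟨σ, hσ⟩ := hirr ⟨⟨c, hc0⟩, hc1⟩
  have h := hv σ 1
  simp only [QuadRel, map_one, Module.End.one_apply, hc, map_smul] at h
  have h' : (c σ ^ 2 - t σ * c σ + d σ) • v = 0 := by linear_combination (norm := module) h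
  exact hσ ((smul_eq_zero.1 h').resolve_right hv0)

/-- The final step: if `φ (σ x) + σ y` is fixed by `φ` for all `σ`, then `x = y = 0`. -/
theorem eq_zero_of_fixed_translates {φ : G} {α β : k} (htφ : t φ = α + β) (hdφ : d φ = α * β)
    (hα : α ≠ 0) (hβ : β ≠ 0) (h1α : α ≠ 1) (h1β : β ≠ 1) (hαβ : α ≠ β) (hd : ∀ σ, d σ ≠ 0)
    (hirr : ∀ χ : G →* k, ∃ σ, χ σ ^ 2 - t σ * χ σ + d σ ≠ 0)
    {x y : V} (hx : QuadOn r t d x) (hy : QuadOn r t d y)
    (hfix : ∀ σ, r φ (r φ (r σ x) + r σ y) = r φ (r σ x) + r σ y) : x = 0 ∧ y = 0 := by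
  have hzero : ∀ σ, r φ (r σ x) + r σ y = 0 := fun σ => by
    refine eq_zero_of_fixed htφ hdφ h1α h1β ?_ (hfix σ)
    have h1 := (hx φ (φ * σ)).add (hy φ σ)
    rwa [map_mul, Module.End.mul_apply] at h1
  have hyx : y = -(r φ x) := by
    have := hzero 1
    simp only [map_one, Module.End.one_apply] at this
    exact eq_neg_of_add_eq_zero_right this
  have hx0 : x = 0 := eq_zero_of_central htφ hdφ hα hβ hαβ hd hirr hx fun σ => by
    have := hzero σ
    rwa [hyx, map_neg, ← sub_eq_add_neg, sub_eq_zero] at this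
  exact ⟨hx0, by rw [hyx, hx0, map_zero, neg_zero]⟩

end FLTAgent.RT.Compat
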