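import Fermat.Agent.RT.Compat.OldRed
import Fermat.Agent.RT.Compat.OldFun
import Fermat.Agent.RT.Compat.Galois
import Fermat.Agent.RT.Compat.Quadratic

/-!
# An old residual eigenvector whose classes reduce to powers vanishes

`x`, `y` are homomorphisms of `Γ₀(N)` with trivial diamonds, eigen for the same residual system.
If all translates of the classes of `x (γ) + y (diag (q, 1) γ diag (q, 1)⁻¹)` at level `N q` reduce
to `p`-th powers at a place over `q`, and a Frobenius element at `q` has two distinct eigenvalues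
different from `1`, both restrictions to `Γ₁(N)` vanish.
-/

set_option autoImplicit false
set_option linter.unusedSectionVars false

noncomputable section

open ModularCurve IsLocalRing CongruenceSubgroup FLTAgent.DS
open scoped MatrixGroups TensorProduct

namespace FLTAgent.RT.Compat

local notation "Qbar" => AlgebraicClosure ℚ
local notation "Γℚ" => AlgebraicClosure ℚ ≃ₐ[ℚ] AlgebraicClosure ℚ

variable {N M : ℕ} [NeZero N] [NeZero M] {q : ℕ} [Fact q.Prime] {p : ℕ} [Fact p.Prime]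
  {k : Type} [Field k] [Algebra (ZMod p) k]

/-- Restriction to `Γ₁(N)`. -/
def res1 {B : Type*} [AddCommGroup B] (x : Additive (Gamma0 N) →+ B) : Additive (Gamma1 N) →+ B :=
  x.comp (Subgroup.inclusion (Gamma1_in_Gamma0 N)).toAdditive

theorem isParabolicHom_res1 {B : Type*} [AddCommGroup B] {x : Additive (Gamma0 N) →+ B}
    (hx : ∀ γ : Gamma0 N, Periods.IsEllPar γ → x (Additive.ofMul γ) = 0) :
    Period.IsParabolicHom (Gamma1 N) (res1 x) := fun γ hγ =>
  hx ⟨γ, Gamma1_in_Gamma0 N γ.2⟩ (show _ ≤ _ from le_of_eq hγ)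

theorem res1_conj {B : Type*} [AddCommGroup B] (x : Additive (Gamma0 N) →+ B) {γ : SL(2, ℤ)}
    (hγ : γ ∈ Gamma0 N) (a b : Gamma1 N) (h : (b : SL(2, ℤ)) = γ * (a : SL(2, ℤ)) * γ⁻¹) :
    res1 x (Additive.ofMul b) = res1 x (Additive.ofMul a) := by
  show x (Additive.ofMul ⟨(b : SL(2, ℤ)), _⟩) = x (Additive.ofMul ⟨(a : SL(2, ℤ)), _⟩)
  have e : (⟨(b : SL(2, ℤ)), Gamma1_in_Gamma0 N b.2⟩ : Gamma0 N) =
      ⟨γ, hγ⟩ * ⟨(a : SL(2, ℤ)), Gamma1_in_Gamma0 N a.2⟩ * ⟨γ, hγ⟩⁻¹ := Subtype.ext h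
  rw [e, ofMul_mul, ofMul_mul, map_add, map_add, ofMul_inv, map_neg]
  abel

/-- `x (γ) + y (diag (q, 1) γ diag (q, 1)⁻¹)`. -/
def oldHom {B : Type*} [AddCommGroup B] [NeZero q] (hM : N * q = M)
    (x y : Additive (Gamma0 N) →+ B) : Additive (Gamma1 M) →+ B :=
  (res1 x).comp (Subgroup.inclusion (gamma1_le_of_dvd ⟨q, hM.symm⟩)).toAdditive +
    (res1 y).comp (lowerConjHom hM).toAdditive

/-- A residual eigen system with trivial diamonds. -/
structure IsEigenOne (x : Additive (Gamma0 N) →+ k) (t : Γℚ → k) (S : Finset ℕ) : Prop where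
  vanish : ∀ γ : Gamma0 N, Periods.IsEllPar γ → x (Additive.ofMul γ) = 0
  hecke : ∀ l : ℕ, ∀ hl : l.Prime, l ∉ S → ∀ A : ValuationSubring Qbar, A.LiesOverPrime l →
    ∀ φ : Γℚ, A.IsFrobeniusAt φ l → haveI : NeZero l := ⟨hl.ne_zero⟩
      IsHeckeImageOne l (res1 x) ((AddMonoidHom.mulLeft (t φ)).comp (res1 x))

section Quad

variable {D : DiamondData N} {S : Finset ℕ} {t : Γℚ → k} {d : Γℚ →* k}

/-- The translates of the class of an eigen system satisfy the quadratic relations. -/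
theorem quadOn_coeffClass (H : CharClassFacts D p) (hT : HeckeFacts D)
    (hS : ∀ l : ℕ, l.Prime → l ∣ N → l ∈ S)
    (hR : ∀ l : ℕ, l.Prime → l ∉ S → ∀ A : ValuationSubring Qbar, A.LiesOverPrime l →
      ReductionFacts D A)
    (ht : ∃ L : IntermediateField ℚ Qbar, FiniteDimensional ℚ L ∧
      ∀ σ τ : Γℚ, (∀ z ∈ L, σ z = τ z) → t σ = t τ)
    (hd : ∃ L : IntermediateField ℚ Qbar, FiniteDimensional ℚ L ∧
      ∀ σ τ : Γℚ, (∀ z ∈ L, σ z = τ z) → d σ = d τ)
    (hcl : ∀ σ τ : Γℚ, t (τ⁻¹ * σ * τ) = t σ)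
    (hdl : ∀ l : ℕ, l.Prime → l ∉ S → ∀ A : ValuationSubring Qbar, A.LiesOverPrime l →
      ∀ φ : Γℚ, A.IsFrobeniusAt φ l → d φ = (l : k))
    {x : Additive (Gamma0 N) →+ k} (hx : IsEigenOne x t S) (w : k ⊗[ZMod p] UnitsModPow N p)
    (hw : ∀ π : k →ₗ[ZMod p] ZMod p,
      evCls π w = classHom H (coordHom (res1 x) (isParabolicHom_res1 hx.vanish) π)) :
    QuadOn (galK (M := N) (ℓ := p) k) t d w := by
  have : NeZero p := ⟨(Fact.out : p.Prime).ne_zero⟩
  let ι : k →+ parHom (Gamma1 N) k := AddMonoidHom.mk'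
    (fun a => ⟨(AddMonoidHom.mulLeft a).comp (res1 x), fun γ hγ => by
      simp [isParabolicHom_res1 hx.vanish γ hγ]⟩)
    fun a b => Subtype.ext (AddMonoidHom.ext fun γ => add_mul a b _)
  have hι : ∀ a γ, (ι a).1 γ = a * res1 x γ := fun _ _ => rfl
  have hsys : HeckeSystem ι (fun σ => AddMonoidHom.mulLeft (t σ))
      (fun σ => AddMonoidHom.mulLeft (d σ)) S := by
    refine ⟨hS, fun l hl hlS A hA φ hφ a γp h0 h1 g => ?_, fun l hl hlS A hA φ hφ a => ?_⟩
    · obtain ⟨s, δ, hrel, hsum⟩ := hx.hecke l hl hlS A hA φ hφ γp h0 h1 g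
      refine ⟨s, δ, hrel, ?_⟩
      have : NeZero l := ⟨hl.ne_zero⟩
      simp only [hι, AddMonoidHom.coe_mulLeft, ← Finset.mul_sum]
      rw [← show t φ * res1 x (Additive.ofMul g) = ∑ i, res1 x (Additive.ofMul (δ i)) from hsum]
      ring
    · refine ⟨a, ?_, fun γ hγ _ u v huv => ?_⟩
      · rw [AddMonoidHom.coe_mulLeft, hdl l hl hlS A hA φ hφ, nsmul_eq_mul]
      · rw [hι, hι, res1_conj x hγ u v huv]
  have hcont : ∀ f : Γℚ → k, (∃ L : IntermediateField ℚ Qbar, FiniteDimensional ℚ L ∧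
      ∀ σ τ : Γℚ, (∀ z ∈ L, σ z = τ z) → f σ = f τ) →
      ContMod p (fun σ => AddMonoidHom.mulLeft (f σ)) := fun f ⟨L, hL, h⟩ =>
    ⟨L, hL, fun σ τ hστ a => ⟨0, by simp [h σ τ hστ]⟩⟩
  -- the value at a functional
  have key : ∀ (π : k →ₗ[ZMod p] ZMod p) (a : k),
      jOf H ι π.toAddMonoidHom a = evCls π (a • w) := fun π a => by
    rw [evCls_smul, hw]
    refine jClass_eq H ?_
    exact (classUnit_spec H _).2
  intro σ τ
  have hdc : d (τ⁻¹ * σ * τ) = d σ := by
    rw [mul_assoc, map_mul, mul_comm, ← map_mul, mul_assoc, mul_inv_cancel, mul_one]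
  refine ext_evCls fun π => ?_
  have h := congrArg (galCls τ) (galois_relation hsys hT H (hcont t ht) (hcont d hd) hR
    π.toAddMonoidHom (τ⁻¹ * σ * τ) (1 : k))
  simp only [galClass_eq_galCls, AddMonoidHom.coe_mulLeft, mul_one, key, one_smul, map_add,
    ← galCls_mul, ← mul_assoc, mul_inv_cancel, one_mul, mul_inv_cancel_right, hcl, hdc] at h
  rw [map_add, map_sub, map_zero]
  simp only [← map_smul (galK (M := N) (ℓ := p) k σ), ← map_smul (galK (M := N) (ℓ := p) k τ),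
    evCls_galK, ← galCls_mul, ← mul_assoc]
  rw [sub_add_eq_add_sub, sub_eq_zero]
  exact h

end Quad

/-- **Old vectors.** -/
theorem oldHom_eq_zero [NeZero q] {A : ValuationSubring Qbar} (hA : A.LiesOverPrime q)
    (hN : LevelFacts N) (hLM : LevelFacts M) (hM : N * q = M) (hqN : ¬ q ∣ N) (hqp : q % p = 1)
    {D : DiamondData M} (H : CharClassFacts D p) {D' : DiamondData N} (H' : CharClassFacts D' p)
    (hT' : HeckeFacts D') {S : Finset ℕ} (hS : ∀ l : ℕ, l.Prime → l ∣ N → l ∈ S)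
    (hR' : ∀ l : ℕ, l.Prime → l ∉ S → ∀ B : ValuationSubring Qbar, B.LiesOverPrime l →
      ReductionFacts D' B)
    (R : ReductionFacts D' A) {φ : Γℚ} (hφ : A.IsFrobeniusAt φ q)
    {t : Γℚ → k} {d : Γℚ →* k}
    (ht : ∃ L : IntermediateField ℚ Qbar, FiniteDimensional ℚ L ∧
      ∀ σ τ : Γℚ, (∀ z ∈ L, σ z = τ z) → t σ = t τ)
    (hd : ∃ L : IntermediateField ℚ Qbar, FiniteDimensional ℚ L ∧
      ∀ σ τ : Γℚ, (∀ z ∈ L, σ z = τ z) → d σ = d τ)
    (hcl : ∀ σ τ : Γℚ, t (τ⁻¹ * σ * τ) = t σ)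
    (hdl : ∀ l : ℕ, l.Prime → l ∉ S → ∀ B : ValuationSubring Qbar, B.LiesOverPrime l →
      ∀ φ' : Γℚ, B.IsFrobeniusAt φ' l → d φ' = (l : k))
    {α β : k} (htφ : t φ = α + β) (hdφ : d φ = α * β) (hα : α ≠ 0) (hβ : β ≠ 0) (h1α : α ≠ 1)
    (h1β : β ≠ 1) (hαβ : α ≠ β)
    (hirr : ∀ χ : Γℚ →* k, ∃ σ, χ σ ^ 2 - t σ * χ σ + d σ ≠ 0)
    {x y : Additive (Gamma0 N) →+ k} (hx : IsEigenOne x t S) (hy : IsEigenOne y t S)
    (hred : ∀ (π : k →ₗ[ZMod p] ZMod p) (σ : Γℚ) (c : parHom (Gamma1 M) (ZMod p)),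
      (∀ γ, c.1 γ = π (oldHom hM x y γ)) → galClass M p σ (jClass H c) ∈ redKer hA p) :
    oldHom hM x y = 0 := by
  have : NeZero p := ⟨(Fact.out : p.Prime).ne_zero⟩
  obtain ⟨wx, hwx⟩ := exists_coeffClass H' (gamma1_fg N) (res1 x) (isParabolicHom_res1 hx.vanish)
  obtain ⟨wy, hwy⟩ := exists_coeffClass H' (gamma1_fg N) (res1 y) (isParabolicHom_res1 hy.vanish)
  have hfixed : ∀ σ, galK (M := N) (ℓ := p) k φ
      (galK k φ (galK k σ wx) + galK k σ wy) = galK k φ (galK k σ wx) + galK k σ wy := by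
    intro σ
    refine ext_evCls fun π => ?_
    simp only [evCls_galK, map_add, hwx, hwy]
    -- old units attached to the coordinate
    have hcx : ∀ γ : Gamma0 N, Periods.IsEllPar γ →
        (π.toAddMonoidHom.comp x) (Additive.ofMul γ) = 0 := fun γ hγ => by
      simp [hx.vanish γ hγ]
    have hcy : ∀ γ : Gamma0 N, Periods.IsEllPar γ →
        (π.toAddMonoidHom.comp y) (Additive.ofMul γ) = 0 := fun γ hγ => by
      simp [hy.vanish γ hγ]
    obtain ⟨X, X', X'', hX', hX'', hXfix, hXr, hXr', -⟩ :=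
      exists_old_units hN hLM hM (π.toAddMonoidHom.comp x) hcx
    obtain ⟨Y, Y', Y'', hY', hY'', hYfix, hYr, -, hYr''⟩ :=
      exists_old_units hN hLM hM (π.toAddMonoidHom.comp y) hcy
    have ex : classHom H' (coordHom (res1 x) (isParabolicHom_res1 hx.vanish) π) = powClass p X :=
      (classHom_apply H' _).trans (H'.powClass_eq (NeZero.ne p) (coordHom (res1 x)
        (isParabolicHom_res1 hx.vanish) π).2 (classUnit_spec H' _).2 (hXr _ fun _ => rfl))
    have ey : classHom H' (coordHom (res1 y) (isParabolicHom_res1 hy.vanish) π) = powClass p Y :=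
      (classHom_apply H' _).trans (H'.powClass_eq (NeZero.ne p) (coordHom (res1 y)
        (isParabolicHom_res1 hy.vanish) π).2 (classUnit_spec H' _).2 (hYr _ fun _ => rfl))
    have hXd : DvdDiv p (X : K1 N) :=
      dvdDiv_of_powClass_eq (ex.symm.trans (classHom_apply H' _)) (classUnit_spec H' _).1
    have hYd : DvdDiv p (Y : K1 N) :=
      dvdDiv_of_powClass_eq (ey.symm.trans (classHom_apply H' _)) (classUnit_spec H' _).1
    rw [ex, ey, galCls_powClass σ, galCls_powClass σ]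
    -- the reduction hypothesis
    let cx : Additive (Gamma1 M) →+ ZMod p := (π.toAddMonoidHom.comp (res1 x)).comp
      (Subgroup.inclusion (gamma1_le_of_dvd ⟨q, hM.symm⟩)).toAdditive
    let cy : Additive (Gamma1 M) →+ ZMod p :=
      (π.toAddMonoidHom.comp (res1 y)).comp (lowerConjHom hM).toAdditive
    let c : parHom (Gamma1 M) (ZMod p) := ⟨cx + cy, fun γ hγ => by
      show π (res1 x _) + π (res1 y _) = 0
      have h1 : res1 x ((Subgroup.inclusion (gamma1_le_of_dvd ⟨q, hM.symm⟩)).toAdditive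
          (Additive.ofMul γ)) = 0 :=
        isParabolicHom_res1 hx.vanish (Subgroup.inclusion (gamma1_le_of_dvd ⟨q, hM.symm⟩) γ) hγ
      have h2 : res1 y ((lowerConjHom hM).toAdditive (Additive.ofMul γ)) = 0 :=
        isParabolicHom_res1 hy.vanish (lowerConj hM γ) (by
          rw [coe_lowerConj, Matrix.trace_fin_two_of, ← hγ, Matrix.trace_fin_two])
      rw [h1, h2, map_zero, add_zero]⟩
    have h := hred π σ c fun γ => (map_add π _ _).symm
    have hr : IsRootHomOne p ((X' * Y'' : (K1 M)ˣ) : K1 M) c.1 := by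
      rw [Units.val_mul]
      exact H.mul _ _ _ _ (hXr' cx fun _ => rfl) (hYr'' cy fun _ => rfl)
    rw [jClass_eq H hr, galClass_powClass, powClass_mem_redKer, map_mul] at h
    rw [← AddMonoidHom.map_add]
    refine galCls_fixed_of_redPow hA hN hLM hM hqN Fact.out hqp (D := D) R hφ
      (Units.map (galOne N σ : K1 N →* K1 N) X) (Units.map (galOne N σ : K1 N →* K1 N) Y)
      (hXd.map_galOne σ) (hYd.map_galOne σ)
      (Units.map (galOne M σ).toRingHom.toMonoidHom X')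
      (Units.map (galOne M σ).toRingHom.toMonoidHom Y'') ?_ ?_ (fun u => ⟨?_, ?_⟩) h
    · show ((galOne M σ (X' : K1 M) : K1 M) : LaurentSeries Qbar) = (galOne N σ (X : K1 N) : K1 N)
      rw [coe_galOne, coe_galOne, hX']
    · show ((galOne M σ (Y'' : K1 M) : K1 M) : LaurentSeries Qbar) =
        qExpand Qbar q ((galOne N σ (Y : K1 N) : K1 N) : LaurentSeries Qbar)
      rw [coe_galOne, coe_galOne, hY'', coeffMap_qExpand]
    · show D.dia u (galOne M σ (X' : K1 M)) = galOne M σ (X' : K1 M)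
      rw [D.dia_galOne, (hXfix D u).1]
    · show D.dia u (galOne M σ (Y'' : K1 M)) = galOne M σ (Y'' : K1 M)
      rw [D.dia_galOne, (hYfix D u).2]
  have hd0 : ∀ σ, d σ ≠ 0 := fun σ h => by
    have := d.map_one
    rw [← mul_inv_cancel σ, map_mul, h, zero_mul] at this
    exact zero_ne_one this
  obtain ⟨h1, h2⟩ := eq_zero_of_fixed_translates htφ hdφ hα hβ h1α h1β hαβ hd0 hirr
    (quadOn_coeffClass H' hT' hS hR' ht hd hcl hdl hx wx hwx)
    (quadOn_coeffClass H' hT' hS hR' ht hd hcl hdl hy wy hwy) hfixed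
  have hzero : ∀ (c : Additive (Gamma1 N) →+ k) (hc : Period.IsParabolicHom (Gamma1 N) c)
      (w : k ⊗[ZMod p] UnitsModPow N p),
      (∀ π : k →ₗ[ZMod p] ZMod p, evCls π w = classHom H' (coordHom c hc π)) → w = 0 → c = 0 := by
    intro c hc w hw h0
    refine AddMonoidHom.ext fun z => (Module.forall_dual_apply_eq_zero_iff (ZMod p) (c z)).1 fun π => ?_
    have h := hw π
    rw [h0, map_zero] at h
    exact DFunLike.congr_fun (congrArg Subtype.val
      (classHom_injective H' (h.symm.trans (map_zero _).symm))) z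
  rw [oldHom, hzero _ _ wx hwx h1, hzero _ _ wy hwy h2, AddMonoidHom.zero_comp,
    AddMonoidHom.zero_comp, add_zero]

end FLTAgent.RT.Compat
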