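import Fermat.Agent.RT.Compat.LevelMaps
import Fermat.Agent.DS.ModRep.Frobenius

/-!
# A product `x (τ) y (q τ)` reducing to a `p`-th power

If the functions `x`, `y` of level `N` have orders divisible by `p`, the two old functions of level
`M = N q` are fixed by the diamonds and their product reduces at `q` to a `p`-th power, then
`φ x + y` is fixed by `φ` in classes at level `N`.
-/

set_option autoImplicit false
set_option linter.unusedSectionVars false
set_option linter.style.haveILetI false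

noncomputable section

open ModularCurve IsLocalRing FLTAgent.GoodRed FLTAgent.Semistable FLTAgent.DS

namespace FLTAgent.RT.Compat

local notation "Qbar" => AlgebraicClosure ℚ
local notation "Γℚ" => AlgebraicClosure ℚ ≃ₐ[ℚ] AlgebraicClosure ℚ

variable {N M : ℕ} [NeZero N] [NeZero M] {q : ℕ} [Fact q.Prime]
  {A : ValuationSubring (AlgebraicClosure ℚ)}

theorem exists_scalar_of_red {u : LaurentSeries Qbar} {a b : Qbar} (ha : a ≠ 0) (hb : b ≠ 0)
    (hu : u ≠ 0) {z z' : LaurentSeries (ResidueField A)} (hz : z ≠ 0) (hz' : z' ≠ 0)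
    (h : SRed (residue A) (a • u) z) (h' : SRed (residue A) (b • u) z') :
    ∃ s : ResidueField A, z' = algebraMap _ _ s * z := by
  have hab : ∀ {a b : Qbar} {z z' : LaurentSeries (ResidueField A)}, a ≠ 0 → z ≠ 0 →
      SRed (residue A) (a • u) z → SRed (residue A) (b • u) z' →
        SRed (residue A) (algebraMap Qbar (LaurentSeries Qbar) (b / a)) (z' / z) := by
    intro a b z z' ha hz h h'
    have h1 := h'.div h hz
    rwa [smul_series, smul_series, mul_div_mul_right _ _ hu, ← map_div₀] at h1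
  by_cases hA : b / a ∈ A
  · refine ⟨residue A ⟨_, hA⟩, ?_⟩
    rw [← (hab ha hz h h').unique (sRed_algebraMap ⟨_, hA⟩), div_mul_cancel₀ _ hz]
  · have hn : a / b ∈ A.nonunits := by
      rw [← inv_div, ValuationSubring.inv_mem_nonunits_iff]; exact Or.inr hA
    have h1 := (hab hb hz' h' h).unique (sRed_algebraMap ⟨_, A.nonunits_subset hn⟩)
    rw [((isResidueMap_residue A).eq_zero_iff _).2 hn, map_zero] at h1
    exact absurd h1 (div_ne_zero hz hz')

theorem coe_const_mul (c : Qbar) (x : K1 M) :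
    ((algebraMap Qbar (K1 M) c * x : K1 M) : LaurentSeries Qbar) =
      c • (x : LaurentSeries Qbar) := by
  rw [smul_series]; rfl

theorem coe_galOne_smul (φ : Γℚ) (c : Qbar) (x : K1 M) :
    coeffMap (φ : Qbar →+* Qbar) (c • (x : LaurentSeries Qbar)) =
      φ c • ((galOne M φ x : K1 M) : LaurentSeries Qbar) := by
  rw [coe_galOne]; exact coeffMap_smul_series _ c _

set_option maxHeartbeats 800000 in
/-- **The old product.** -/
theorem galCls_fixed_of_redPow (hA : A.LiesOverPrime q) (hN : LevelFacts N) (hLM : LevelFacts M)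
    (hM : N * q = M) (hqN : ¬ q ∣ N) {p : ℕ} (hp : p.Prime) (hqp : q % p = 1)
    {D : DiamondData M} {D' : DiamondData N} (R : ReductionFacts D' A) {φ : Γℚ}
    (hφ : A.IsFrobeniusAt φ q) (x y : (K1 N)ˣ) (hx : DvdDiv p (x : K1 N))
    (hy : DvdDiv p (y : K1 N)) (x' y'' : (K1 M)ˣ)
    (hx' : ((x' : K1 M) : LaurentSeries Qbar) = ((x : K1 N) : LaurentSeries Qbar))
    (hy'' : haveI : NeZero q := ⟨(Fact.out : q.Prime).ne_zero⟩
      ((y'' : K1 M) : LaurentSeries Qbar) = qExpand Qbar q ((y : K1 N) : LaurentSeries Qbar))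
    (hfix : ∀ u, D.dia u (x' : K1 M) = x' ∧ D.dia u (y'' : K1 M) = y'')
    (hred : RedPow A p ((x' * y'' : (K1 M)ˣ) : K1 M)) :
    galCls φ (galCls φ (powClass p x) + powClass p y) =
      galCls φ (powClass p x) + powClass p y := by
  haveI : NeZero q := ⟨(Fact.out : q.Prime).ne_zero⟩
  haveI : CharP (ResidueField A) q := WeilPairing.charP_residueField Fact.out hA
  haveI := GoodRed.isAlgClosed_residue A
  have hp0 : p ≠ 0 := hp.ne_zero
  have hd := (Frobenius.isFrobeniusAt_iff.1 hφ).1
  set F := coeffMap (resAut hd).toRingHom with hF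
  have hFinj : ∀ {z}, z ≠ 0 → F z ≠ 0 := fun hz => (map_ne_zero F).2 hz
  have hFr : (resAut hd).toRingHom = frobenius (ResidueField A) q := RingHom.ext fun t => by
    obtain ⟨a, rfl⟩ := residue_surjective t
    show resAut hd (residue A a) = (residue A a) ^ q
    rw [← residue_resAut, ← map_pow, ← sub_eq_zero, ← map_sub,
      (isResidueMap_residue A).eq_zero_iff]
    exact (Frobenius.isFrobeniusAt_iff.1 hφ).2 _ a.2
  have hpow : ∀ z, qExpand (ResidueField A) q (F z) = z ^ q := fun z => by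
    rw [hF, hFr]; exact qExpand_coeffMap_frobenius q z
  obtain ⟨cx, zx, hcx, hzx, hzxR, hX⟩ := exists_scale_K1 hA x.ne_zero
  obtain ⟨cy, zy, hcy, hzy, hzyR, hY⟩ := exists_scale_K1 hA y.ne_zero
  -- the product at level `M`
  set f₀ : K1 M := (x' : K1 M) * (y'' : K1 M) with hf₀def
  have hf₀ : SRed (residue A) ((cx * cy) • (f₀ : LaurentSeries Qbar))
      (zx * qExpand (ResidueField A) q zy) := by
    have h1 := hX.mul (hY.qExpand q)
    rw [smul_series, smul_series, map_mul (qExpand Qbar q),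
      algebraMap_laurentSeries_eq_single Qbar cy, qExpand_single, mul_zero,
      ← algebraMap_laurentSeries_eq_single, mul_mul_mul_comm, ← map_mul, ← hx', ← hy''] at h1
    rw [smul_series]
    exact h1
  set f₁ : K1 M := galOne M φ f₀ with hf₁def
  have hfix₁ : ∀ u, D.dia u f₁ = f₁ := fun u => by
    rw [hf₁def, D.dia_galOne, hf₀def, map_mul, (hfix u).1, (hfix u).2]
  have hred₁ : RedPow A p f₁ := by
    have := hred.galOne hd
    rwa [Units.val_mul] at this
  have hf₁ : SRed (residue A) ((φ (cx * cy)) • (f₁ : LaurentSeries Qbar)) (F zx * zy ^ q) := by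
    have h1 := sRed_galois hd hf₀
    rwa [coe_galOne_smul, ← hF, map_mul F, hF, coeffMap_qExpand, ← hF, hpow] at h1
  have hf₁0 : (f₁ : LaurentSeries Qbar) ≠ 0 := fun e => by
    have : f₁ = 0 := Subtype.ext e
    exact mul_ne_zero x'.ne_zero y''.ne_zero ((map_eq_zero_iff _ (galOne M φ).injective).1 this)
  obtain ⟨c, e, hc, he0, heF, hce⟩ := fixRed_frobenius_quotient D hA hp hqp hφ hfix₁ hred₁
  have hw₀ : F zx * zy ^ q ≠ 0 := mul_ne_zero (hFinj hzx) (pow_ne_zero _ hzy)
  -- compare the two scalings of `φ f₁ / f₁`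
  set Qf : K1 M := galOne M φ f₁ / f₁ with hQfdef
  have hQ1 : SRed (residue A) ((φ (φ (cx * cy)) / φ (cx * cy)) • (Qf : LaurentSeries Qbar))
      (F (F zx * zy ^ q) / (F zx * zy ^ q)) := by
    have h1 := sRed_galois hd hf₁
    rw [coe_galOne_smul] at h1
    have h2 := h1.div hf₁ hw₀
    rw [smul_series, smul_series, mul_div_mul_comm, ← map_div₀] at h2
    rw [smul_series, hQfdef]
    exact h2
  have hQ2 : SRed (residue A) (c • (Qf : LaurentSeries Qbar)) (e ^ p) := by
    have := hce
    rw [RedTo, coe_const_mul] at this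
    exact this
  have hQ0 : (Qf : LaurentSeries Qbar) ≠ 0 := fun h => by
    rw [hQfdef, IntermediateField.coe_div, div_eq_zero_iff] at h
    rcases h with h | h
    · exact hf₁0 (congrArg Subtype.val
        ((map_eq_zero_iff _ (galOne M φ).injective).1 (Subtype.ext h : galOne M φ f₁ = 0)))
    · exact hf₁0 h
  obtain ⟨s, hs⟩ := exists_scalar_of_red (b := φ (φ (cx * cy)) / φ (cx * cy)) hc
    (div_ne_zero ((map_ne_zero φ).2 ((map_ne_zero φ).2 (mul_ne_zero hcx hcy)))
      ((map_ne_zero φ).2 (mul_ne_zero hcx hcy))) hQ0 (pow_ne_zero p he0)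
    (div_ne_zero (hFinj hw₀) hw₀) hQ2 hQ1
  obtain ⟨t, ht⟩ := IsAlgClosed.exists_pow_nat_eq s hp.pos
  -- at level `N`
  set P := zy ^ (q / p) with hP
  have hPq : zy ^ q = zy * P ^ p := by
    rw [hP, ← pow_mul, ← pow_succ']
    congr 1
    conv_lhs => rw [← Nat.div_add_mod' q p, hqp]
  set w := F zx * zy with hw
  have hw0 : w ≠ 0 := mul_ne_zero (hFinj hzx) hzy
  have hP0 : P ≠ 0 := pow_ne_zero _ hzy
  set v := algebraMap (ResidueField A) (LaurentSeries (ResidueField A)) t * e * (P / F P) with hv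
  have hvp : F w / w = v ^ p := by
    have h1 : F (F zx * zy ^ q) / (F zx * zy ^ q) = F w / w * (F P / P) ^ p := by
      rw [hPq, ← mul_assoc, ← hw, map_mul, map_pow, mul_div_mul_comm, div_pow]
    rw [h1, ← ht] at hs
    have hFP : F P / P ≠ 0 := div_ne_zero (hFinj hP0) hP0
    calc F w / w = F w / w * (F P / P) ^ p / (F P / P) ^ p :=
          (mul_div_cancel_right₀ _ (pow_ne_zero p hFP)).symm
      _ = v ^ p := by
          rw [hs, hv, mul_pow, mul_pow, map_pow, ← inv_div (F P) P, inv_pow, div_eq_mul_inv]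
  have hv0 : v ≠ 0 := fun h => by
    rw [h, zero_pow hp0] at hvp
    exact div_ne_zero (hFinj hw0) hw0 hvp
  have hvR : v ∈ resField N A := by
    refine mul_mem (mul_mem (IntermediateField.algebraMap_mem _ t)
      (mem_resField_of_fixRed hN hLM hA hqN hM heF)) ?_
    rw [hP]
    exact div_mem (pow_mem hzyR _) (coeffMap_mem_resField hd (pow_mem hzyR _))
  obtain ⟨V, hV, hVv⟩ := mem_resField.1 hvR
  have hV0 : (⟨V, hV⟩ : K1 N) ≠ 0 := fun h => hv0 (by
    have h2 : V = 0 := congrArg Subtype.val h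
    rw [h2] at hVv
    exact hVv.unique sRed_zero)
  set g : (K1 N)ˣ := Units.map (galOne N φ : K1 N →* K1 N) x * y with hgdef
  have hg : SRed (residue A) ((φ cx * cy) • ((g : K1 N) : LaurentSeries Qbar)) w := by
    have h1 := sRed_galois hd hX
    rw [coe_galOne_smul] at h1
    have h2 := h1.mul hY
    rw [smul_series, smul_series, mul_mul_mul_comm, ← map_mul] at h2
    rw [smul_series]
    exact h2
  have hgd : DvdDiv p (g : K1 N) :=
    (hx.map_galOne φ).mul hy ((map_ne_zero _).2 x.ne_zero) y.ne_zero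
  set κ : Qbarˣ := Units.mk0 (φ (φ cx * cy) / (φ cx * cy))
    (div_ne_zero ((map_ne_zero φ).2 (mul_ne_zero ((map_ne_zero φ).2 hcx) hcy))
      (mul_ne_zero ((map_ne_zero φ).2 hcx) hcy))
  set Z : (K1 N)ˣ := Units.map (galOne N φ : K1 N →* K1 N) g * g⁻¹
  set W : (K1 N)ˣ := constUnit N κ * Z * (Units.mk0 _ hV0 ^ p)⁻¹
  have hW : RedOne A (W : K1 N) 1 := by
    have h1 := sRed_galois hd hg
    rw [coe_galOne_smul] at h1
    have h2 := (h1.div hg hw0).div (hVv.pow p) (pow_ne_zero p hv0)
    rw [← hF, hvp, div_self (pow_ne_zero p hv0), smul_series, smul_series, mul_div_mul_comm,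
      ← map_div₀] at h2
    show SRed (residue A) _ 1
    convert h2 using 1
    simp only [W, Z, Units.val_mul, Units.val_inv_eq_inv_val, Units.val_pow_eq_pow_val,
      IntermediateField.coe_mul, IntermediateField.coe_inv, SubmonoidClass.coe_pow, coe_constUnit,
      Units.val_mk0, Units.coe_map, MonoidHom.coe_coe, div_eq_mul_inv]
    rw [HahnSeries.C_apply, ← algebraMap_laurentSeries_eq_single]
    rfl
  have hZd : DvdDiv p (Z : K1 N) := by
    simp only [Z, Units.val_mul, Units.val_inv_eq_inv_val]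
    exact (hgd.map_galOne φ).mul hgd.inv ((map_ne_zero _).2 g.ne_zero) (inv_ne_zero g.ne_zero)
  have hWd : DvdDiv p (W : K1 N) := by
    simp only [W, Units.val_mul, Units.val_inv_eq_inv_val, Units.val_pow_eq_pow_val]
    exact (dvdDiv_constUnit_mul hZd κ).mul (DS.dvdDiv_pow_self _).inv
      (mul_ne_zero (Units.ne_zero _) Z.ne_zero) (inv_ne_zero (pow_ne_zero p (Units.ne_zero _)))
  have hpA : (p : ResidueField A) ≠ 0 := GalRep.residue_natCast_ne_zero hA
    ((Nat.coprime_primes hp (Fact.out : q.Prime)).2 fun h => by subst h; simp at hqp)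
  obtain ⟨u, hu⟩ := R.torsion p hpA _ W.ne_zero hWd hW
  have hcls := powClass_eq_zero_of_pow hp0 hu
  simp only [W, Z, g] at hcls
  rw [DS.powClass_mul, powClass_constUnit_mul hp0, DS.powClass_inv, DS.powClass_pow,
    DS.nsmul_eq_zero', neg_zero, add_zero, DS.powClass_mul, DS.powClass_inv, ← galCls_powClass,
    DS.powClass_mul, ← galCls_powClass] at hcls
  exact add_neg_eq_zero.1 hcls

end FLTAgent.RT.Compat
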