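import Fermat.Agent.RT.Coh.NonEisRes
import Fermat.Agent.RT.Cond.Basic
import Fermat.Agent.RT.Patch.Module
import Fermat.Agent.CommAlg.RtoT
import Fermat.Agent.GalRep.Span
import Fermat.Prelude.Def_GaloisRep_DeformationRingData

/-!
# The residual representation and reductions of operators

An absolutely irreducible two-dimensional representation has no character among its eigenvalues;
reductions of operators on a finite module.
-/

set_option autoImplicit false
set_option linter.unusedSectionVars false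

noncomputable section

open IsLocalRing FLTAgent.Deformation FLTAgent.RTIrr
open scoped TensorProduct

namespace FLTAgent.RT.Compat

local notation "Γℚ" => AlgebraicClosure ℚ ≃ₐ[ℚ] AlgebraicClosure ℚ

/-- No character takes its values among the eigenvalues of an absolutely irreducible
representation. -/
theorem exists_charpoly_ne_zero {k : Type} [Field k] (ρbar : ResidualGaloisRep k)
    (habs : ρbar.IsAbsolutelyIrreducible) (h2 : (2 : k) ≠ 0) (χ : Γℚ →* k) :
    ∃ σ, χ σ ^ 2 - LinearMap.trace k ρbar.V (ρbar.ρ σ) * χ σ + LinearMap.det (ρbar.ρ σ) ≠ 0 := by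
  classical
  by_contra hc
  push Not at hc
  set K := AlgebraicClosure k
  set g : k →+* K := algebraMap k K
  set b := Module.finBasisOfFinrankEq k ρbar.V ρbar.finrank_eq
  set B : Module.Basis (Fin 2) K (ρbar.baseChange K).V := Algebra.TensorProduct.basis K b
  set r := repMatrix (ρbar.baseChange K).ρ B
  have e : ∀ σ, r σ = (repMatrix ρbar.ρ b σ).map g := fun σ =>
    LinearMap.toMatrix_baseChange K (ρbar.ρ σ) b b
  have htr : ∀ σ, (r σ).trace = g (LinearMap.trace k ρbar.V (ρbar.ρ σ)) := fun σ => by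
    rw [e, ← AddMonoidHom.map_trace, repMatrix_apply, ← LinearMap.trace_eq_matrix_trace]
  have hdet : ∀ σ, (r σ).det = g (LinearMap.det (ρbar.ρ σ)) := fun σ => by
    rw [e, ← RingHom.mapMatrix_apply, ← RingHom.map_det, repMatrix_apply, LinearMap.det_toMatrix]
  have hne : ∀ σ, χ σ ≠ 0 := fun σ h => one_ne_zero (α := k) (by
    rw [← χ.map_one, ← mul_inv_cancel σ, map_mul, h, zero_mul])
  let r' : Γℚ →* Matrix (Fin 2) (Fin 2) K :=
    { toFun := fun σ => (g (χ σ))⁻¹ • r σ
      map_one' := by simp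
      map_mul' := fun σ τ => by
        rw [map_mul, map_mul, map_mul, mul_inv, smul_mul_smul_comm] }
  have htd : ∀ σ, (r' σ).trace = 1 + (r' σ).det := fun σ => by
    show ((g (χ σ))⁻¹ • r σ).trace = 1 + ((g (χ σ))⁻¹ • r σ).det
    rw [Matrix.trace_smul, Matrix.det_smul, Fintype.card_fin, htr, hdet, smul_eq_mul, inv_pow]
    have h := congrArg g (hc σ)
    simp only [map_add, map_sub, map_mul, map_pow, map_zero] at h
    set c := g (χ σ) with hc0
    have h0 : c * c⁻¹ = 1 := mul_inv_cancel₀ ((map_ne_zero g).mpr (hne σ))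
    linear_combination (-(c⁻¹ * c⁻¹)) * h + (1 + c * c⁻¹ - c⁻¹ * g (LinearMap.trace k ρbar.V (ρbar.ρ σ))) * h0
  have h2K : (2 : K) ≠ 0 := fun h => h2 (g.injective (by rw [map_ofNat, h, map_zero]))
  refine false_of_trace_two r' {σ | (r' σ).det = 1} ?_ ?_ ?_ h2K ?_ ?_
  · intro a ha c hc'
    show (r' (a * c)).det = 1
    rw [map_mul, Matrix.det_mul, ha, hc', one_mul]
  · intro a c hc'
    show (r' (a * c * a⁻¹)).det = 1
    rw [map_mul, map_mul, Matrix.det_mul, Matrix.det_mul, hc', mul_one, ← Matrix.det_mul,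
      ← map_mul, mul_inv_cancel, map_one, Matrix.det_one]
  · intro a c
    show (r' (a * c * a⁻¹ * c⁻¹)).det = 1
    have h := fun x y : Γℚ => (congrArg Matrix.det (map_mul r' x y)).trans (Matrix.det_mul _ _)
    rw [h, h, h, mul_right_comm (r' a).det, ← h a a⁻¹, mul_inv_cancel, map_one, Matrix.det_one,
      one_mul, ← h, mul_inv_cancel, map_one, Matrix.det_one]
  · intro σ hσ
    rw [htd, show (r' σ).det = 1 from hσ]; norm_num
  · rintro ⟨v, hv, hst⟩
    refine not_hasStableLine_of_irreducible _ habs B ⟨v, hv, fun σ hσ => ?_⟩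
    obtain ⟨c, hc'⟩ := hst σ hσ
    refine ⟨g (χ σ) * c, ?_⟩
    have h0 : g (χ σ) ≠ 0 := (map_ne_zero g).mpr (hne σ)
    change ((g (χ σ))⁻¹ • r σ).mulVec v = c • v at hc'
    rw [Matrix.smul_mulVec, inv_smul_eq_iff₀ h0] at hc'
    rw [mul_smul, ← hc']

variable {O : Type} [CommRing O] [IsDomain O] [IsDiscreteValuationRing O]
  [IsAdicComplete (maximalIdeal O) O] {ρbar : ResidualGaloisRep (ResidueField O)}
  {𝒟 : ∀ ⦃A : Type⦄ [CommRing A] [IsLocalRing A] [Algebra O A], GaloisRepAdic A → Prop}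

/-- The residual trace of the universal deformation. -/
theorem residue_trace (Dat : GaloisRep.DeformationRingData O ρbar 𝒟) (σ : Γℚ) :
    residue Dat.R (Dat.ρ.trace σ) = ResidueField.map (algebraMap O Dat.R)
      (LinearMap.trace (ResidueField O) ρbar.V (ρbar.ρ σ)) := by
  obtain ⟨e⟩ := Dat.residual_isEquiv
  set f := ResidueField.map (algebraMap O Dat.R)
  have h1 : LinearMap.trace (ResidueField Dat.R) Dat.ρ.residual.V (Dat.ρ.residual.ρ σ) =
      residue Dat.R (Dat.ρ.trace σ) :=
    LinearMap.trace_baseChange (Dat.ρ.ρ σ) (ResidueField Dat.R)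
  have h2 : LinearMap.trace (ResidueField Dat.R) (ρbar.baseChangeAlong f).V
      ((ρbar.baseChangeAlong f).ρ σ) =
        f (LinearMap.trace (ResidueField O) ρbar.V (ρbar.ρ σ)) :=
    letI := f.toAlgebra
    LinearMap.trace_baseChange (ρbar.ρ σ) (ResidueField Dat.R)
  rw [← h1, ← h2, show (ρbar.baseChangeAlong f).ρ σ =
    e.toLinearEquiv.conj (Dat.ρ.residual.ρ σ) from LinearMap.ext fun x => by
      rw [LinearEquiv.conj_apply_apply, e.map_apply, LinearEquiv.apply_symm_apply],
    LinearMap.trace_conj']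

omit [IsDomain O] [IsDiscreteValuationRing O] [IsAdicComplete (maximalIdeal O) O] in
/-- The trace is a class function. -/
theorem trace_conjugate {k : Type*} [CommRing k] {V : Type*} [AddCommGroup V] [Module k V]
    (r : Γℚ →* Module.End k V) (σ τ : Γℚ) :
    LinearMap.trace k V (r (τ⁻¹ * σ * τ)) = LinearMap.trace k V (r σ) := by
  rw [map_mul, LinearMap.trace_mul_comm, ← map_mul, ← mul_assoc, mul_inv_cancel, one_mul]

/-- A determinant which is `ℓ` at almost all Frobenius elements is cyclotomic. -/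
theorem det_eq_cyclo {p : ℕ} [Fact p.Prime] (hp : (p : O) ∈ maximalIdeal O) (ψp : ℤ_[p] →+* O)
    (S₁ : Finset ℕ)
    (hdet : ∀ l : ℕ, l.Prime → l ∉ S₁ → ∀ B : ValuationSubring (AlgebraicClosure ℚ),
      B.LiesOverPrime l → ∀ φ : Γℚ, B.IsFrobeniusAt φ l →
        LinearMap.det (ρbar.ρ φ) = (l : ResidueField O)) (σ : Γℚ) :
    LinearMap.det (ρbar.ρ σ) = residue O (ψp (GalRep.cyclo p σ : ℤ_[p])) := by
  obtain ⟨L₁, hL₁, h₁⟩ := ρbar.factorsThroughFiniteLevel
  obtain ⟨L₂, hL₂, h₂⟩ := GalRep.cyclo_continuous p 1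
  obtain ⟨l, hl, hlS, B, hB, φ, hφ, hag⟩ :=
    GalRep.frobeniusDense (L₁ ⊔ L₂) inferInstance σ (S₁ ∪ {p})
  rw [Finset.notMem_union, Finset.notMem_singleton] at hlS
  obtain ⟨hfix, -⟩ := GalRep.fixing_of_agree hag
  have e1 : ρbar.ρ φ = ρbar.ρ σ := by
    rw [show φ = σ * (σ⁻¹ * φ) by group, map_mul,
      h₁ _ fun x hx => hfix x (le_sup_left (b := L₂) hx), mul_one]
  have hmod : (GalRep.cyclo p φ : ℤ_[p]).toZModPow 1 = (GalRep.cyclo p σ : ℤ_[p]).toZModPow 1 := by
    rw [show φ = σ * (σ⁻¹ * φ) by group, map_mul, Units.val_mul, map_mul,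
      h₂ _ fun x hx => hfix x (le_sup_right (a := L₁) hx), mul_one]
  have hres : ∀ (x : ℤ_[p]) (a : ℕ), x.toZModPow 1 = (a : ZMod (p ^ 1)) →
      residue O (ψp x) = (a : ResidueField O) := fun x a hx => by
    have h := RTCond.algebraMap_padic_sub_natCast_mem (A := O) ψp hx
    rw [pow_one, Algebra.algebraMap_self, RingHom.id_apply] at h
    rw [← map_natCast (residue O), ← sub_eq_zero, ← map_sub, residue_eq_zero_iff]
    exact (Ideal.span_singleton_le_iff_mem _).mpr hp h
  rw [← e1, hdet l hl hlS.1 B hB φ hφ, eq_comm]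
  refine hres _ l ?_
  rw [← hmod, GalRep.cyclo_frobenius hl hlS.2 hB hφ, map_natCast]

section Red

variable {P : Type*} [AddCommGroup P] [Module O P]

omit [IsDomain O] [IsDiscreteValuationRing O] [IsAdicComplete (maximalIdeal O) O] in
theorem smul_top_le_comap (I : Ideal O) (g : Module.End O P) :
    I • (⊤ : Submodule O P) ≤ (I • (⊤ : Submodule O P)).comap g := by
  rw [← Submodule.map_le_iff_le_comap, Submodule.map_smul'']
  exact Submodule.smul_mono le_rfl le_top

/-- The reduction of operators modulo an ideal. -/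
def redEnd (I : Ideal O) :
    Module.End O P →+* Module.End O (P ⧸ I • (⊤ : Submodule O P)) where
  toFun g := (I • (⊤ : Submodule O P)).mapQ _ g (smul_top_le_comap I g)
  map_one' := by ext; rfl
  map_mul' a b := by ext; rfl
  map_zero' := by ext; simp
  map_add' a b := by ext; simp

omit [IsDomain O] [IsDiscreteValuationRing O] [IsAdicComplete (maximalIdeal O) O] in
theorem redEnd_eq_zero_iff {I : Ideal O} {g : Module.End O P} :
    redEnd I g = 0 ↔ ∀ v, g v ∈ I • (⊤ : Submodule O P) := by
  refine ⟨fun h v => ?_, fun h => ?_⟩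
  · exact (Submodule.Quotient.mk_eq_zero _).mp
      (LinearMap.congr_fun h (Submodule.Quotient.mk v))
  · exact Submodule.linearMap_qext _
      (LinearMap.ext fun v => (Submodule.Quotient.mk_eq_zero _).mpr (h v))

omit [IsDomain O] [IsDiscreteValuationRing O] [IsAdicComplete (maximalIdeal O) O] in
/-- An algebra map from a complete local ring is continuous modulo an ideal of finite index. -/
theorem exists_pow_redEnd [Module.Finite O P] {I : Ideal O} [Finite (O ⧸ I)] {R : Type}
    [CommRing R] [IsLocalRing R] [IsNoetherianRing R] [Algebra O R]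
    (φ : R →ₐ[O] Module.End O P) :
    ∃ j, ∀ y ∈ maximalIdeal R ^ j, ∀ v, φ y v ∈ I • (⊤ : Submodule O P) := by
  have : Finite (P ⧸ I • (⊤ : Submodule O P)) := by
    have : Module.Finite (O ⧸ I) (P ⧸ I • (⊤ : Submodule O P)) :=
      Module.Finite.of_restrictScalars_finite O _ _
    exact Module.finite_of_finite (O ⧸ I)
  have : Finite (Module.End O (P ⧸ I • (⊤ : Submodule O P))) :=
    Finite.of_injective _ DFunLike.coe_injective
  obtain ⟨j, hj⟩ := Patch.exists_pow_le_ker ((redEnd I).comp (φ : R →+* Module.End O P))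
  exact ⟨j, fun y hy => redEnd_eq_zero_iff.mp (hj hy)⟩

omit [IsDomain O] [IsDiscreteValuationRing O] [IsAdicComplete (maximalIdeal O) O] in
/-- An element of `p`-power order minus one is nilpotent modulo an ideal containing `p`. -/
theorem exists_sub_one_pow_mem {p : ℕ} [Fact p.Prime] {I : Ideal O} (hp : (p : O) ∈ I)
    {g : Module.End O P} {k : ℕ} (hg : g ^ p ^ k = 1) :
    ∀ v, ((g - 1) ^ p ^ k) v ∈ I • (⊤ : Submodule O P) := by
  have hp0 : (p : Module.End O (P ⧸ I • (⊤ : Submodule O P))) = 0 := by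
    rw [← map_natCast (redEnd I), redEnd_eq_zero_iff]
    intro v
    rw [Module.End.natCast_apply, ← Nat.cast_smul_eq_nsmul O]
    exact Submodule.smul_mem_smul hp Submodule.mem_top
  refine redEnd_eq_zero_iff.mp ?_
  obtain ⟨r, hr⟩ := (Commute.one_right (redEnd I (g - 1))).exists_add_pow_prime_pow_eq
    (Fact.out : p.Prime) k
  rw [hp0] at hr
  simp only [zero_mul, add_zero, one_pow] at hr
  rw [← map_one (redEnd I), ← map_add, sub_add_cancel, ← map_pow, hg, ← map_pow, ← map_add] at hr
  have h := hr.symm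
  rwa [map_add, map_one, add_eq_right] at h

end Red

end FLTAgent.RT.Compat
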