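import Fermat.Agent.RT.Compat.Transfer
import Fermat.Agent.RT.Compat.Galois
import Fermat.Agent.RT.Compat.Residual
import Fermat.Agent.RT.Sys.Act
import Fermat.Agent.DS.ModRep.CycloN

/-!
# The Hecke system of a part with diamonds

On the part of `gammaH N χ`, restricted to `Γ₁(K)`, the classical operators are the traces of the
universal deformation twisted by the square root of the cyclotomic diamond.
-/

set_option autoImplicit false
set_option linter.unusedSectionVars false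
set_option linter.style.haveILetI false

noncomputable section

open IsLocalRing CongruenceSubgroup ModularCurve
open scoped MatrixGroups

namespace FLTAgent.RT.Compat

open FLTAgent.LevelRaise

local notation "Qbar" => AlgebraicClosure ℚ
local notation "Γℚ" => AlgebraicClosure ℚ ≃ₐ[ℚ] AlgebraicClosure ℚ

variable {O : Type} [CommRing O] [IsDomain O] [IsDiscreteValuationRing O]
  [IsAdicComplete (maximalIdeal O) O] [Finite (ResidueField O)] [CharZero O]
  {ρbar : ResidualGaloisRep (ResidueField O)}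
  {𝒟 : ∀ ⦃A : Type⦄ [CommRing A] [IsLocalRing A] [Algebra O A], GaloisRepAdic A → Prop}
  {Dat : GaloisRep.DeformationRingData O ρbar 𝒟}
  {M N : ℕ} [NeZero M] [NeZero N] {D : Type} [CommGroup D] [Fintype D] {χ : (ZMod M)ˣ →* D}
  [Fact (Odd (Nat.card D))] {J : Type} {l : J → ℕ} {hl : ∀ j, (l j).Prime} {a : J → O}
  {hMN : M ∣ N} {hχ : Function.Surjective χ} {d : ℕ} {p : ℕ} [Fact p.Prime]

variable (hMN hl) in
/-- Restriction of the part to `Γ₁(K)`. -/
def resPar (hne : NonEis l a) {K : ℕ} (hK : N ∣ K) :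
    cohPart χ hMN hl a →+ parHom (Gamma1 K) O :=
  AddMonoidHom.mk' (fun v => ⟨(v : Coh N χ O).comp
      (Subgroup.inclusion (gamma1_le_gammaH hMN hK)).toAdditive, fun γ hγ => by
    have := isAddTorsionFree_of_charZero (O := O)
    exact apply_eq_zero_of_mem_cohPart hMN hl hne v.2
      (γ := Subgroup.inclusion (gamma1_le_gammaH hMN hK) γ) (le_of_eq hγ)⟩)
    fun _ _ => rfl

theorem resPar_apply (hne : NonEis l a) {K : ℕ} (hK : N ∣ K) (v : cohPart χ hMN hl a)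
    (γ : Gamma1 K) : (resPar hl hMN hne hK v).1 (Additive.ofMul γ) =
      (v : Coh N χ O) (Additive.ofMul ⟨(γ : SL(2, ℤ)), gamma1_le_gammaH hMN hK γ.2⟩) := rfl

variable (B : Sys.DBasis hMN hχ (cohPart χ hMN hl a) d)
  (φ : Dat.R →ₐ[O] Module.End O (cohPart χ hMN hl a)) (ψp : ℤ_[p] →+* O)

/-- The classical `T` at a Galois element. -/
def tOp (σ : Γℚ) : cohPart χ hMN hl a →+ cohPart χ hMN hl a :=
  (φ (Dat.ρ.trace σ) * B.dia (sqrtD D (χ (DS.cycloN M σ)))).toAddMonoidHom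

/-- `l` times the diamond at a Galois element. -/
def dOp (σ : Γℚ) : cohPart χ hMN hl a →+ cohPart χ hMN hl a :=
  (ψp (GalRep.cyclo p σ : ℤ_[p]) • B.dia (χ (DS.cycloN M σ))).toAddMonoidHom

theorem tOp_apply (σ : Γℚ) (v : cohPart χ hMN hl a) :
    tOp B φ σ v = φ (Dat.ρ.trace σ) (B.dia (sqrtD D (χ (DS.cycloN M σ))) v) := rfl

theorem dOp_apply (σ : Γℚ) (v : cohPart χ hMN hl a) :
    dOp B ψp σ v = ψp (GalRep.cyclo p σ : ℤ_[p]) • B.dia (χ (DS.cycloN M σ)) v := rfl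

/-- **The Hecke system.** -/
theorem heckeSystem_cohPart (hne : NonEis l a) {S₁ S : Finset ℕ}
    (hcompat : Sys.IsFrobCompat Dat S₁ φ) {K : ℕ} [NeZero K] (hK : N ∣ K)
    (hS : ∀ r : ℕ, r.Prime → r ∣ K → r ∈ S) (hS₁ : S₁ ⊆ S) (hpS : p ∈ S) :
    HeckeSystem (resPar hl hMN hne hK) (tOp B φ) (dOp B ψp) S := by
  refine ⟨hS, fun r hr hrS A hA F hF v γp h0 h1 g => ?_, fun r hr hrS A hA F hF v => ?_⟩
  · have : NeZero r := ⟨hr.ne_zero⟩
    have hrK : ¬ r ∣ K := fun h => hrS (hS r hr h)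
    have hrM : r.Coprime M := hr.coprime_iff_not_dvd.2 fun h => hrK (h.trans (hMN.trans hK))
    have hu : DS.cycloN M F = ZMod.unitOfCoprime r hrM := Units.ext (by
      rw [DS.cycloN_frobenius hA hrM.symm hF, ZMod.coe_unitOfCoprime])
    set e := sqrtD D (χ (ZMod.unitOfCoprime r hrM)) with he
    obtain ⟨g', hg'⟩ := exists_dUnit_eq hMN hχ e⁻¹
    obtain ⟨σ, δ, hrel, hsum⟩ := exists_transfer_opT (R := O) (A := O) hMN hK hr hrK h0 h1 g'
      (by rw [hg', inv_inv, he, sqrtD_sq]) g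
    refine ⟨σ, δ, hrel, ?_⟩
    rw [resPar_apply, tOp_apply, hcompat r hr (fun h => hrS (hS₁ h)) A hA F hF,
      opP_of_not_dvd O O hMN hr (fun h => hrK (h.trans hK)), hsum, hu, ← he]
    refine Finset.sum_congr rfl fun i _ => ?_
    rw [resPar_apply, B.coe_dia, ← diamond_apply hMN hχ hg', ← Module.End.mul_apply, ← map_mul,
      inv_mul_cancel, map_one, Module.End.one_apply]
  · have hrK : ¬ r ∣ K := fun h => hrS (hS r hr h)
    have hrM : r.Coprime M := hr.coprime_iff_not_dvd.2 fun h => hrK (h.trans (hMN.trans hK))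
    have hu : DS.cycloN M F = ZMod.unitOfCoprime r hrM := Units.ext (by
      rw [DS.cycloN_frobenius hA hrM.symm hF, ZMod.coe_unitOfCoprime])
    refine ⟨B.dia (χ (ZMod.unitOfCoprime r hrM)) v, ?_, fun γ hγ hγr x y hxy => ?_⟩
    · rw [dOp_apply, hu, GalRep.cyclo_frobenius hr (fun h : r = p => hrS (h ▸ hpS)) hA hF,
        map_natCast, Nat.cast_smul_eq_nsmul]
    · have hd : χ (dUnit hMN ⟨γ, gamma0_le hK hγ⟩) = χ (ZMod.unitOfCoprime r hrM) :=
        congrArg χ (Units.ext (by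
          rw [coe_dUnit, ZMod.coe_unitOfCoprime]
          have h := congrArg (ZMod.castHom (hMN.trans hK) (ZMod M)) hγr
          rwa [map_intCast, map_natCast] at h))
      rw [resPar_apply, resPar_apply, B.coe_dia, diamond_apply hMN hχ hd]
      exact diamondAt_apply_apply hMN ⟨γ, gamma0_le hK hγ⟩ _
        ⟨(x : SL(2, ℤ)), gamma1_le_gammaH hMN hK x.2⟩
        (δ := ⟨(y : SL(2, ℤ)), gamma1_le_gammaH hMN hK y.2⟩) hxy

/-- A multiple of a natural number modulo the operators. -/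
theorem exists_nsmul_of_mem_span {P : Type*} [AddCommGroup P] [Module O P] {m : ℕ} {x : P}
    (h : x ∈ Ideal.span {(m : O)} • (⊤ : Submodule O P)) : ∃ w, x = m • w := by
  rw [Submodule.ideal_span_singleton_smul] at h
  obtain ⟨w, -, rfl⟩ := h
  exact ⟨w, (Nat.cast_smul_eq_nsmul O m w)⟩

theorem cycloN_eq_of_eqOn :
    ∃ L : IntermediateField ℚ Qbar, FiniteDimensional ℚ L ∧
      ∀ σ τ : Γℚ, (∀ x ∈ L, σ x = τ x) → DS.cycloN M σ = DS.cycloN M τ := by
  obtain ⟨L, hL, h⟩ := DS.cycloN_finiteLevel M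
  refine ⟨L, hL, fun σ τ hστ => ?_⟩
  rw [show σ = τ * (τ⁻¹ * σ) by group, map_mul, h (τ⁻¹ * σ) fun x hx => by
    rw [AlgEquiv.mul_apply, hστ x hx]; exact τ.symm_apply_apply x, mul_one]

theorem contMod_tOp (k : ℕ) :
    ContMod (p ^ k) (tOp B φ) := by
  set I : Ideal O := Ideal.span {((p ^ k : ℕ) : O)}
  have : Finite (O ⧸ I) := by
    obtain ⟨ϖ, hϖ⟩ := IsDiscreteValuationRing.exists_irreducible O
    obtain ⟨n, hn⟩ := IsDiscreteValuationRing.ideal_eq_span_pow_irreducible (s := I)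
      (by simp [I, (Fact.out : p.Prime).ne_zero]) hϖ
    exact IsLocalRing.finite_quotient_iff.mpr
      ⟨n, le_of_eq (by rw [hn, hϖ.maximalIdeal_eq, Ideal.span_singleton_pow])⟩
  have := moduleFinite_coh (χ := χ) O O hMN
  have := isNoetherian_of_isNoetherianRing_of_finite O (Coh N χ O)
  obtain ⟨j, hj⟩ := exists_pow_redEnd (I := I) φ
  obtain ⟨L₁, hL₁, h₁⟩ := Dat.ρ.isAdicContinuous j
  obtain ⟨L₂, hL₂, h₂⟩ := cycloN_eq_of_eqOn (M := M)
  refine ⟨L₁ ⊔ L₂, inferInstance, fun σ τ hστ v => ?_⟩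
  have htr : Dat.ρ.trace σ - Dat.ρ.trace τ ∈ maximalIdeal Dat.R ^ j :=
    GalRep.trace_sub_mem Dat.ρ (h₁ _ fun x hx => by
      rw [AlgEquiv.mul_apply, hστ x ((le_sup_left : L₁ ≤ L₁ ⊔ L₂) hx)]
      exact τ.symm_apply_apply x)
  rw [tOp_apply, tOp_apply, h₂ σ τ fun x hx => hστ x ((le_sup_right : L₂ ≤ L₁ ⊔ L₂) hx),
    ← LinearMap.sub_apply, ← map_sub φ]
  exact exists_nsmul_of_mem_span (hj _ htr _)

theorem contMod_dOp (k : ℕ) :
    ContMod (p ^ k) (dOp B ψp) := by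
  obtain ⟨L₁, hL₁, h₁⟩ := GalRep.cyclo_continuous p k
  obtain ⟨L₂, hL₂, h₂⟩ := cycloN_eq_of_eqOn (M := M)
  refine ⟨L₁ ⊔ L₂, inferInstance, fun σ τ hστ v => ?_⟩
  have he : (GalRep.cyclo p σ : ℤ_[p]).toZModPow k = (GalRep.cyclo p τ : ℤ_[p]).toZModPow k := by
    rw [show σ = τ * (τ⁻¹ * σ) by group, map_mul, Units.val_mul, map_mul,
      h₁ (τ⁻¹ * σ) fun x hx => by
        rw [AlgEquiv.mul_apply, hστ x ((le_sup_left : L₁ ≤ L₁ ⊔ L₂) hx)]
        exact τ.symm_apply_apply x, mul_one]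
  have : NeZero (p ^ k) := ⟨pow_ne_zero k (Fact.out : p.Prime).ne_zero⟩
  have h3 := sub_mem
    (RTCond.algebraMap_padic_sub_natCast_mem (A := O) ψp (x := (GalRep.cyclo p σ : ℤ_[p]))
      (n := k) (ZMod.natCast_zmod_val _).symm)
    (RTCond.algebraMap_padic_sub_natCast_mem (A := O) ψp (x := (GalRep.cyclo p τ : ℤ_[p]))
      (n := k) ((ZMod.natCast_zmod_val _).symm))
  rw [he, sub_sub_sub_cancel_right, Algebra.algebraMap_self, RingHom.id_apply,
    RingHom.id_apply] at h3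
  rw [dOp_apply, dOp_apply, h₂ σ τ fun x hx => hστ x ((le_sup_right : L₂ ≤ L₁ ⊔ L₂) hx)]
  set u : cohPart χ hMN hl a := B.dia (χ (DS.cycloN M τ)) v
  rw [← @sub_smul O (cohPart χ hMN hl a) _ _ _ _ _ u]
  exact exists_nsmul_of_mem_span (Submodule.smul_mem_smul h3 Submodule.mem_top)

end FLTAgent.RT.Compat
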